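import Fermat.Agent.S28.RedR

/-!
# S28 piece P4: the coefficient ring `𝒪 = ℤ_(ℓ)[ζ_N] ⊆ ℂ`
-/

set_option autoImplicit false

open Polynomial
open scoped Real

noncomputable section

namespace Fermat.Agent.S28

variable (N ℓ : ℕ)

/-- The inclusion `ℤ_(ℓ) → ℂ`. -/
def cycIncl : GaloisRep.ratLocalizedAt ℓ →+* ℂ :=
  (algebraMap ℚ ℂ).comp (GaloisRep.ratLocalizedAt ℓ).subtype

theorem cycIncl_apply (r : GaloisRep.ratLocalizedAt ℓ) : cycIncl ℓ r = ((r : ℚ) : ℂ) := by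
  simp [cycIncl]

/-- Evaluation of polynomials over `ℤ_(ℓ)` at `ζ_N`. -/
def cycEv : (GaloisRep.ratLocalizedAt ℓ)[X] →+* ℂ := eval₂RingHom (cycIncl ℓ) (zetaN N)

theorem cycEv_apply (f : (GaloisRep.ratLocalizedAt ℓ)[X]) :
    cycEv N ℓ f = f.eval₂ (cycIncl ℓ) (zetaN N) := rfl

theorem zetaN_mem_cycRing : zetaN N ∈ cycRing N ℓ :=
  Subring.subset_closure (Or.inr rfl)

theorem cycIncl_mem_cycRing (r : GaloisRep.ratLocalizedAt ℓ) : cycIncl ℓ r ∈ cycRing N ℓ :=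
  Subring.subset_closure (Or.inl ⟨r, (cycIncl_apply ℓ r).symm⟩)

theorem cycEv_mem_cycRing (f : (GaloisRep.ratLocalizedAt ℓ)[X]) : cycEv N ℓ f ∈ cycRing N ℓ := by
  induction f using Polynomial.induction_on' with
  | add p q hp hq => rw [map_add]; exact add_mem hp hq
  | monomial n a =>
    rw [cycEv_apply, eval₂_monomial]
    exact mul_mem (cycIncl_mem_cycRing N ℓ a) (pow_mem (zetaN_mem_cycRing N ℓ) n)

theorem exists_cycEv_eq (z : ℂ) (hz : z ∈ cycRing N ℓ) :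
    ∃ f : (GaloisRep.ratLocalizedAt ℓ)[X], cycEv N ℓ f = z := by
  have hle : cycRing N ℓ ≤ (cycEv N ℓ).range := by
    rw [cycRing, Subring.closure_le]
    rintro z (⟨r, rfl⟩ | hz)
    · exact ⟨C r, by rw [cycEv_apply, eval₂_C, cycIncl_apply]⟩
    · rw [Set.mem_singleton_iff] at hz
      subst hz
      exact ⟨X, by rw [cycEv_apply, eval₂_X]⟩
  exact hle hz

theorem zetaN_isPrimitiveRoot [NeZero N] : IsPrimitiveRoot (zetaN N) N :=
  Complex.isPrimitiveRoot_exp N (NeZero.ne N)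

/-- (1) Every element of `𝒪` is integral over `ℤ_(ℓ)`. -/
theorem cycRing_isIntegralElem [NeZero N] (z : ℂ) (hz : z ∈ cycRing N ℓ) :
    (cycIncl ℓ).IsIntegralElem z := by
  rw [cycRing] at hz
  induction hz using Subring.closure_induction with
  | mem x hx =>
    rcases hx with ⟨r, rfl⟩ | hx
    · have h := (cycIncl ℓ).isIntegralElem_map (x := r)
      rwa [cycIncl_apply] at h
    · rw [Set.mem_singleton_iff] at hx
      subst hx
      refine ⟨X ^ N - 1, monic_X_pow_sub_C 1 (NeZero.ne N), ?_⟩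
      rw [eval₂_sub, eval₂_pow, eval₂_X, eval₂_one, (zetaN_isPrimitiveRoot N).pow_eq_one, sub_self]
  | zero => exact (cycIncl ℓ).isIntegralElem_zero
  | one => exact (cycIncl ℓ).isIntegralElem_one
  | add x y _ _ hx hy => exact RingHom.IsIntegralElem.add _ hx hy
  | neg x _ hx => exact RingHom.IsIntegralElem.neg _ hx
  | mul x y _ _ hx hy => exact RingHom.IsIntegralElem.mul _ hx hy

/-- (2) A rational number lying in `𝒪` is in `ℤ_(ℓ)`. -/
theorem rat_mem_of_mem_cycRing [NeZero N] [Fact ℓ.Prime] (x : ℚ) (hx : (x : ℂ) ∈ cycRing N ℓ) :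
    x ∈ GaloisRep.ratLocalizedAt ℓ := by
  obtain ⟨P, hP, hPx⟩ := cycRing_isIntegralElem N ℓ _ hx
  have hint : IsIntegral (GaloisRep.ratLocalizedAt ℓ) x := by
    refine ⟨P, hP, ?_⟩
    have h1 : (algebraMap ℚ ℂ) (P.eval₂ (algebraMap (GaloisRep.ratLocalizedAt ℓ) ℚ) x) = 0 := by
      rw [Polynomial.hom_eval₂]
      have : (algebraMap ℚ ℂ) x = (x : ℂ) := by simp
      rw [this]
      exact hPx
    exact (algebraMap ℚ ℂ).injective (by rw [h1, map_zero])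
  obtain ⟨y, hy⟩ := IsIntegrallyClosed.isIntegral_iff.mp hint
  rw [← hy]
  exact y.2

/-- `Φ_N(ζ_N) = 0`. -/
theorem cycEv_cyclotomic [NeZero N] :
    cycEv N ℓ (cyclotomic N (GaloisRep.ratLocalizedAt ℓ)) = 0 := by
  rw [cycEv_apply, eval₂_eq_eval_map, map_cyclotomic]
  exact (zetaN_isPrimitiveRoot N).isRoot_cyclotomic (Nat.pos_of_ne_zero (NeZero.ne N))

/-- The kernel of evaluation at `ζ_N` is generated by the cyclotomic polynomial. -/
theorem cyclotomic_dvd_of_cycEv_eq_zero [NeZero N] (f : (GaloisRep.ratLocalizedAt ℓ)[X])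
    (hf : cycEv N ℓ f = 0) : cyclotomic N (GaloisRep.ratLocalizedAt ℓ) ∣ f := by
  have hmon : (cyclotomic N (GaloisRep.ratLocalizedAt ℓ)).Monic := cyclotomic.monic N _
  rw [← modByMonic_eq_zero_iff_dvd hmon]
  set r := f %ₘ cyclotomic N (GaloisRep.ratLocalizedAt ℓ) with hr
  have hr0 : cycEv N ℓ r = 0 := by
    have h1 := modByMonic_add_div f (cyclotomic N (GaloisRep.ratLocalizedAt ℓ))
    have h2 : cycEv N ℓ r = cycEv N ℓ f - cycEv N ℓ (cyclotomic N (GaloisRep.ratLocalizedAt ℓ)) *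
        cycEv N ℓ (f /ₘ cyclotomic N (GaloisRep.ratLocalizedAt ℓ)) := by
      rw [← map_mul, ← map_sub]
      congr 1
      rw [eq_sub_iff_add_eq]
      exact h1
    rw [h2, hf, cycEv_cyclotomic, zero_mul, sub_zero]
  have hmapinj : Function.Injective
      (Polynomial.map (GaloisRep.ratLocalizedAt ℓ).subtype) :=
    map_injective _ Subtype.val_injective
  apply hmapinj
  rw [Polynomial.map_zero]
  have hdvd : minpoly ℚ (zetaN N) ∣ r.map (GaloisRep.ratLocalizedAt ℓ).subtype := by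
    apply minpoly.dvd
    rw [aeval_def, eval₂_map]
    exact hr0
  rw [← cyclotomic_eq_minpoly_rat (zetaN_isPrimitiveRoot N)
    (Nat.pos_of_ne_zero (NeZero.ne N))] at hdvd
  apply eq_zero_of_dvd_of_degree_lt hdvd
  calc (r.map (GaloisRep.ratLocalizedAt ℓ).subtype).degree ≤ r.degree := degree_map_le
    _ < (cyclotomic N (GaloisRep.ratLocalizedAt ℓ)).degree := degree_modByMonic_lt f hmon
    _ = (cyclotomic N ℚ).degree := by rw [degree_cyclotomic, degree_cyclotomic]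

/-- Evaluation at `ζ_N`, as a map onto `𝒪`. -/
def cycEv' : (GaloisRep.ratLocalizedAt ℓ)[X] →+* cycRing N ℓ :=
  (cycEv N ℓ).codRestrict (cycRing N ℓ) (cycEv_mem_cycRing N ℓ)

theorem cycEv'_coe (f : (GaloisRep.ratLocalizedAt ℓ)[X]) :
    ((cycEv' N ℓ f : cycRing N ℓ) : ℂ) = cycEv N ℓ f := rfl

theorem cycEv'_surjective : Function.Surjective (cycEv' N ℓ) := by
  rintro ⟨z, hz⟩
  obtain ⟨f, hf⟩ := exists_cycEv_eq N ℓ z hz
  exact ⟨f, Subtype.ext hf⟩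

/-- (3) Elements of `𝒪` not divisible by `ℓ` survive in some residue field of characteristic
`ℓ`. -/
theorem exists_residue_hom_ne_zero [NeZero N] [Fact ℓ.Prime] (hℓN : ¬ ℓ ∣ N) (z : cycRing N ℓ)
    (hz : ¬ ∃ w : cycRing N ℓ, z = (ℓ : cycRing N ℓ) * w) :
    ∃ (k : Type) (_ : Field k) (ρ : cycRing N ℓ →+* k), ρ (ℓ : cycRing N ℓ) = 0 ∧ ρ z ≠ 0 := by
  obtain ⟨f, rfl⟩ := cycEv'_surjective N ℓ z
  have : NeZero ((N : ℕ) : ZMod ℓ) := ⟨by
    rw [Ne, ZMod.natCast_eq_zero_iff]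
    exact hℓN⟩
  have hsq : Squarefree (cyclotomic N (ZMod ℓ)) := (separable_cyclotomic N (ZMod ℓ)).squarefree
  have hΦ : (cyclotomic N (GaloisRep.ratLocalizedAt ℓ)).map (redR ℓ) = cyclotomic N (ZMod ℓ) :=
    map_cyclotomic N (redR ℓ)
  have hnd : ¬ cyclotomic N (ZMod ℓ) ∣ f.map (redR ℓ) := by
    rintro ⟨gbar, hg⟩
    obtain ⟨g, rfl⟩ := map_surjective (redR ℓ) (redR_surjective ℓ) gbar
    have hdiv : C (ℓ : GaloisRep.ratLocalizedAt ℓ) ∣
        f - cyclotomic N (GaloisRep.ratLocalizedAt ℓ) * g := by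
      rw [C_dvd_iff_dvd_coeff]
      intro i
      have h0 : redR ℓ ((f - cyclotomic N (GaloisRep.ratLocalizedAt ℓ) * g).coeff i) = 0 := by
        rw [← coeff_map, Polynomial.map_sub, Polynomial.map_mul, hΦ, hg, sub_self, coeff_zero]
      obtain ⟨r', hr'⟩ := (redR_eq_zero_iff ℓ _).mp h0
      exact ⟨r', hr'⟩
    obtain ⟨h, hh⟩ := hdiv
    apply hz
    refine ⟨cycEv' N ℓ h, ?_⟩
    have hf : f = cyclotomic N (GaloisRep.ratLocalizedAt ℓ) * g +
        C (ℓ : GaloisRep.ratLocalizedAt ℓ) * h := by rw [← hh]; ring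
    have hC : cycEv' N ℓ (C (ℓ : GaloisRep.ratLocalizedAt ℓ)) = (ℓ : cycRing N ℓ) := by
      have hCn : (C (ℓ : GaloisRep.ratLocalizedAt ℓ) : (GaloisRep.ratLocalizedAt ℓ)[X]) =
          ((ℓ : ℕ) : (GaloisRep.ratLocalizedAt ℓ)[X]) := map_natCast C ℓ
      rw [hCn, map_natCast]
    have hΦ0 : cycEv' N ℓ (cyclotomic N (GaloisRep.ratLocalizedAt ℓ)) = 0 :=
      Subtype.ext (cycEv_cyclotomic N ℓ)
    conv_lhs => rw [hf]
    rw [map_add, map_mul, map_mul, hΦ0, zero_mul, zero_add, hC]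
  have hrad : (Ideal.span ({cyclotomic N (ZMod ℓ)} : Set (ZMod ℓ)[X])).IsRadical :=
    isRadical_iff_span_singleton.mp hsq.isRadical
  have hnot : f.map (redR ℓ) ∉ Ideal.span ({cyclotomic N (ZMod ℓ)} : Set (ZMod ℓ)[X]) := by
    rw [Ideal.mem_span_singleton]
    exact hnd
  rw [← hrad.radical, Ideal.radical_eq_sInf, Ideal.mem_sInf] at hnot
  push Not at hnot
  obtain ⟨J, ⟨hJle, hJprime⟩, hfJ⟩ := hnot
  have := hJprime
  let k : Type := FractionRing ((ZMod ℓ)[X] ⧸ J)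
  let ψ : (GaloisRep.ratLocalizedAt ℓ)[X] →+* k :=
    (algebraMap ((ZMod ℓ)[X] ⧸ J) k).comp ((Ideal.Quotient.mk J).comp (mapRingHom (redR ℓ)))
  have hψ : ∀ g : (GaloisRep.ratLocalizedAt ℓ)[X],
      ψ g = algebraMap ((ZMod ℓ)[X] ⧸ J) k (Ideal.Quotient.mk J (g.map (redR ℓ))) := fun g => rfl
  have hker : RingHom.ker (cycEv' N ℓ) ≤ RingHom.ker ψ := by
    intro g hg
    rw [RingHom.mem_ker] at hg ⊢
    have hg' : cycEv N ℓ g = 0 := by
      have := congrArg Subtype.val hg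
      exact this
    obtain ⟨q, rfl⟩ := cyclotomic_dvd_of_cycEv_eq_zero N ℓ g hg'
    rw [hψ, Polynomial.map_mul, hΦ]
    have hmem : cyclotomic N (ZMod ℓ) * q.map (redR ℓ) ∈ J :=
      hJle (Ideal.mem_span_singleton.mpr (dvd_mul_right _ _))
    rw [Ideal.Quotient.eq_zero_iff_mem.mpr hmem, map_zero]
  refine ⟨k, inferInstance, (cycEv' N ℓ).liftOfSurjective (cycEv'_surjective N ℓ) ⟨ψ, hker⟩, ?_, ?_⟩
  · have hC : cycEv' N ℓ (C (ℓ : GaloisRep.ratLocalizedAt ℓ)) = (ℓ : cycRing N ℓ) := by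
      have hCn : (C (ℓ : GaloisRep.ratLocalizedAt ℓ) : (GaloisRep.ratLocalizedAt ℓ)[X]) =
          ((ℓ : ℕ) : (GaloisRep.ratLocalizedAt ℓ)[X]) := map_natCast C ℓ
      rw [hCn, map_natCast]
    rw [← hC, RingHom.liftOfSurjective_comp_apply]
    show ψ (C (ℓ : GaloisRep.ratLocalizedAt ℓ)) = 0
    rw [hψ, Polynomial.map_C, map_natCast, ZMod.natCast_self, map_zero, map_zero, map_zero]
  · rw [RingHom.liftOfSurjective_comp_apply]
    show ψ f ≠ 0
    rw [hψ]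
    intro h0
    have h1 := (IsFractionRing.injective ((ZMod ℓ)[X] ⧸ J) k) (by rw [h0, map_zero] :
      algebraMap ((ZMod ℓ)[X] ⧸ J) k (Ideal.Quotient.mk J (f.map (redR ℓ))) =
        algebraMap ((ZMod ℓ)[X] ⧸ J) k 0)
    exact hfJ (Ideal.Quotient.eq_zero_iff_mem.mp h1)

/-- (4a) `ζ_N` is a unit of `𝒪`. -/
theorem isUnit_zetaN_cycRing [NeZero N] :
    IsUnit (⟨zetaN N, zetaN_mem_cycRing N ℓ⟩ : cycRing N ℓ) := by
  apply IsUnit.of_pow_eq_one (n := N) _ (NeZero.ne N)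
  apply Subtype.ext
  rw [SubmonoidClass.coe_pow]
  exact (zetaN_isPrimitiveRoot N).pow_eq_one

/-- (4b) Integers prime to `ℓ` are units of `𝒪`. -/
theorem isUnit_natCast_cycRing [Fact ℓ.Prime] (d : ℕ) (hd : ¬ ℓ ∣ d) :
    IsUnit (d : cycRing N ℓ) := by
  have h := (natCast_isUnit_ratLocalizedAt ℓ d hd).map
    ((cycIncl ℓ).codRestrict (cycRing N ℓ) (cycIncl_mem_cycRing N ℓ))
  rwa [map_natCast] at h

/-! ### Aliases under the names of the project skeleton -/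

theorem zetaN_mem : zetaN N ∈ cycRing N ℓ := zetaN_mem_cycRing N ℓ

theorem ratCast_mem_cycRing (r : GaloisRep.ratLocalizedAt ℓ) : ((r : ℚ) : ℂ) ∈ cycRing N ℓ := by
  rw [← cycIncl_apply]
  exact cycIncl_mem_cycRing N ℓ r

theorem zetaN_pow_eq_one [NeZero N] : zetaN N ^ N = 1 := (zetaN_isPrimitiveRoot N).pow_eq_one

/-- `ζ_N` as a unit of `𝒪`. -/
def zetaUnit [NeZero N] : (cycRing N ℓ)ˣ where
  val := ⟨zetaN N, zetaN_mem_cycRing N ℓ⟩
  inv := ⟨zetaN N ^ (N - 1), pow_mem (zetaN_mem_cycRing N ℓ) _⟩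
  val_inv := by
    apply Subtype.ext
    show zetaN N * zetaN N ^ (N - 1) = 1
    rw [← pow_succ', Nat.sub_add_cancel (Nat.one_le_iff_ne_zero.mpr (NeZero.ne N))]
    exact zetaN_pow_eq_one N
  inv_val := by
    apply Subtype.ext
    show zetaN N ^ (N - 1) * zetaN N = 1
    rw [← pow_succ, Nat.sub_add_cancel (Nat.one_le_iff_ne_zero.mpr (NeZero.ne N))]
    exact zetaN_pow_eq_one N

@[simp] theorem coe_zetaUnit [NeZero N] : ((zetaUnit N ℓ : cycRing N ℓ) : ℂ) = zetaN N := rfl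

/-- `𝒪` is integral over `ℤ_(ℓ)`. -/
theorem cycRing_isIntegral [NeZero N] (z : cycRing N ℓ) :
    ∃ P : Polynomial (GaloisRep.ratLocalizedAt ℓ), P.Monic ∧
      P.eval₂ ((algebraMap ℚ ℂ).comp (GaloisRep.ratLocalizedAt ℓ).subtype) (z : ℂ) = 0 :=
  cycRing_isIntegralElem N ℓ (z : ℂ) z.2

/-- `𝒪 ∩ ℚ = ℤ_(ℓ)`. -/
theorem cycRing_rat [NeZero N] [Fact ℓ.Prime] (x : ℚ) (hx : (x : ℂ) ∈ cycRing N ℓ) :
    x ∈ GaloisRep.ratLocalizedAt ℓ := rat_mem_of_mem_cycRing N ℓ x hx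

/-- `𝒪 / ℓ𝒪` is reduced (as `ℓ ∤ N`): an element not divisible by `ℓ` survives in some residue
field of characteristic `ℓ`. -/
theorem cycRing_exists_hom [NeZero N] [Fact ℓ.Prime] (hℓN : ¬ ℓ ∣ N) (z : cycRing N ℓ)
    (hz : ¬ ∃ w : cycRing N ℓ, z = (ℓ : cycRing N ℓ) * w) :
    ∃ (k : Type) (_ : Field k) (ρ : cycRing N ℓ →+* k), ρ (ℓ : cycRing N ℓ) = 0 ∧ ρ z ≠ 0 :=
  exists_residue_hom_ne_zero N ℓ hℓN z hz

end Fermat.Agent.S28
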