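import Mathlib
import Fermat.Prelude.Def_ModularCurve_IgusaScheme
import Fermat.Prelude.Def_ModularCurve_X0ModL

/-!
# S28 (Igusa integrality): shared definitions

All declarations of the S28 project live in `namespace Fermat.Agent.S28`.
-/

set_option autoImplicit false

open UpperHalfPlane ModularForm Complex ModularCurve
open scoped Real MatrixGroups CongruenceSubgroup Manifold

noncomputable section

namespace Fermat.Agent.S28

/-- The local parameter `t = exp (2πi τ / N)` at level `N`. -/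
def tParam (N : ℕ) (τ : ℍ) : ℂ := Complex.exp (2 * π * Complex.I * τ / N)

/-- `g` has the level-`N` expansion `s`: `g τ = ∑ₙ sₙ tⁿ` with `t = exp (2πiτ/N)`,
for every `τ` in the upper half plane. -/
def HasQExp (N : ℕ) (g : ℍ → ℂ) (s : LaurentSeries ℂ) : Prop :=
  ∀ τ : ℍ, HasSum (fun n : ℤ => s.coeff n * tParam N τ ^ n) (g τ)

/-- The root of unity `exp (2πi / N)`. -/
def zetaN (N : ℕ) : ℂ := Complex.exp (2 * π * Complex.I / N)

/-- The coefficient ring `𝒪 = ℤ_(ℓ)[ζ_N] ⊆ ℂ`. -/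
def cycRing (N ℓ : ℕ) : Subring ℂ :=
  Subring.closure (Set.range (fun r : GaloisRep.ratLocalizedAt ℓ => ((r : ℚ) : ℂ)) ∪ {zetaN N})

/-- Rational Laurent series in `q`, viewed as complex Laurent series in `t = q^(1/N)`. -/
def iotaN (N : ℕ) [NeZero N] : LaurentSeries ℚ →+* LaurentSeries ℂ :=
  (qExpand ℂ N).comp (coeffMap (algebraMap ℚ ℂ))

/-- `τ ↦ d τ` on the upper half plane. -/
def scaleH (d : ℕ) [NeZero d] (τ : ℍ) : ℍ :=
  ⟨(d : ℂ) * τ, by
    have hd : (0 : ℝ) < d := by exact_mod_cast Nat.pos_of_ne_zero (NeZero.ne d)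
    simpa using mul_pos hd τ.im_pos⟩

/-- `τ ↦ (a τ + b) / d'` on the upper half plane. -/
def affH (a d' : ℕ) [NeZero a] [NeZero d'] (b : ℤ) (τ : ℍ) : ℍ :=
  ⟨((a : ℂ) * τ + b) / d', by
    have ha : (0 : ℝ) < a := by exact_mod_cast Nat.pos_of_ne_zero (NeZero.ne a)
    have hd : (0 : ℝ) < d' := by exact_mod_cast Nat.pos_of_ne_zero (NeZero.ne d')
    have h1 : (((a : ℂ) * τ + b) / d').im = a * τ.im / d' := by
      rw [Complex.div_natCast_im]
      simp
    rw [h1]
    exact div_pos (mul_pos ha τ.im_pos) hd⟩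

@[simp] theorem coe_scaleH (d : ℕ) [NeZero d] (τ : ℍ) : (scaleH d τ : ℂ) = d * τ := rfl

@[simp] theorem coe_affH (a d' : ℕ) [NeZero a] [NeZero d'] (b : ℤ) (τ : ℍ) :
    (affH a d' b τ : ℂ) = ((a : ℂ) * τ + b) / d' := rfl

/-- The modular `j`-function `E₄³ / Δ`. -/
def Jfun (τ : ℍ) : ℂ := E₄ τ ^ 3 / ModularForm.discriminant τ

/-- The eta quotient `Δ(dτ) / Δ(τ)`. -/
def Ufun (d : ℕ) [NeZero d] (τ : ℍ) : ℂ :=
  ModularForm.discriminant (scaleH d τ) / ModularForm.discriminant τ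

/-- "Nice" functions: holomorphic, `Γ₀(N)`-invariant, and with an expansion with coefficients in
`𝒪 = ℤ_(ℓ)[ζ_N]` at every cusp (i.e. after composing with any `γ ∈ SL₂(ℤ)`). -/
structure IsNice (N ℓ : ℕ) [NeZero N] (g : ℍ → ℂ) : Prop where
  holo : MDifferentiable 𝓘(ℂ) 𝓘(ℂ) g
  inv : ∀ γ : SL(2, ℤ), γ ∈ CongruenceSubgroup.Gamma0 N → ∀ τ : ℍ, g (γ • τ) = g τ
  exp : ∀ γ : SL(2, ℤ), ∃ s : LaurentSeries (cycRing N ℓ),
    HasQExp N (fun τ => g (γ • τ)) (coeffMap (cycRing N ℓ).subtype s)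

/-- The rational `q`-series which are expansions at `∞` of nice functions. -/
def niceSet (N ℓ : ℕ) [NeZero N] : Set (LaurentSeries ℚ) :=
  {x | ∃ g, IsNice N ℓ g ∧ HasQExp N g (iotaN N x)}

/-- Lowest-term data of a Laurent series: the coefficient at `e` is `c` and all lower
coefficients vanish. -/
def IsLeading {A : Type*} [Zero A] (s : LaurentSeries A) (e : ℤ) (c : A) : Prop :=
  s.coeff e = c ∧ ∀ n < e, s.coeff n = 0

/-- `s(q) ↦ s(c q)` for a unit `c`. -/
def twistQ {A : Type*} [CommRing A] (c : Aˣ) (s : LaurentSeries A) : LaurentSeries A where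
  coeff n := ((c ^ n : Aˣ) : A) * s.coeff n
  isPWO_support' := s.isPWO_support.mono (fun n hn => by
    simp only [Function.mem_support, ne_eq, HahnSeries.mem_support] at hn ⊢
    exact fun h => hn (by rw [h, mul_zero]))

@[simp] theorem twistQ_coeff {A : Type*} [CommRing A] (c : Aˣ) (s : LaurentSeries A) (n : ℤ) :
    (twistQ c s).coeff n = ((c ^ n : Aˣ) : A) * s.coeff n := rfl

/-- `s(q) ↦ s(c t^m)` for a unit `c` and `m ≥ 1`. -/
def substQ {A : Type*} [CommRing A] (c : Aˣ) (m : ℕ) [NeZero m] (s : LaurentSeries A) :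
    LaurentSeries A := qExpand A m (twistQ c s)

/-- Constants from `ℤ_(ℓ)` as rational Laurent series. -/
def constR (ℓ : ℕ) : GaloisRep.ratLocalizedAt ℓ →+* LaurentSeries ℚ :=
  (HahnSeries.C : ℚ →+* LaurentSeries ℚ).comp (GaloisRep.ratLocalizedAt ℓ).subtype

/-- Evaluation of polynomials over `ℤ_(ℓ)` at `j(q)`. -/
def evJ (ℓ : ℕ) : Polynomial (GaloisRep.ratLocalizedAt ℓ) →+* LaurentSeries ℚ :=
  Polynomial.eval₂RingHom (constR ℓ) jq

/-- The formal `q`-expansion of `Δ` over any commutative ring. -/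
def deltaSeries (A : Type*) [CommRing A] : LaurentSeries A :=
  HahnSeries.ofPowerSeries ℤ A ((PowerSeries.X * dedekindEtaUnit).map (Int.castRingHom A))

/-- The formal `q`-expansion of `1 / Δ` over any commutative ring. -/
def deltaInvSeries (A : Type*) [CommRing A] : LaurentSeries A :=
  HahnSeries.single (-1 : ℤ) 1 *
    HahnSeries.ofPowerSeries ℤ A (dedekindEtaUnitInv.map (Int.castRingHom A))

end Fermat.Agent.S28

namespace Fermat.Agent.S28

/-- The data produced by the analytic core (q-expansion principle): a subring `B` of rational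
`q`-series containing the generators `j(q^d)`, `d ∣ N`, consisting of `ℓ`-integral series which
are integral over `ℤ_(ℓ)[j]`, and closed under division by `ℓ` whenever all coefficients are
divisible by `ℓ`. -/
structure CoreData (N ℓ : ℕ) [NeZero N] (B : Subring (LaurentSeries ℚ)) : Prop where
  const_mem : ∀ r : GaloisRep.ratLocalizedAt ℓ, constR ℓ r ∈ B
  gen_mem : ∀ (d : ℕ) [NeZero d], d ∣ N → qExpand ℚ d jq ∈ B
  coeff_mem : ∀ x ∈ B, ∀ n : ℤ, x.coeff n ∈ GaloisRep.ratLocalizedAt ℓ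
  integral : ∀ x ∈ B, ∃ P : Polynomial (Polynomial (GaloisRep.ratLocalizedAt ℓ)),
    P.Monic ∧ P.eval₂ (evJ ℓ) x = 0
  div : ∀ x ∈ B, (∀ n : ℤ, ∃ r ∈ GaloisRep.ratLocalizedAt ℓ, x.coeff n = ℓ * r) →
    ∃ y ∈ B, x = HahnSeries.C (ℓ : ℚ) * y

end Fermat.Agent.S28
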