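import Mathlib

/-!
# Level one modular functions are polynomials in `j`

A holomorphic function `g` on the upper half plane which is invariant under `SL(2, ℤ)` and has at
most a pole of order `m` at `i∞` (in the sense that `g * Δ ^ m` is bounded at `i∞`) is a
polynomial of degree at most `m` in `j = E₄ ^ 3 / Δ`.
-/

set_option autoImplicit false

namespace Fermat.Agent.S28

open UpperHalfPlane ModularForm Filter
open scoped MatrixGroups Manifold Topology Real

local notation "Δ" => ModularForm.discriminant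

/-- The weight `k` transformation law under `SL(2, ℤ)`, stated pointwise. -/
def lop_WtInv (k : ℤ) (F : ℍ → ℂ) : Prop :=
  ∀ (γ : SL(2, ℤ)) (τ : ℍ), F (γ • τ) = denom γ τ ^ k * F τ

theorem lop_WtInv.slash_eq {k : ℤ} {F : ℍ → ℂ} (h : lop_WtInv k F) (γ : SL(2, ℤ)) :
    F ∣[k] γ = F := by
  ext τ
  rw [SL_slash_apply, h γ τ, mul_comm, ← mul_assoc, ← zpow_add₀ (denom_ne_zero γ τ)]
  simp

theorem lop_WtInv.of_slash_eq {k : ℤ} {F : ℍ → ℂ} (h : ∀ γ : SL(2, ℤ), F ∣[k] γ = F) :
    lop_WtInv k F := by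
  intro γ τ
  have h1 := congrFun (h γ) τ
  rw [SL_slash_apply] at h1
  rw [← h1, mul_comm, mul_assoc, ← zpow_add₀ (denom_ne_zero γ τ)]
  simp

theorem lop_WtInv.mul {k₁ k₂ : ℤ} {F G : ℍ → ℂ} (hF : lop_WtInv k₁ F) (hG : lop_WtInv k₂ G) :
    lop_WtInv (k₁ + k₂) (F * G) := by
  intro γ τ
  simp only [Pi.mul_apply]
  rw [hF γ τ, hG γ τ, zpow_add₀ (denom_ne_zero γ τ)]
  ring

theorem lop_WtInv.one : lop_WtInv 0 (1 : ℍ → ℂ) := by
  intro γ τ
  simp

theorem lop_WtInv.pow {k : ℤ} {F : ℍ → ℂ} (hF : lop_WtInv k F) (n : ℕ) :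
    lop_WtInv (n * k) (F ^ n) := by
  induction n with
  | zero => simpa using lop_WtInv.one
  | succ n ih =>
    have := ih.mul hF
    rw [pow_succ]
    convert this using 1
    push_cast
    ring

theorem lop_WtInv.add {k : ℤ} {F G : ℍ → ℂ} (hF : lop_WtInv k F) (hG : lop_WtInv k G) :
    lop_WtInv k (F + G) := by
  intro γ τ
  simp only [Pi.add_apply]
  rw [hF γ τ, hG γ τ]
  ring

theorem lop_WtInv.smul {k : ℤ} {F : ℍ → ℂ} (hF : lop_WtInv k F) (c : ℂ) :
    lop_WtInv k (c • F) := by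
  intro γ τ
  simp only [Pi.smul_apply, smul_eq_mul]
  rw [hF γ τ]
  ring

theorem lop_WtInv.sub {k : ℤ} {F G : ℍ → ℂ} (hF : lop_WtInv k F) (hG : lop_WtInv k G) :
    lop_WtInv k (F - G) := by
  intro γ τ
  simp only [Pi.sub_apply]
  rw [hF γ τ, hG γ τ]
  ring

theorem lop_WtInv.div {k₁ k₂ : ℤ} {F G : ℍ → ℂ} (hF : lop_WtInv k₁ F) (hG : lop_WtInv k₂ G) :
    lop_WtInv (k₁ - k₂) (F / G) := by
  intro γ τ
  simp only [Pi.div_apply]
  rw [hF γ τ, hG γ τ, zpow_sub₀ (denom_ne_zero γ τ)]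
  have := zpow_ne_zero k₂ (denom_ne_zero γ τ)
  field_simp

theorem lop_WtInv.congr_weight {k k' : ℤ} {F : ℍ → ℂ} (hF : lop_WtInv k F) (h : k = k') :
    lop_WtInv k' F := h ▸ hF

/-- Level one modular forms satisfy the transformation law. -/
theorem lop_WtInv.of_modularForm {k : ℤ} {F' : Type*} [FunLike F' ℍ ℂ]
    [SlashInvariantFormClass F' 𝒮ℒ k] (f : F') : lop_WtInv k ⇑f :=
  lop_WtInv.of_slash_eq fun γ => SlashInvariantForm.slash_action_eqn f _ ⟨γ, rfl⟩

/-- A level one modular form from a holomorphic function with the weight `k` transformation law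
which is bounded at `i∞`. -/
noncomputable def lop_mkMF (k : ℤ) (F : ℍ → ℂ) (hF : MDiff F) (hinv : lop_WtInv k F)
    (hbd : IsBoundedAtImInfty F) : ModularForm 𝒮ℒ k where
  toFun := F
  slash_action_eq' := by
    rintro _ ⟨γ, rfl⟩
    exact hinv.slash_eq γ
  holo' := hF
  bdd_at_cusps' {c} hc := by
    rw [Subgroup.IsArithmetic.isCusp_iff_isCusp_SL2Z] at hc
    rw [OnePoint.isBoundedAt_iff_forall_SL2Z hc]
    intro γ _
    rw [hinv.slash_eq γ]
    exact hbd

/-- A level one cusp form from a holomorphic function with the weight `k` transformation law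
which vanishes at `i∞`. -/
noncomputable def lop_mkCF (k : ℤ) (F : ℍ → ℂ) (hF : MDiff F) (hinv : lop_WtInv k F)
    (hz : IsZeroAtImInfty F) : CuspForm 𝒮ℒ k where
  toFun := F
  slash_action_eq' := by
    rintro _ ⟨γ, rfl⟩
    exact hinv.slash_eq γ
  holo' := hF
  zero_at_cusps' {c} hc := by
    rw [Subgroup.IsArithmetic.isCusp_iff_isCusp_SL2Z] at hc
    rw [OnePoint.isZeroAt_iff_forall_SL2Z hc]
    intro γ _
    rw [hinv.slash_eq γ]
    exact hz

/-- A level one modular form has a limit at `i∞`. -/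
theorem lop_tendsto {k : ℤ} (f : ModularForm 𝒮ℒ k) :
    Tendsto (⇑f) atImInfty (𝓝 (cuspFunction 1 f 0)) := by
  have hper : Function.Periodic (⇑f ∘ ofComplex) 1 :=
    SlashInvariantFormClass.periodic_comp_ofComplex f one_mem_strictPeriods_SL
  have han := ModularFormClass.analyticAt_cuspFunction_zero f one_pos one_mem_strictPeriods_SL
  have hcomp : (cuspFunction 1 f ∘ fun τ : ℍ ↦ Function.Periodic.qParam 1 τ) = ⇑f := by
    funext τ
    simpa using eq_cuspFunction τ one_ne_zero hper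
  have h := han.continuousAt.tendsto.comp (qParam_tendsto_atImInfty one_pos)
  rw [hcomp] at h
  exact h

/-- `E₄` tends to `1` at `i∞`. -/
theorem lop_E4_tendsto : Tendsto (⇑E₄) atImInfty (𝓝 1) := by
  have h0 : cuspFunction 1 E₄ 0 = 1 := by
    have := EisensteinSeries.E_qExpansion_coeff_zero (k := 4) (by norm_num) ⟨2, rfl⟩
    simpa [qExpansion_coeff] using this
  have h := lop_tendsto E₄
  rwa [h0] at h

/-- The `j`-function `E₄ ^ 3 / Δ`. -/
noncomputable def lop_J : ℍ → ℂ := fun τ => E₄ τ ^ 3 / Δ τ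

theorem lop_J_apply (τ : ℍ) : lop_J τ = E₄ τ ^ 3 / Δ τ := rfl

theorem lop_mdiff_J : MDiff lop_J := by
  have h1 : MDiff (fun τ => E₄ τ ^ 3) := (ModularFormClass.holo E₄).pow 3
  exact h1.div CuspForm.discriminant.holo' discriminant_ne_zero

theorem lop_WtInv_E4 : lop_WtInv 4 ⇑E₄ := lop_WtInv.of_modularForm E₄

theorem lop_WtInv_discriminant : lop_WtInv 12 Δ :=
  lop_WtInv.of_modularForm CuspForm.discriminant

theorem lop_WtInv_J : lop_WtInv 0 lop_J := by
  have h := ((lop_WtInv_E4.pow 3).div lop_WtInv_discriminant)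
  exact h.congr_weight (by norm_num)

/-- **Level one modular functions are polynomials in `j`.** -/
theorem lop_exists_polynomial (m : ℕ) : ∀ g : ℍ → ℂ, MDiff g → lop_WtInv 0 g →
    IsBoundedAtImInfty (g * Δ ^ m) →
    ∃ P : Polynomial ℂ, P.natDegree ≤ m ∧ ∀ τ, g τ = P.eval (lop_J τ) := by
  induction m with
  | zero =>
    intro g hg hinv hbd
    rw [pow_zero, mul_one] at hbd
    obtain ⟨c, hc⟩ := ModularFormClass.levelOne_weight_zero_const (lop_mkMF 0 g hg hinv hbd)
    refine ⟨Polynomial.C c, by simp, fun τ => ?_⟩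
    have h : g τ = c := congrFun hc τ
    rw [Polynomial.eval_C]
    exact h
  | succ m ih =>
    intro g hg hinv hbd
    have hΔ : MDiff Δ := CuspForm.discriminant.holo'
    -- the modular form `F = g Δ^(m+1)`
    have hFinv : lop_WtInv (12 * (m + 1)) (g * Δ ^ (m + 1)) := by
      have := hinv.mul (lop_WtInv_discriminant.pow (m + 1))
      exact this.congr_weight (by push_cast; ring)
    have hFdiff : MDiff (g * Δ ^ (m + 1)) := hg.mul (hΔ.pow (m + 1))
    set MF := lop_mkMF (12 * (m + 1)) (g * Δ ^ (m + 1)) hFdiff hFinv hbd with hMF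
    set c : ℂ := cuspFunction 1 MF 0 with hc
    have hlim : Tendsto (g * Δ ^ (m + 1)) atImInfty (𝓝 c) := lop_tendsto MF
    -- the cusp form `H = F - c E₄^(3(m+1))`
    have hE : MDiff (⇑E₄ ^ (3 * (m + 1))) := (ModularFormClass.holo E₄).pow _
    have hEinv : lop_WtInv (12 * (m + 1)) (⇑E₄ ^ (3 * (m + 1))) := by
      have := lop_WtInv_E4.pow (3 * (m + 1))
      exact this.congr_weight (by push_cast; ring)
    have hHdiff : MDiff (g * Δ ^ (m + 1) - c • ⇑E₄ ^ (3 * (m + 1))) :=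
      hFdiff.sub (hE.const_smul c)
    have hHinv : lop_WtInv (12 * (m + 1)) (g * Δ ^ (m + 1) - c • ⇑E₄ ^ (3 * (m + 1))) :=
      hFinv.sub (hEinv.smul c)
    have hHzero : IsZeroAtImInfty (g * Δ ^ (m + 1) - c • ⇑E₄ ^ (3 * (m + 1))) := by
      have h1 : Tendsto (c • ⇑E₄ ^ (3 * (m + 1))) atImInfty (𝓝 (c • 1 ^ (3 * (m + 1)))) :=
        (lop_E4_tendsto.pow _).const_smul c
      have h2 := hlim.sub h1
      rw [one_pow, smul_eq_mul, mul_one, sub_self] at h2
      exact h2
    set CF := lop_mkCF (12 * (m + 1)) _ hHdiff hHinv hHzero with hCF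
    have hO : (⇑CF) =O[atImInfty] Δ := CuspForm.exp_decay_isBigO_discriminant CF
    have hbd' : IsBoundedAtImInfty (fun τ => CF τ / Δ τ) :=
      (Asymptotics.div_isBoundedUnder_of_isBigO hO).isBigO_one ℝ
    -- apply the induction hypothesis to `g - c J^(m+1)`
    have hg'diff : MDiff (g - c • lop_J ^ (m + 1)) :=
      hg.sub ((lop_mdiff_J.pow (m + 1)).const_smul c)
    have hg'inv : lop_WtInv 0 (g - c • lop_J ^ (m + 1)) := by
      have := (lop_WtInv_J.pow (m + 1)).smul c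
      exact hinv.sub (this.congr_weight (by simp))
    have hg'bd : IsBoundedAtImInfty ((g - c • lop_J ^ (m + 1)) * Δ ^ m) := by
      have heq : (g - c • lop_J ^ (m + 1)) * Δ ^ m = fun τ => CF τ / Δ τ := by
        funext τ
        have hne := discriminant_ne_zero τ
        show (g τ - c * (E₄ τ ^ 3 / Δ τ) ^ (m + 1)) * Δ τ ^ m =
          (g τ * Δ τ ^ (m + 1) - c * E₄ τ ^ (3 * (m + 1))) / Δ τ
        have hne' : Δ τ ^ (m + 1) ≠ 0 := pow_ne_zero _ hne
        rw [eq_div_iff hne, div_pow, ← pow_mul]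
        field_simp
        ring
      rw [heq]
      exact hbd'
    obtain ⟨P, hPdeg, hP⟩ := ih _ hg'diff hg'inv hg'bd
    refine ⟨P + Polynomial.C c * Polynomial.X ^ (m + 1), ?_, fun τ => ?_⟩
    · refine (Polynomial.natDegree_add_le _ _).trans (max_le (hPdeg.trans (Nat.le_succ m)) ?_)
      exact Polynomial.natDegree_C_mul_X_pow_le c (m + 1)
    · have := hP τ
      simp only [Pi.sub_apply, Pi.smul_apply, Pi.pow_apply, smul_eq_mul] at this
      simp only [Polynomial.eval_add, Polynomial.eval_mul, Polynomial.eval_C, Polynomial.eval_pow,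
        Polynomial.eval_X]
      rw [← this]
      ring

/-- `Δ / q` is bounded at `i∞`. -/
theorem lop_isBoundedAtImInfty_discriminant_div_q :
    IsBoundedAtImInfty (fun τ : ℍ => Δ τ / Function.Periodic.qParam 1 τ) := by
  have h1 : (fun τ : ℍ => Δ τ / Function.Periodic.qParam 1 τ) =
      fun x : ℍ ↦ ∏' (n : ℕ), (1 - eta_q n x) ^ 24 := by
    funext τ
    rw [discriminant_eq_q_prod, mul_div_assoc, mul_comm, div_mul_cancel₀]
    exact Complex.exp_ne_zero _
  rw [h1]
  exact tendsto_atImInfty_tprod_one_sub_eta_q_pow.isBigO_one ℝ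

theorem lop_isBoundedAtImInfty_pow {F : ℍ → ℂ} (hF : IsBoundedAtImInfty F) (m : ℕ) :
    IsBoundedAtImInfty (fun τ => F τ ^ m) := by
  induction m with
  | zero =>
    simp only [pow_zero]
    exact const_boundedAtFilter atImInfty (1 : ℂ)
  | succ m ih =>
    simp only [pow_succ]
    exact BoundedAtFilter.mul ih hF

/-- A function given by a convergent power series in `q = exp (2πiτ)` is bounded at `i∞`. -/
theorem lop_isBoundedAtImInfty_of_hasSum_nat (h : ℍ → ℂ) (b : ℕ → ℂ)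
    (hs : ∀ τ : ℍ, HasSum (fun k : ℕ => b k * Function.Periodic.qParam 1 τ ^ k) (h τ)) :
    IsBoundedAtImInfty h := by
  rw [isBoundedAtImInfty_iff]
  set q₀ : ℂ := Function.Periodic.qParam 1 (UpperHalfPlane.I : ℍ) with hq₀
  have hsum₀ : Summable (fun k : ℕ => ‖b k * q₀ ^ k‖) := (hs UpperHalfPlane.I).summable.norm
  set M : ℝ := ∑' k : ℕ, ‖b k * q₀ ^ k‖ with hM
  have hle : ∀ k, ‖b k * q₀ ^ k‖ ≤ M := fun k =>
    hsum₀.le_tsum k (fun j _ => norm_nonneg _)
  have hM0 : 0 ≤ M := (norm_nonneg _).trans (hle 0)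
  refine ⟨2 * M, 2, fun τ hτ => ?_⟩
  have hq₀norm : ‖q₀‖ = Real.exp (-2 * π) := by
    simp [hq₀, Function.Periodic.qParam, Complex.norm_exp]
  have hqnorm : ‖Function.Periodic.qParam 1 τ‖ = Real.exp (-2 * π * τ.im) := by
    simp [Function.Periodic.qParam, Complex.norm_exp]
  have hq₀pos : 0 < ‖q₀‖ := by rw [hq₀norm]; exact Real.exp_pos _
  have hratio : ‖Function.Periodic.qParam 1 τ‖ ≤ ‖q₀‖ / 2 := by
    rw [hqnorm, hq₀norm, le_div_iff₀ (by norm_num : (0 : ℝ) < 2)]
    have h1 : Real.exp (-2 * π * τ.im) ≤ Real.exp (-2 * π) * Real.exp (-2 * π) := by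
      rw [← Real.exp_add]
      apply Real.exp_le_exp.mpr
      nlinarith [Real.pi_pos]
    have h2 : Real.exp (-2 * π) * 2 ≤ 1 := by
      have h3 : Real.exp (-2 * π) ≤ Real.exp (-1) := by
        apply Real.exp_le_exp.mpr
        nlinarith [Real.pi_gt_three]
      have h4 : Real.exp (-1) * 2 ≤ 1 := by
        rw [Real.exp_neg, inv_mul_le_iff₀ (Real.exp_pos 1)]
        have := Real.add_one_le_exp (1 : ℝ)
        linarith
      nlinarith [Real.exp_pos (-2 * π)]
    nlinarith [Real.exp_pos (-2 * π)]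
  have hbound : ∀ k : ℕ, ‖b k * Function.Periodic.qParam 1 τ ^ k‖ ≤ M * (1 / 2) ^ k := by
    intro k
    have h1 : ‖b k * Function.Periodic.qParam 1 τ ^ k‖ ≤ ‖b k‖ * (‖q₀‖ / 2) ^ k := by
      rw [norm_mul, norm_pow]
      exact mul_le_mul_of_nonneg_left (pow_le_pow_left₀ (norm_nonneg _) hratio k) (norm_nonneg _)
    have h2 : ‖b k‖ * (‖q₀‖ / 2) ^ k = ‖b k * q₀ ^ k‖ * (1 / 2) ^ k := by
      rw [norm_mul, norm_pow, div_pow, one_div, inv_pow]
      ring
    rw [h2] at h1
    exact h1.trans (mul_le_mul_of_nonneg_right (hle k) (by positivity))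
  have hgeom : HasSum (fun k : ℕ => M * (1 / 2 : ℝ) ^ k) (M * 2) := by
    have h := (hasSum_geometric_of_lt_one (by norm_num : (0 : ℝ) ≤ 1 / 2)
      (by norm_num : (1 / 2 : ℝ) < 1)).mul_left M
    have h2 : M * (1 - 1 / 2 : ℝ)⁻¹ = M * 2 := by norm_num
    rwa [h2] at h
  have := (hs τ).norm_le_of_bounded hgeom hbound
  linarith

/-- A function with a Laurent expansion in `q = exp (2πiτ)` with pole order at most `m` at `i∞`
becomes bounded at `i∞` after multiplication by `Δ ^ m`. -/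
theorem lop_isBoundedAtImInfty_mul_discriminant_pow (g : ℍ → ℂ) (a : ℤ → ℂ) (m : ℕ)
    (ha : ∀ n : ℤ, n < -(m : ℤ) → a n = 0)
    (hs : ∀ τ : ℍ, HasSum (fun n : ℤ => a n * Function.Periodic.qParam 1 τ ^ n) (g τ)) :
    IsBoundedAtImInfty (g * Δ ^ m) := by
  have hq : ∀ τ : ℍ, Function.Periodic.qParam 1 (τ : ℂ) ≠ 0 := fun τ => Complex.exp_ne_zero _
  -- the power series for `g q^m`
  have h1 : IsBoundedAtImInfty (fun τ : ℍ => g τ * Function.Periodic.qParam 1 τ ^ m) := by
    apply lop_isBoundedAtImInfty_of_hasSum_nat _ (fun k : ℕ => a ((k : ℤ) - m))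
    intro τ
    have hinj : Function.Injective (fun k : ℕ => (k : ℤ) - m) := by
      intro x y hxy
      simpa using hxy
    have h2 := (hinj.hasSum_iff (f := fun n : ℤ => a n * Function.Periodic.qParam 1 τ ^ n)
      (fun n hn => by
        have : n < -(m : ℤ) := by
          by_contra hcon
          push Not at hcon
          exact hn ⟨(n + m).toNat, by simp; omega⟩
        simp [ha n this])).mpr (hs τ)
    have h3 := h2.mul_right (Function.Periodic.qParam 1 (τ : ℂ) ^ m)
    have hfun : (fun k : ℕ => a ((k : ℤ) - m) * Function.Periodic.qParam 1 (τ : ℂ) ^ k) =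
        fun i => ((fun n : ℤ => a n * Function.Periodic.qParam 1 (τ : ℂ) ^ n) ∘
          fun k : ℕ => (k : ℤ) - m) i * Function.Periodic.qParam 1 (τ : ℂ) ^ m := by
      funext k
      simp only [Function.comp_apply]
      rw [mul_assoc, zpow_sub₀ (hq τ), zpow_natCast, zpow_natCast, div_mul_cancel₀]
      exact pow_ne_zero _ (hq τ)
    rw [hfun]
    exact h3
  have h2 : IsBoundedAtImInfty (fun τ : ℍ => (Δ τ / Function.Periodic.qParam 1 τ) ^ m) :=
    lop_isBoundedAtImInfty_pow lop_isBoundedAtImInfty_discriminant_div_q m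
  have h3 : g * Δ ^ m = fun τ : ℍ => (g τ * Function.Periodic.qParam 1 τ ^ m) *
      (Δ τ / Function.Periodic.qParam 1 τ) ^ m := by
    funext τ
    simp only [Pi.mul_apply, Pi.pow_apply]
    rw [div_pow]
    have := pow_ne_zero m (hq τ)
    field_simp
  rw [h3]
  exact BoundedAtFilter.mul h1 h2

/-- **Level one modular functions are polynomials in `j`**, version with a Laurent expansion
in `q = exp (2πiτ)` at `i∞`. -/
theorem lop_exists_polynomial_of_hasSum (g : ℍ → ℂ) (hg : MDiff g)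
    (hinv : ∀ (γ : SL(2, ℤ)) (τ : ℍ), g (γ • τ) = g τ) (a : ℤ → ℂ) (m : ℕ)
    (ha : ∀ n : ℤ, n < -(m : ℤ) → a n = 0)
    (hs : ∀ τ : ℍ, HasSum (fun n : ℤ => a n * Function.Periodic.qParam 1 τ ^ n) (g τ)) :
    ∃ P : Polynomial ℂ, P.natDegree ≤ m ∧ ∀ τ, g τ = P.eval (E₄ τ ^ 3 / Δ τ) := by
  have hinv' : lop_WtInv 0 g := by
    intro γ τ
    rw [hinv γ τ, zpow_zero, one_mul]
  exact lop_exists_polynomial m g hg hinv' (lop_isBoundedAtImInfty_mul_discriminant_pow g a m ha hs)

end Fermat.Agent.S28
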