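import Fermat.Agent.S28.Disc
import Fermat.Prelude.Def_ModularCurve_X0

/-!
# S28: the analytic Euler product `∏ (1 - q^(n+1))` is given by the formal product `etaProd`
-/

set_option autoImplicit false

open Complex Metric Filter Topology

open scoped PowerSeries.WithPiTopology

noncomputable section

namespace Fermat.Agent.S28

/-- Locally uniform limits of holomorphic functions: all iterated derivatives converge. -/
theorem tendstoLocallyUniformlyOn_iteratedDeriv {ι : Type*} {φ : Filter ι} {U : Set ℂ}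
    (hU : IsOpen U) (k : ℕ) :
    ∀ (F : ι → ℂ → ℂ) (f : ℂ → ℂ), TendstoLocallyUniformlyOn F f φ U →
      (∀ᶠ n in φ, DifferentiableOn ℂ (F n) U) →
      TendstoLocallyUniformlyOn (fun n => iteratedDeriv k (F n)) (iteratedDeriv k f) φ U := by
  induction k with
  | zero =>
    intro F f hf _
    simpa [iteratedDeriv_zero] using hf
  | succ k ih =>
    intro F f hf hF
    have h1 : TendstoLocallyUniformlyOn (deriv ∘ F) (deriv f) φ U := hf.deriv hF hU
    have h2 : ∀ᶠ n in φ, DifferentiableOn ℂ ((deriv ∘ F) n) U := by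
      filter_upwards [hF] with n hn
      exact (hn.analyticOnNhd hU).deriv.differentiableOn
    have := ih (deriv ∘ F) (deriv f) h1 h2
    simpa [iteratedDeriv_succ'] using this

/-- The finite partial products are given by the corresponding formal products. -/
theorem discPS_finset_prod (s : Finset ℕ) :
    DiscPS (fun q => ∏ i ∈ s, (1 - q ^ (i + 1)))
      ((∏ i ∈ s, (1 - (PowerSeries.X : PowerSeries ℤ) ^ (i + 1))).map (Int.castRingHom ℂ)) := by
  classical
  induction s using Finset.induction_on with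
  | empty =>
    simp only [Finset.prod_empty, map_one]
    exact DiscPS.one
  | insert i t hi IH =>
    simp only [Finset.prod_insert hi, map_mul]
    have h1 : DiscPS (fun q : ℂ => 1 - q ^ (i + 1))
        ((1 - (PowerSeries.X : PowerSeries ℤ) ^ (i + 1)).map (Int.castRingHom ℂ)) := by
      have h0 := DiscPS.one.sub (DiscPS.id.pow (i + 1))
      have e : ((1 - (PowerSeries.X : PowerSeries ℤ) ^ (i + 1)).map (Int.castRingHom ℂ)) =
          1 - PowerSeries.X ^ (i + 1) := by simp
      rw [e]
      exact h0.congr (fun q _ => by simp)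
    exact h1.mul IH

/-- The Euler product `∏ (1 - q^(n+1))` on the unit disc is given by the formal product
`etaProd`. -/
theorem discPS_etaProd :
    DiscPS (fun q => ∏' n : ℕ, (1 - q ^ (n + 1)))
      (ModularCurve.etaProd.map (Int.castRingHom ℂ)) := by
  set F : ℂ → ℂ := fun q => ∏' n : ℕ, (1 - q ^ (n + 1)) with hFdef
  have hF : DifferentiableOn ℂ F (ball 0 1) := ModularForm.differentiableOn_tprod_one_sub_pow
  have hT := DiscPS.of_differentiableOn hF
  suffices h : (PowerSeries.mk fun n => (n.factorial : ℂ)⁻¹ * iteratedDeriv n F 0) =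
      ModularCurve.etaProd.map (Int.castRingHom ℂ) by
    rwa [h] at hT
  ext k
  rw [PowerSeries.coeff_mk, PowerSeries.coeff_map]
  -- analytic side
  have hlu : TendstoLocallyUniformlyOn
      (fun (s : Finset ℕ) (q : ℂ) => ∏ i ∈ s, (1 - q ^ (i + 1))) F atTop (ball 0 1) :=
    ModularForm.multipliableLocallyUniformlyOn_one_sub_pow.hasProdLocallyUniformlyOn
  have hdiff : ∀ᶠ s : Finset ℕ in atTop,
      DifferentiableOn ℂ (fun q : ℂ => ∏ i ∈ s, (1 - q ^ (i + 1))) (ball 0 1) :=
    .of_forall fun s => (discPS_finset_prod s).differentiableOn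
  have h1 := (tendstoLocallyUniformlyOn_iteratedDeriv isOpen_ball k _ _ hlu hdiff).tendsto_at
    (mem_ball_self one_pos : (0 : ℂ) ∈ ball 0 1)
  have h2 : Tendsto (fun s : Finset ℕ => (k.factorial : ℂ)⁻¹ *
      iteratedDeriv k (fun q : ℂ => ∏ i ∈ s, (1 - q ^ (i + 1))) 0) atTop
      (𝓝 ((k.factorial : ℂ)⁻¹ * iteratedDeriv k F 0)) := h1.const_mul _
  -- formal side
  have h3 : ∀ s : Finset ℕ, (k.factorial : ℂ)⁻¹ *
      iteratedDeriv k (fun q : ℂ => ∏ i ∈ s, (1 - q ^ (i + 1))) 0 =
      ((PowerSeries.coeff k (∏ i ∈ s, (1 - (PowerSeries.X : PowerSeries ℤ) ^ (i + 1))) : ℤ) : ℂ) := by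
    intro s
    have e := (DiscPS.of_differentiableOn (discPS_finset_prod s).differentiableOn).unique
      (discPS_finset_prod s)
    have := congrArg (PowerSeries.coeff k) e
    rwa [PowerSeries.coeff_mk, PowerSeries.coeff_map] at this
  have h4 : Tendsto (fun s : Finset ℕ =>
      PowerSeries.coeff k (∏ i ∈ s, (1 - (PowerSeries.X : PowerSeries ℤ) ^ (i + 1)))) atTop
      (𝓝 (PowerSeries.coeff k ModularCurve.etaProd)) := by
    have hp : HasProd (fun n : ℕ => (1 - (PowerSeries.X : PowerSeries ℤ) ^ (n + 1)))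
        ModularCurve.etaProd :=
      (PowerSeries.WithPiTopology.multipliable_one_sub_X_pow ℤ).hasProd
    exact ((PowerSeries.WithPiTopology.continuous_coeff ℤ k).tendsto _).comp hp
  have h5 : Tendsto (fun s : Finset ℕ =>
      ((PowerSeries.coeff k (∏ i ∈ s, (1 - (PowerSeries.X : PowerSeries ℤ) ^ (i + 1))) : ℤ) : ℂ))
      atTop (𝓝 ((PowerSeries.coeff k ModularCurve.etaProd : ℤ) : ℂ)) :=
    ((continuous_of_discreteTopology (f := fun z : ℤ => (z : ℂ))).tendsto _).comp h4
  simp only [← h3] at h5
  exact tendsto_nhds_unique h2 h5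

end Fermat.Agent.S28
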