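import Fermat.Agent.S28.QExp
import Fermat.Agent.S28.EtaProd
import Fermat.Agent.S28.LevelOnePoly

/-!
# S28 piece P1: analytic facts on `E₄`, `Δ` and `J` and their expansions
-/

set_option autoImplicit false

open UpperHalfPlane ModularForm Complex ModularCurve
open scoped Real MatrixGroups CongruenceSubgroup Manifold

noncomputable section

namespace Fermat.Agent.S28

/-- Formal product = analytic product for the Euler product. -/
theorem hasSum_etaProd (q : ℂ) (hq : ‖q‖ < 1) :
    HasSum (fun n : ℕ => ((PowerSeries.coeff n etaProd : ℤ) : ℂ) * q ^ n)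
      (∏' n : ℕ, (1 - q ^ (n + 1))) := by
  have h := discPS_etaProd q hq
  simpa only [PowerSeries.coeff_map, eq_intCast] using h

theorem discriminant_mdifferentiable :
    MDifferentiable 𝓘(ℂ) 𝓘(ℂ) (fun τ : ℍ => ModularForm.discriminant τ) :=
  CuspForm.discriminant.holo'

/-- Modularity of `Δ`, in concrete form. -/
theorem discriminant_smul (γ : SL(2, ℤ)) (τ : ℍ) :
    ModularForm.discriminant (γ • τ) =
      (((γ 1 0 : ℤ) : ℂ) * τ + ((γ 1 1 : ℤ) : ℂ)) ^ 12 * ModularForm.discriminant τ := by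
  have h := lop_WtInv_discriminant γ τ
  have e : UpperHalfPlane.denom (γ : GL (Fin 2) ℝ) τ =
      ((γ 1 0 : ℤ) : ℂ) * τ + ((γ 1 1 : ℤ) : ℂ) := by
    simp [UpperHalfPlane.denom]
  rw [h, e]
  norm_cast

theorem Jfun_mdifferentiable : MDifferentiable 𝓘(ℂ) 𝓘(ℂ) Jfun := lop_mdiff_J

theorem Jfun_smul (γ : SL(2, ℤ)) (τ : ℍ) : Jfun (γ • τ) = Jfun τ := by
  have h := lop_WtInv_J γ τ
  rw [zpow_zero, one_mul] at h
  exact h

/-- `q ∏ (1 - q^(n+1))^24` on the unit disc is given by the formal series `X * dedekindEtaUnit`. -/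
theorem discPS_delta :
    DiscPS (fun q => q * ∏' n : ℕ, (1 - q ^ (n + 1)) ^ 24)
      ((PowerSeries.X * dedekindEtaUnit).map (Int.castRingHom ℂ)) := by
  have h := DiscPS.id.mul (discPS_etaProd.pow 24)
  have e : ((PowerSeries.X * dedekindEtaUnit).map (Int.castRingHom ℂ)) =
      PowerSeries.X * (etaProd.map (Int.castRingHom ℂ)) ^ 24 := by
    rw [map_mul, dedekindEtaUnit, map_pow, PowerSeries.map_X]
  rw [e]
  refine h.congr fun q hq => ?_
  simp only [Pi.mul_apply, Pi.pow_apply]
  rw [(ModularForm.multipliable_one_sub_pow hq).tprod_pow 24]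

theorem tParam_one_eq (τ : ℍ) : tParam 1 τ = Function.Periodic.qParam 1 τ := by
  simpa using tParam_eq_qParam 1 τ

theorem hasQExp_E4_aux :
    qExpansion 1 E₄ = eisenstein4.map (Int.castRingHom ℂ) := by
  ext m
  rw [EisensteinSeries.E_qExpansion_coeff _ ⟨2, rfl⟩ m, PowerSeries.coeff_map, eisenstein4,
    PowerSeries.coeff_mk]
  split_ifs with h
  · simp
  · rw [ArithmeticFunction.sigma_apply]
    norm_num [show bernoulli 4 = -1 / 30 by decide +kernel]

theorem hasQExp_E4 :
    HasQExp 1 (fun τ => E₄ τ)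
      (HahnSeries.ofPowerSeries ℤ ℂ (eisenstein4.map (Int.castRingHom ℂ))) := by
  rw [hasQExp_ofPowerSeries_iff]
  intro τ
  have := ModularForm.hasSum_qExpansion (f := E₄) one_pos one_mem_strictPeriods_SL τ
  rw [hasQExp_E4_aux] at this
  simpa [tParam_one_eq] using this

theorem hasQExp_discriminant :
    HasQExp 1 (fun τ => ModularForm.discriminant τ) (deltaSeries ℂ) := by
  have h := hasQExp_of_discPS (N := 1) (g := fun τ => ModularForm.discriminant τ) discPS_delta 0
    (fun τ => by
      rw [ModularForm.discriminant_eq_q_prod, zpow_zero, one_mul, tParam_one_eq])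
  have e : (HahnSeries.single 0 (1 : ℂ) * HahnSeries.ofPowerSeries ℤ ℂ
      ((PowerSeries.X * dedekindEtaUnit).map (Int.castRingHom ℂ)) : LaurentSeries ℂ) =
      deltaSeries ℂ := by
    rw [HahnSeries.single_zero_one, one_mul]
    rfl
  rwa [e] at h

theorem jd_deltaSeries_mul_deltaInvSeries (A : Type*) [CommRing A] :
    deltaSeries A * deltaInvSeries A = 1 := by
  rw [deltaSeries, deltaInvSeries, map_mul, map_mul, PowerSeries.map_X, HahnSeries.ofPowerSeries_X]
  have h1 : HahnSeries.ofPowerSeries ℤ A (dedekindEtaUnit.map (Int.castRingHom A)) *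
      HahnSeries.ofPowerSeries ℤ A (dedekindEtaUnitInv.map (Int.castRingHom A)) = 1 := by
    rw [← map_mul, ← map_mul, dedekindEtaUnit_mul_inv, map_one, map_one]
  calc HahnSeries.single (1 : ℤ) (1 : A) *
        HahnSeries.ofPowerSeries ℤ A (dedekindEtaUnit.map (Int.castRingHom A)) *
        (HahnSeries.single (-1 : ℤ) 1 *
          HahnSeries.ofPowerSeries ℤ A (dedekindEtaUnitInv.map (Int.castRingHom A)))
      = (HahnSeries.single (1 : ℤ) (1 : A) * HahnSeries.single (-1 : ℤ) 1) *
        (HahnSeries.ofPowerSeries ℤ A (dedekindEtaUnit.map (Int.castRingHom A)) *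
          HahnSeries.ofPowerSeries ℤ A (dedekindEtaUnitInv.map (Int.castRingHom A))) := by ring
    _ = 1 := by
      rw [h1, mul_one, HahnSeries.single_mul_single, mul_one]
      rfl

theorem hasQExp_discriminant_inv :
    HasQExp 1 (fun τ => (ModularForm.discriminant τ)⁻¹) (deltaInvSeries ℂ) := by
  have h := hasQExp_discriminant.inv (fun τ => ModularForm.discriminant_ne_zero τ)
  have e : (deltaSeries ℂ)⁻¹ = deltaInvSeries ℂ :=
    inv_eq_of_mul_eq_one_right (jd_deltaSeries_mul_deltaInvSeries ℂ)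
  rwa [e] at h

theorem hasQExp_Jfun : HasQExp 1 Jfun (jqModC ℂ) := by
  have h := (hasQExp_E4.pow 3).mul hasQExp_discriminant_inv
  have e : (HahnSeries.ofPowerSeries ℤ ℂ (eisenstein4.map (Int.castRingHom ℂ))) ^ 3 *
      deltaInvSeries ℂ = jqModC ℂ := by
    rw [jqModC, deltaInvSeries, jNum, map_mul, map_mul, map_pow, map_pow]
    ring
  rw [e] at h
  exact h.congr fun τ => by simp [Jfun, div_eq_mul_inv]

end Fermat.Agent.S28
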