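import Mathlib

/-!
# S28: power series converging on the open unit disc

`DiscPS G p` : the function `G : ℂ → ℂ` is given on the open unit disc by the power series `p`.
-/

set_option autoImplicit false

open Complex Metric

noncomputable section

namespace Fermat.Agent.S28

/-- `G` is given on the open unit disc by the power series `p`. -/
def DiscPS (G : ℂ → ℂ) (p : PowerSeries ℂ) : Prop :=
  ∀ q : ℂ, ‖q‖ < 1 → HasSum (fun m : ℕ => p.coeff m * q ^ m) (G q)

/-- Pointwise Cauchy product of two convergent power series. -/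
theorem hasSum_coeff_mul {p r : PowerSeries ℂ} {q a b : ℂ}
    (h1 : HasSum (fun m : ℕ => p.coeff m * q ^ m) a)
    (h2 : HasSum (fun m : ℕ => r.coeff m * q ^ m) b) :
    HasSum (fun m : ℕ => (p * r).coeff m * q ^ m) (a * b) := by
  have s1 : Summable fun m : ℕ => ‖p.coeff m * q ^ m‖ := h1.summable.norm
  have s2 : Summable fun m : ℕ => ‖r.coeff m * q ^ m‖ := h2.summable.norm
  have key := tsum_mul_tsum_eq_tsum_sum_antidiagonal_of_summable_norm s1 s2
  have hs := (summable_norm_sum_mul_antidiagonal_of_summable_norm s1 s2).of_norm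
  rw [h1.tsum_eq, h2.tsum_eq] at key
  have : (fun m : ℕ => (p * r).coeff m * q ^ m) =
      fun n => ∑ kl ∈ Finset.HasAntidiagonal.antidiagonal n,
        (p.coeff kl.1 * q ^ kl.1) * (r.coeff kl.2 * q ^ kl.2) := by
    funext n
    rw [PowerSeries.coeff_mul, Finset.sum_mul]
    refine Finset.sum_congr rfl fun kl hkl => ?_
    rw [← Finset.HasAntidiagonal.mem_antidiagonal.mp hkl, pow_add]
    ring
  rw [this, key]
  exact hs.hasSum

namespace DiscPS

variable {G H : ℂ → ℂ} {p r : PowerSeries ℂ}

theorem hasFPowerSeriesOnBall (h : DiscPS G p) :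
    HasFPowerSeriesOnBall G (.ofScalars ℂ fun m => p.coeff m) 0 1 := by
  constructor
  · refine le_of_forall_lt_imp_le_of_dense fun r hr ↦ ?_
    lift r to NNReal using hr.ne_top
    apply FormalMultilinearSeries.le_radius_of_summable
    have hr1 : ‖((r : ℝ) : ℂ)‖ < 1 := by
      rw [Complex.norm_real, Real.norm_eq_abs, NNReal.abs_eq]
      exact_mod_cast hr
    have := (h ((r : ℝ) : ℂ) hr1).summable.norm
    simpa [FormalMultilinearSeries.ofScalars_norm] using this
  · simp
  · intro y hy
    have hy' : ‖y‖ < 1 := by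
      rw [← ENNReal.coe_one, Metric.eball_coe, NNReal.coe_one, mem_ball_zero_iff] at hy
      exact hy
    simpa [FormalMultilinearSeries.ofScalars_apply_eq, mul_comm] using h y hy'

theorem differentiableOn (h : DiscPS G p) : DifferentiableOn ℂ G (ball 0 1) := by
  have := h.hasFPowerSeriesOnBall.differentiableOn
  rwa [← ENNReal.coe_one, Metric.eball_coe, NNReal.coe_one] at this

theorem unique (h : DiscPS G p) (h' : DiscPS G r) : p = r := by
  have h1 := h.hasFPowerSeriesOnBall.hasFPowerSeriesAt
  have h2 := h'.hasFPowerSeriesOnBall.hasFPowerSeriesAt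
  have := FormalMultilinearSeries.ofScalars_series_injective ℂ ℂ
    (h1.eq_formalMultilinearSeries h2)
  ext m
  exact congrFun this m

theorem apply_zero (h : DiscPS G p) : G 0 = p.coeff 0 := by
  have := h 0 (by simp)
  have h2 : HasSum (fun m : ℕ => p.coeff m * (0 : ℂ) ^ m) (p.coeff 0) := by
    convert hasSum_ite_eq (0 : ℕ) (p.coeff 0) using 2 with m
    rcases m with _ | m <;> simp
  exact this.unique h2

theorem of_differentiableOn (hG : DifferentiableOn ℂ G (ball 0 1)) :
    DiscPS G (PowerSeries.mk fun n => (n.factorial : ℂ)⁻¹ * iteratedDeriv n G 0) := by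
  intro q hq
  have := Complex.hasSum_taylorSeries_on_ball hG (z := q) (by simpa using hq)
  have e : (fun m : ℕ => (PowerSeries.mk fun n => (n.factorial : ℂ)⁻¹ *
      iteratedDeriv n G 0).coeff m * q ^ m) =
      fun n : ℕ => ((n.factorial : ℂ))⁻¹ • (q - 0) ^ n • iteratedDeriv n G 0 := by
    funext n
    rw [PowerSeries.coeff_mk, sub_zero, smul_eq_mul, smul_eq_mul]
    ring
  show HasSum (fun m : ℕ => (PowerSeries.mk fun n => (n.factorial : ℂ)⁻¹ *
      iteratedDeriv n G 0).coeff m * q ^ m) (G q)
  rw [e]
  exact this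

theorem exists_of_differentiableOn (hG : DifferentiableOn ℂ G (ball 0 1)) :
    ∃ p, DiscPS G p := ⟨_, of_differentiableOn hG⟩

theorem add (h : DiscPS G p) (h' : DiscPS H r) : DiscPS (G + H) (p + r) := by
  intro q hq
  simpa [add_mul] using (h q hq).add (h' q hq)

theorem neg (h : DiscPS G p) : DiscPS (-G) (-p) := by
  intro q hq
  simpa using (h q hq).neg

theorem sub (h : DiscPS G p) (h' : DiscPS H r) : DiscPS (G - H) (p - r) := by
  intro q hq
  simpa [sub_mul] using (h q hq).sub (h' q hq)

theorem const (a : ℂ) : DiscPS (fun _ => a) (PowerSeries.C a) := by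
  intro q _
  convert hasSum_ite_eq (0 : ℕ) a using 2 with m
  rcases m with _ | m <;> simp [PowerSeries.coeff_C]

theorem one : DiscPS 1 1 := by
  have := const 1
  rw [map_one] at this
  exact this

theorem zero : DiscPS 0 0 := by
  have := const 0
  rw [map_zero] at this
  exact this

theorem id : DiscPS (fun q => q) PowerSeries.X := by
  intro q _
  convert hasSum_ite_eq (1 : ℕ) q using 2 with m
  rw [PowerSeries.coeff_X]
  split_ifs with h <;> simp [h]

theorem mul (h : DiscPS G p) (h' : DiscPS H r) : DiscPS (G * H) (p * r) :=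
  fun q hq => hasSum_coeff_mul (h q hq) (h' q hq)

theorem pow (h : DiscPS G p) (n : ℕ) : DiscPS (G ^ n) (p ^ n) := by
  induction n with
  | zero => rw [pow_zero, pow_zero]; exact one
  | succ n ih => rw [pow_succ, pow_succ]; exact ih.mul h

theorem smul (a : ℂ) (h : DiscPS G p) : DiscPS (fun q => a * G q) (PowerSeries.C a * p) :=
  (const a).mul h

theorem congr (h : DiscPS G p) (hGH : ∀ q : ℂ, ‖q‖ < 1 → G q = H q) : DiscPS H p := by
  intro q hq
  rw [← hGH q hq]
  exact h q hq

/-- The inverse of a nonvanishing function given by a power series on the unit disc is given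
by the inverse power series. -/
theorem inv (h : DiscPS G p) (hG : ∀ q : ℂ, ‖q‖ < 1 → G q ≠ 0) :
    ∃ r : PowerSeries ℂ, p * r = 1 ∧ DiscPS (fun q => (G q)⁻¹) r := by
  have hd : DifferentiableOn ℂ (fun q => (G q)⁻¹) (ball 0 1) :=
    h.differentiableOn.inv (fun q hq => hG q (by simpa using hq))
  obtain ⟨r, hr⟩ := exists_of_differentiableOn hd
  refine ⟨r, ?_, hr⟩
  have h1 : DiscPS 1 (p * r) := by
    refine (h.mul hr).congr fun q hq => ?_
    simp [hG q hq]
  exact h1.unique one

end DiscPS

end Fermat.Agent.S28
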