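import Fermat.Agent.S28.Formal
import Fermat.Agent.S28.Disc

/-!
# S28 piece P0: API for `HasQExp` (convergent Laurent expansions in `t = exp (2πiτ/N)`)
-/

set_option autoImplicit false

open UpperHalfPlane ModularForm Complex ModularCurve
open scoped Real MatrixGroups CongruenceSubgroup Manifold

noncomputable section

namespace Fermat.Agent.S28

theorem tParam_ne_zero (N : ℕ) (τ : ℍ) : tParam N τ ≠ 0 := Complex.exp_ne_zero _

theorem tParam_eq_qParam (N : ℕ) (τ : ℍ) :
    tParam N τ = Function.Periodic.qParam (N : ℝ) τ := by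
  simp [tParam, Function.Periodic.qParam]

theorem norm_tParam_lt_one (N : ℕ) [NeZero N] (τ : ℍ) : ‖tParam N τ‖ < 1 := by
  have hN : (0 : ℝ) < N := by exact_mod_cast Nat.pos_of_ne_zero (NeZero.ne N)
  rw [tParam_eq_qParam]
  exact Function.Periodic.norm_qParam_lt_one hN τ.im_pos

/-- Every point of the punctured unit disc is a value of the parameter. -/
theorem exists_tParam_eq (N : ℕ) [NeZero N] {q : ℂ} (hq : ‖q‖ < 1) (hq0 : q ≠ 0) :
    ∃ τ : ℍ, tParam N τ = q := by
  have hN : (0 : ℝ) < N := by exact_mod_cast Nat.pos_of_ne_zero (NeZero.ne N)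
  have h1 := Function.Periodic.im_invQParam_pos_of_norm_lt_one hN hq hq0
  refine ⟨⟨Function.Periodic.invQParam N q, h1⟩, ?_⟩
  rw [tParam_eq_qParam]
  exact Function.Periodic.qParam_right_inv hN.ne' hq0

/-- Power series version of `HasQExp`, for any lower bound `k` of the support. -/
theorem hasQExp_iff_nat {N : ℕ} {g : ℍ → ℂ} {s : LaurentSeries ℂ} (k : ℤ)
    (hk : ∀ n < k, s.coeff n = 0) :
    HasQExp N g s ↔ ∀ τ : ℍ, HasSum (fun m : ℕ => s.coeff (m + k) * tParam N τ ^ m)
      (tParam N τ ^ (-k) * g τ) := by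
  refine forall_congr' fun τ => ?_
  set t := tParam N τ
  have ht : t ≠ 0 := tParam_ne_zero N τ
  have e1 : HasSum (fun n : ℤ => s.coeff n * t ^ n) (g τ) ↔
      HasSum (fun n : ℤ => s.coeff (n + k) * t ^ (n + k)) (g τ) :=
    ((Equiv.addRight k).hasSum_iff (f := fun n : ℤ => s.coeff n * t ^ n)).symm
  have e2 : HasSum (fun n : ℤ => s.coeff (n + k) * t ^ (n + k)) (g τ) ↔
      HasSum (fun m : ℕ => s.coeff (m + k) * t ^ ((m : ℤ) + k)) (g τ) := by
    refine (Function.Injective.hasSum_iff Nat.cast_injective ?_).symm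
    intro n hn
    have hn' : n < 0 := by
      by_contra h
      exact hn ⟨n.toNat, by simp [Int.toNat_of_nonneg (not_lt.mp h)]⟩
    rw [hk (n + k) (by omega), zero_mul]
  rw [e1, e2]
  have e3 : (fun m : ℕ => s.coeff (m + k) * t ^ m) =
      fun m : ℕ => t ^ (-k) * (s.coeff (m + k) * t ^ ((m : ℤ) + k)) := by
    funext m
    rw [zpow_add₀ ht, zpow_natCast, zpow_neg]
    field_simp
  rw [e3]
  exact (hasSum_mul_left_iff (zpow_ne_zero _ ht)).symm

theorem qx_coeff_single_mul_of_lt (k : ℤ) (p : PowerSeries ℂ) {n : ℤ} (hn : n < k) :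
    (HahnSeries.single k (1 : ℂ) * HahnSeries.ofPowerSeries ℤ ℂ p).coeff n = 0 := by
  rw [HahnSeries.coeff_single_mul, one_mul]
  exact ofPowerSeries_coeff_of_neg p (by omega)

theorem qx_coeff_single_mul_add (k : ℤ) (p : PowerSeries ℂ) (m : ℕ) :
    (HahnSeries.single k (1 : ℂ) * HahnSeries.ofPowerSeries ℤ ℂ p).coeff (m + k) = p.coeff m := by
  rw [HahnSeries.coeff_single_mul, one_mul, add_sub_cancel_right,
    HahnSeries.ofPowerSeries_apply_coeff]

/-- Every Laurent series is `t^k` times a power series, for any lower bound `k` of its support. -/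
theorem qx_eq_single_mul (s : LaurentSeries ℂ) (k : ℤ) (hk : ∀ n < k, s.coeff n = 0) :
    s = HahnSeries.single k (1 : ℂ) *
      HahnSeries.ofPowerSeries ℤ ℂ (PowerSeries.mk fun m => s.coeff (m + k)) := by
  ext n
  rcases lt_or_ge n k with h | h
  · rw [hk n h, qx_coeff_single_mul_of_lt _ _ h]
  · obtain ⟨m, rfl⟩ : ∃ m : ℕ, n = m + k := ⟨(n - k).toNat, by
      rw [Int.toNat_of_nonneg (by omega)]; ring⟩
    rw [qx_coeff_single_mul_add, PowerSeries.coeff_mk]

theorem qx_exists_lowerBound (s : LaurentSeries ℂ) : ∃ k : ℤ, ∀ n < k, s.coeff n = 0 :=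
  ⟨s.order, fun _ hn => HahnSeries.coeff_eq_zero_of_lt_order hn⟩

/-- Reduction to power series: the `ℕ`-indexed form of `HasQExp`. -/
theorem hasQExp_single_mul_iff (N : ℕ) (g : ℍ → ℂ) (a : ℤ) (p : PowerSeries ℂ) :
    HasQExp N g (HahnSeries.single a (1 : ℂ) * HahnSeries.ofPowerSeries ℤ ℂ p) ↔
      ∀ τ : ℍ, HasSum (fun k : ℕ => PowerSeries.coeff k p * tParam N τ ^ k)
        (g τ * tParam N τ ^ (-a)) := by
  rw [hasQExp_iff_nat a (fun n hn => qx_coeff_single_mul_of_lt a p hn)]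
  simp only [qx_coeff_single_mul_add, mul_comm (tParam N _ ^ (-a)) (g _)]

theorem hasQExp_ofPowerSeries_iff (N : ℕ) (g : ℍ → ℂ) (p : PowerSeries ℂ) :
    HasQExp N g (HahnSeries.ofPowerSeries ℤ ℂ p) ↔
      ∀ τ : ℍ, HasSum (fun k : ℕ => PowerSeries.coeff k p * tParam N τ ^ k) (g τ) := by
  have h := hasQExp_single_mul_iff N g 0 p
  rw [HahnSeries.single_zero_one, one_mul] at h
  simpa using h

theorem hasQExp_const (N : ℕ) (c : ℂ) : HasQExp N (fun _ => c) (HahnSeries.C c) := by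
  rw [← HahnSeries.ofPowerSeries_C, hasQExp_ofPowerSeries_iff]
  intro τ
  convert hasSum_ite_eq (0 : ℕ) c using 2 with m
  rcases m with _ | m <;> simp [PowerSeries.coeff_C]

theorem HasQExp.congr {N : ℕ} {g g' : ℍ → ℂ} {s : LaurentSeries ℂ} (h : HasQExp N g s)
    (hg : ∀ τ, g τ = g' τ) : HasQExp N g' s := by
  intro τ
  rw [← hg τ]
  exact h τ

theorem HasQExp.add {N : ℕ} {g g' : ℍ → ℂ} {s s' : LaurentSeries ℂ} (h : HasQExp N g s)
    (h' : HasQExp N g' s') : HasQExp N (fun τ => g τ + g' τ) (s + s') := by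
  intro τ
  simpa [add_mul] using (h τ).add (h' τ)

theorem HasQExp.neg {N : ℕ} {g : ℍ → ℂ} {s : LaurentSeries ℂ} (h : HasQExp N g s) :
    HasQExp N (fun τ => -g τ) (-s) := by
  intro τ
  simpa using (h τ).neg

theorem HasQExp.sub {N : ℕ} {g g' : ℍ → ℂ} {s s' : LaurentSeries ℂ} (h : HasQExp N g s)
    (h' : HasQExp N g' s') : HasQExp N (fun τ => g τ - g' τ) (s - s') := by
  intro τ
  simpa [sub_mul] using (h τ).sub (h' τ)

theorem HasQExp.mul {N : ℕ} {g g' : ℍ → ℂ} {s s' : LaurentSeries ℂ} (h : HasQExp N g s)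
    (h' : HasQExp N g' s') : HasQExp N (fun τ => g τ * g' τ) (s * s') := by
  obtain ⟨k, hk⟩ := qx_exists_lowerBound s
  obtain ⟨k', hk'⟩ := qx_exists_lowerBound s'
  have e := qx_eq_single_mul s k hk
  have e' := qx_eq_single_mul s' k' hk'
  set p := PowerSeries.mk fun m => s.coeff (m + k) with hp
  set p' := PowerSeries.mk fun m => s'.coeff (m + k') with hp'
  have h1 := (hasQExp_single_mul_iff N g k p).mp (e ▸ h)
  have h2 := (hasQExp_single_mul_iff N g' k' p').mp (e' ▸ h')
  have e3 : s * s' = HahnSeries.single (k + k') (1 : ℂ) * HahnSeries.ofPowerSeries ℤ ℂ (p * p') := by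
    rw [e, e', map_mul, mul_mul_mul_comm, HahnSeries.single_mul_single, mul_one]
  rw [e3, hasQExp_single_mul_iff]
  intro τ
  have := hasSum_coeff_mul (h1 τ) (h2 τ)
  have ht := tParam_ne_zero N τ
  have e4 : g τ * g' τ * tParam N τ ^ (-(k + k')) =
      g τ * tParam N τ ^ (-k) * (g' τ * tParam N τ ^ (-k')) := by
    rw [neg_add, zpow_add₀ ht]
    ring
  rw [e4]
  exact this

theorem HasQExp.const_mul {N : ℕ} {g : ℍ → ℂ} {s : LaurentSeries ℂ} (c : ℂ) (h : HasQExp N g s) :
    HasQExp N (fun τ => c * g τ) (HahnSeries.C c * s) :=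
  (hasQExp_const N c).mul h

theorem HasQExp.pow {N : ℕ} {g : ℍ → ℂ} {s : LaurentSeries ℂ} (h : HasQExp N g s) (n : ℕ) :
    HasQExp N (fun τ => g τ ^ n) (s ^ n) := by
  induction n with
  | zero =>
    simp only [pow_zero]
    have := hasQExp_const N 1
    rwa [HahnSeries.C_one] at this
  | succ n ih =>
    simp only [pow_succ]
    exact ih.mul h

theorem HasQExp.finset_sum {N : ℕ} {ι : Type*} (S : Finset ι) (g : ι → ℍ → ℂ)
    (s : ι → LaurentSeries ℂ) (h : ∀ i ∈ S, HasQExp N (g i) (s i)) :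
    HasQExp N (fun τ => ∑ i ∈ S, g i τ) (∑ i ∈ S, s i) := by
  classical
  induction S using Finset.induction_on with
  | empty =>
    simp only [Finset.sum_empty]
    have := hasQExp_const N 0
    rwa [HahnSeries.C_zero] at this
  | insert i T hi IH =>
    simp only [Finset.sum_insert hi]
    exact (h i (Finset.mem_insert_self i T)).add
      (IH fun j hj => h j (Finset.mem_insert_of_mem hj))

theorem HasQExp.finset_prod {N : ℕ} {ι : Type*} (S : Finset ι) (g : ι → ℍ → ℂ)
    (s : ι → LaurentSeries ℂ) (h : ∀ i ∈ S, HasQExp N (g i) (s i)) :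
    HasQExp N (fun τ => ∏ i ∈ S, g i τ) (∏ i ∈ S, s i) := by
  classical
  induction S using Finset.induction_on with
  | empty =>
    simp only [Finset.prod_empty]
    have := hasQExp_const N 1
    rwa [HahnSeries.C_one] at this
  | insert i T hi IH =>
    simp only [Finset.prod_insert hi]
    exact (h i (Finset.mem_insert_self i T)).mul
      (IH fun j hj => h j (Finset.mem_insert_of_mem hj))

/-- The function on the disc attached to a power series. -/
def discFun (p : PowerSeries ℂ) (q : ℂ) : ℂ := ∑' m : ℕ, p.coeff m * q ^ m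

theorem discPS_discFun_of {N : ℕ} [NeZero N] {g : ℍ → ℂ} {p : PowerSeries ℂ}
    (h : ∀ τ : ℍ, HasSum (fun m : ℕ => p.coeff m * tParam N τ ^ m) (g τ)) :
    DiscPS (discFun p) p ∧ ∀ τ, g τ = discFun p (tParam N τ) := by
  refine ⟨fun q hq => ?_, fun τ => (h τ).tsum_eq.symm⟩
  rcases eq_or_ne q 0 with rfl | hq0
  · have : Summable (fun m : ℕ => p.coeff m * (0 : ℂ) ^ m) := by
      refine summable_of_ne_finset_zero (s := {0}) fun m hm => ?_
      have : m ≠ 0 := by simpa using hm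
      simp [this]
    exact this.hasSum
  · obtain ⟨τ, rfl⟩ := exists_tParam_eq N hq hq0
    exact (h τ).summable.hasSum

/-- From a disc power series to a `q`-expansion. -/
theorem hasQExp_of_discPS {N : ℕ} [NeZero N] {g : ℍ → ℂ} {G : ℂ → ℂ} {p : PowerSeries ℂ}
    (hG : DiscPS G p) (k : ℤ) (hg : ∀ τ, g τ = tParam N τ ^ k * G (tParam N τ)) :
    HasQExp N g (HahnSeries.single k (1 : ℂ) * HahnSeries.ofPowerSeries ℤ ℂ p) := by
  rw [hasQExp_single_mul_iff]
  intro τ
  have ht := tParam_ne_zero N τ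
  have : g τ * tParam N τ ^ (-k) = G (tParam N τ) := by
    rw [hg τ, mul_comm, ← mul_assoc, ← zpow_add₀ ht]
    simp
  rw [this]
  exact hG _ (norm_tParam_lt_one N τ)

/-- From a `q`-expansion to a disc power series. -/
theorem HasQExp.rep {N : ℕ} [NeZero N] {g : ℍ → ℂ} {s : LaurentSeries ℂ} (h : HasQExp N g s)
    (k : ℤ) (hk : ∀ n < k, s.coeff n = 0) :
    ∃ p : PowerSeries ℂ, s = HahnSeries.single k (1 : ℂ) * HahnSeries.ofPowerSeries ℤ ℂ p ∧
      DiscPS (discFun p) p ∧ (∀ m : ℕ, p.coeff m = s.coeff (m + k)) ∧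
      ∀ τ, g τ = tParam N τ ^ k * discFun p (tParam N τ) := by
  have h1 := (hasQExp_iff_nat k hk).mp h
  have h2 : ∀ τ : ℍ, HasSum (fun m : ℕ => (PowerSeries.mk fun m => s.coeff (m + k)).coeff m *
      tParam N τ ^ m) (tParam N τ ^ (-k) * g τ) := by
    simpa only [PowerSeries.coeff_mk] using h1
  refine ⟨PowerSeries.mk fun m => s.coeff (m + k), qx_eq_single_mul s k hk,
    (discPS_discFun_of h2).1, fun m => PowerSeries.coeff_mk _ _, ?_⟩
  intro τ
  have h3 := (discPS_discFun_of h2).2 τ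
  have ht := tParam_ne_zero N τ
  rw [← h3, ← mul_assoc, ← zpow_add₀ ht]
  simp

/-- Uniqueness of the expansion. -/
theorem HasQExp.unique {N : ℕ} [NeZero N] {g : ℍ → ℂ} {s s' : LaurentSeries ℂ}
    (h : HasQExp N g s) (h' : HasQExp N g s') : s = s' := by
  set k := min s.order s'.order with hkdef
  have hk : ∀ n < k, s.coeff n = 0 := fun n hn =>
    HahnSeries.coeff_eq_zero_of_lt_order (lt_of_lt_of_le hn (min_le_left _ _))
  have hk' : ∀ n < k, s'.coeff n = 0 := fun n hn =>
    HahnSeries.coeff_eq_zero_of_lt_order (lt_of_lt_of_le hn (min_le_right _ _))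
  obtain ⟨p, hsp, hp, -, hgp⟩ := h.rep k hk
  obtain ⟨p', hsp', hp', -, hgp'⟩ := h'.rep k hk'
  have hD : DiscPS (fun q => q * (discFun p q - discFun p' q)) (PowerSeries.X * (p - p')) :=
    DiscPS.id.mul (hp.sub hp')
  have hD0 : DiscPS 0 (PowerSeries.X * (p - p')) := by
    refine hD.congr fun q hq => ?_
    rcases eq_or_ne q 0 with rfl | hq0
    · simp
    · obtain ⟨τ, rfl⟩ := exists_tParam_eq N hq hq0
      have e := (hgp τ).symm.trans (hgp' τ)
      have ht := zpow_ne_zero k (tParam_ne_zero N τ)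
      have : discFun p (tParam N τ) = discFun p' (tParam N τ) := mul_left_cancel₀ ht e
      simp [this]
  have h0 := hD0.unique DiscPS.zero
  have hpp : p = p' := by
    rcases mul_eq_zero.mp h0 with hX | hpp
    · exact absurd hX PowerSeries.X_ne_zero
    · exact sub_eq_zero.mp hpp
  rw [hsp, hsp', hpp]

/-- A function with an expansion without negative terms is bounded at `i∞`. -/
theorem HasQExp.isBoundedAtImInfty {N : ℕ} [NeZero N] {g : ℍ → ℂ} {s : LaurentSeries ℂ}
    (h : HasQExp N g s) (hs : ∀ n : ℤ, n < 0 → s.coeff n = 0) :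
    UpperHalfPlane.IsBoundedAtImInfty g := by
  have hN : (0 : ℝ) < N := by exact_mod_cast Nat.pos_of_ne_zero (NeZero.ne N)
  have h1 := (hasQExp_iff_nat 0 hs).mp h
  refine UpperHalfPlane.isBoundedAtImInfty_of_hasSum_qExpansion (h := (N : ℝ))
    (c := fun m : ℕ => s.coeff m) hN fun τ => ?_
  have h2 := h1 τ
  simp only [add_zero, neg_zero, zpow_zero, one_mul] at h2
  simpa [tParam_eq_qParam] using h2

/-- A function with an expansion is holomorphic. -/
theorem HasQExp.mdifferentiable {N : ℕ} [NeZero N] {g : ℍ → ℂ} {s : LaurentSeries ℂ}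
    (h : HasQExp N g s) : MDifferentiable 𝓘(ℂ) 𝓘(ℂ) g := by
  obtain ⟨k, hk⟩ := qx_exists_lowerBound s
  obtain ⟨p, -, hp, -, hgp⟩ := h.rep k hk
  rw [UpperHalfPlane.mdifferentiable_iff]
  have hN : (0 : ℝ) < N := by exact_mod_cast Nat.pos_of_ne_zero (NeZero.ne N)
  set E : ℂ → ℂ := fun z => Complex.exp (2 * π * Complex.I * z / N) with hE
  have hEd : Differentiable ℂ E := by
    intro z
    simp only [hE]
    fun_prop
  have hEne : ∀ z, E z ≠ 0 := fun z => Complex.exp_ne_zero _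
  have hEball : ∀ z : ℂ, 0 < z.im → E z ∈ Metric.ball (0 : ℂ) 1 := by
    intro z hz
    have := norm_tParam_lt_one N ⟨z, hz⟩
    simpa [tParam, hE] using this
  have hd : DifferentiableOn ℂ (fun z => E z ^ k * discFun p (E z)) {z | 0 < z.im} := by
    intro z hz
    have h1 : DifferentiableAt ℂ (fun z => E z ^ k) z :=
      (hEd z).zpow (Or.inl (hEne z))
    have h2 : DifferentiableAt ℂ (fun z => discFun p (E z)) z := by
      have hball : Metric.ball (0 : ℂ) 1 ∈ nhds (E z) := Metric.isOpen_ball.mem_nhds (hEball z hz)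
      exact ((hp.differentiableOn (E z) (hEball z hz)).differentiableAt hball).comp z (hEd z)
    exact (h1.mul h2).differentiableWithinAt
  refine hd.congr fun z hz => ?_
  have hz' : 0 < z.im := hz
  simp only [Function.comp_apply]
  rw [UpperHalfPlane.ofComplex_apply_of_im_pos hz', hgp]
  rfl

/-- Substitution: if the level-`M` parameter of `z τ` is `c * t ^ m` (`t` the level-`N`
parameter of `τ`), then `g ∘ z` has the substituted expansion. -/
theorem HasQExp.comp_of_tParam {M N : ℕ} {g : ℍ → ℂ} {s : LaurentSeries ℂ} (h : HasQExp M g s)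
    (z : ℍ → ℍ) (c : ℂˣ) (m : ℕ) [NeZero m]
    (hz : ∀ τ : ℍ, tParam M (z τ) = (c : ℂ) * tParam N τ ^ m) :
    HasQExp N (fun τ => g (z τ)) (substQ c m s) := by
  intro τ
  have hm : (m : ℤ) ≠ 0 := by exact_mod_cast NeZero.ne m
  have hinj : Function.Injective (fun k : ℤ => (m : ℤ) * k) := mul_right_injective₀ hm
  refine (Function.Injective.hasSum_iff hinj ?_).mp ?_
  · intro n hn
    have hnd : ¬ (m : ℤ) ∣ n := fun ⟨k, hk⟩ => hn ⟨k, hk.symm⟩
    rw [substQ, qExpand_coeff_of_not_dvd m _ hnd, zero_mul]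
  · have h0 := h (z τ)
    convert h0 using 2 with k
    simp only [Function.comp_apply]
    rw [substQ, qExpand_coeff_mul, twistQ_coeff, hz τ, mul_zpow, Units.val_zpow_eq_zpow_val,
      zpow_mul, zpow_natCast]
    ring

/-- Change of level. -/
theorem HasQExp.level {N : ℕ} {g : ℍ → ℂ} {s : LaurentSeries ℂ} (h : HasQExp N g s) (M : ℕ)
    [NeZero M] : HasQExp (N * M) g (qExpand ℂ M s) := by
  intro τ
  have hM : (M : ℤ) ≠ 0 := by exact_mod_cast NeZero.ne M
  have hMc : (M : ℂ) ≠ 0 := by exact_mod_cast NeZero.ne M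
  have hinj : Function.Injective (fun k : ℤ => (M : ℤ) * k) := mul_right_injective₀ hM
  have ht : tParam N τ = tParam (N * M) τ ^ M := by
    rw [tParam, tParam, ← Complex.exp_nat_mul]
    congr 1
    push_cast
    by_cases hN : (N : ℂ) = 0
    · simp [hN]
    · field_simp
  refine (Function.Injective.hasSum_iff hinj ?_).mp ?_
  · intro n hn
    have hnd : ¬ (M : ℤ) ∣ n := fun ⟨k, hk⟩ => hn ⟨k, hk.symm⟩
    rw [qExpand_coeff_of_not_dvd M _ hnd, zero_mul]
  · have h0 := h τ
    convert h0 using 2 with k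
    simp only [Function.comp_apply]
    rw [qExpand_coeff_mul, ht, zpow_mul, zpow_natCast]

/-- The expansion of a nonvanishing function is nonzero. -/
theorem HasQExp.ne_zero_of_ne_zero {N : ℕ} {g : ℍ → ℂ} {s : LaurentSeries ℂ} (h : HasQExp N g s)
    (hg : ∀ τ, g τ ≠ 0) : s ≠ 0 := by
  rintro rfl
  have h0 : HasSum (fun n : ℤ => (0 : LaurentSeries ℂ).coeff n * tParam N UpperHalfPlane.I ^ n)
      0 := by
    simp
  exact hg _ ((h UpperHalfPlane.I).unique h0)

/-- The expansion of the inverse of a nowhere vanishing function. -/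
theorem HasQExp.inv {N : ℕ} [NeZero N] {g : ℍ → ℂ} {s : LaurentSeries ℂ} (h : HasQExp N g s)
    (hg : ∀ τ, g τ ≠ 0) : HasQExp N (fun τ => (g τ)⁻¹) s⁻¹ := by
  have hs : s ≠ 0 := h.ne_zero_of_ne_zero hg
  obtain ⟨k, hkdef⟩ : ∃ k : ℤ, k = s.order := ⟨_, rfl⟩
  obtain ⟨p, hsp, hp, hpc, hgp⟩ := h.rep k
    (fun _ hn => HahnSeries.coeff_eq_zero_of_lt_order (hkdef ▸ hn))
  have hp0 : p.coeff 0 ≠ 0 := by
    rw [hpc 0, hkdef]
    simpa using (HahnSeries.coeff_order_eq_zero.not.mpr hs)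
  have hG : ∀ q : ℂ, ‖q‖ < 1 → discFun p q ≠ 0 := by
    intro q hq
    rcases eq_or_ne q 0 with rfl | hq0
    · rw [hp.apply_zero]; exact hp0
    · obtain ⟨τ, rfl⟩ := exists_tParam_eq N hq hq0
      intro h0
      exact hg τ (by rw [hgp τ, h0, mul_zero])
  obtain ⟨r, hpr, hr⟩ := hp.inv hG
  have key := hasQExp_of_discPS (N := N) (g := fun τ => (g τ)⁻¹) hr (-k) (fun τ => by
    rw [hgp τ, mul_inv, zpow_neg])
  have e : s⁻¹ = HahnSeries.single (-k) (1 : ℂ) * HahnSeries.ofPowerSeries ℤ ℂ r := by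
    refine inv_eq_of_mul_eq_one_right ?_
    rw [hsp, mul_mul_mul_comm, HahnSeries.single_mul_single, ← map_mul, hpr, RingHom.map_one,
      mul_one, mul_one, add_neg_cancel]
    rfl
  rw [e]
  exact key

theorem HasQExp.div {N : ℕ} [NeZero N] {g g' : ℍ → ℂ} {s s' : LaurentSeries ℂ}
    (h : HasQExp N g s) (h' : HasQExp N g' s') (hg' : ∀ τ, g' τ ≠ 0) :
    HasQExp N (fun τ => g τ / g' τ) (s / s') := by
  have := h.mul (h'.inv hg')
  rw [div_eq_mul_inv]
  exact this.congr fun τ => by simp [div_eq_mul_inv]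

end Fermat.Agent.S28
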