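import Fermat.Agent.S28.JDelta

/-!
# S28 piece P2: Hermite normal form of `(d 0; 0 1) γ` and the transformation of `J(dτ)`,
`Δ(dτ)/Δ(τ)` under `SL₂(ℤ)`
-/

set_option autoImplicit false

open UpperHalfPlane ModularForm Complex ModularCurve
open scoped Real MatrixGroups CongruenceSubgroup Manifold

noncomputable section

namespace Fermat.Agent.S28

/-! ### Auxiliary facts on the `SL(2,ℤ)`-action -/

theorem hermite_coe_smul (γ : SL(2, ℤ)) (τ : ℍ) :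
    ((γ • τ : ℍ) : ℂ) = (((γ 0 0 : ℤ) : ℂ) * τ + ((γ 0 1 : ℤ) : ℂ)) /
      (((γ 1 0 : ℤ) : ℂ) * τ + ((γ 1 1 : ℤ) : ℂ)) := by
  rw [coe_specialLinearGroup_apply]
  simp

theorem hermite_denom_ne_zero (γ : SL(2, ℤ)) (τ : ℍ) :
    ((γ 1 0 : ℤ) : ℂ) * τ + ((γ 1 1 : ℤ) : ℂ) ≠ 0 := by
  have h := UpperHalfPlane.denom_ne_zero (γ : GL (Fin 2) ℝ) τ
  rwa [ModularGroup.denom_apply] at h

theorem hermite_det (γ : SL(2, ℤ)) : γ 0 0 * γ 1 1 - γ 0 1 * γ 1 0 = 1 := by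
  have h := γ.det_coe
  rw [Matrix.det_fin_two] at h
  exact h

/-- Hermite normal form: `(d 0; 0 1) γ = γ' (a b; 0 d')` with `a = gcd (γ₁₀, d)`, `a d' = d`. -/
theorem exists_hermite (γ : SL(2, ℤ)) (d : ℕ) [NeZero d] :
    ∃ (γ' : SL(2, ℤ)) (a d' : ℕ) (b : ℤ), a = Int.gcd (γ 1 0) d ∧ a * d' = d ∧ 0 < a ∧ 0 < d' ∧
      (d : ℤ) * γ 0 0 = γ' 0 0 * a ∧ (d : ℤ) * γ 0 1 = γ' 0 0 * b + γ' 0 1 * d' ∧
      γ 1 0 = γ' 1 0 * a ∧ γ 1 1 = γ' 1 0 * b + γ' 1 1 * d' := by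
  have hd : (d : ℤ) ≠ 0 := by exact_mod_cast NeZero.ne d
  have hdpos : (0 : ℤ) < d := by exact_mod_cast Nat.pos_of_ne_zero (NeZero.ne d)
  have hg : 0 < Int.gcd (γ 1 0) d := Int.gcd_pos_of_ne_zero_right _ hd
  obtain ⟨m', n', hcop, hm', hn'⟩ := Int.exists_gcd_one (m := γ 1 0) (n := (d : ℤ)) hg
  have hgpos : (0 : ℤ) < (Int.gcd (γ 1 0) d : ℤ) := by exact_mod_cast hg
  have hn'pos : 0 < n' := by
    by_contra hneg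
    push Not at hneg
    have h1 : n' * (Int.gcd (γ 1 0) d : ℤ) ≤ 0 := mul_nonpos_of_nonpos_of_nonneg hneg hgpos.le
    linarith
  have hn'cast : ((n'.toNat : ℕ) : ℤ) = n' := Int.toNat_of_nonneg hn'pos.le
  obtain ⟨u, v, huv⟩ := Int.isCoprime_iff_gcd_eq_one.mpr hcop
  have hdet := hermite_det γ
  generalize hgdef : (Int.gcd (γ 1 0) d : ℤ) = g at hm' hn' hgpos
  have hdet' : (!![n' * γ 0 0, g * γ 0 1 - γ 0 0 * (γ 1 1 * u); m', γ 1 1 * v] :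
      Matrix (Fin 2) (Fin 2) ℤ).det = 1 := by
    rw [Matrix.det_fin_two_of]
    linear_combination (γ 0 0 * γ 1 1) * huv + hdet + (γ 0 1) * hm'
  refine ⟨⟨!![n' * γ 0 0, g * γ 0 1 - γ 0 0 * (γ 1 1 * u); m', γ 1 1 * v], hdet'⟩,
    Int.gcd (γ 1 0) d, n'.toNat, γ 1 1 * u, rfl, ?_, hg, ?_, ?_, ?_, ?_, ?_⟩
  · have h1 : ((Int.gcd (γ 1 0) d : ℕ) : ℤ) * ((n'.toNat : ℕ) : ℤ) = (d : ℤ) := by
      rw [hn'cast, hgdef, mul_comm]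
      exact hn'.symm
    exact_mod_cast h1
  · omega
  · show (d : ℤ) * γ 0 0 = (n' * γ 0 0) * ((Int.gcd (γ 1 0) d : ℕ) : ℤ)
    rw [hgdef]
    linear_combination (γ 0 0) * hn'
  · show (d : ℤ) * γ 0 1 = (n' * γ 0 0) * (γ 1 1 * u) +
      (g * γ 0 1 - γ 0 0 * (γ 1 1 * u)) * ((n'.toNat : ℕ) : ℤ)
    rw [hn'cast]
    linear_combination (γ 0 1) * hn'
  · show γ 1 0 = m' * ((Int.gcd (γ 1 0) d : ℕ) : ℤ)
    rw [hgdef]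
    exact hm'
  · show γ 1 1 = m' * (γ 1 1 * u) + (γ 1 1 * v) * ((n'.toNat : ℕ) : ℤ)
    rw [hn'cast]
    linear_combination (-(γ 1 1)) * huv

/-- Key identity: `d • (γ τ) = γ' • ((a τ + b)/d')`. -/
theorem hermite_scaleH_smul (γ γ' : SL(2, ℤ)) (d a d' : ℕ) [NeZero d] [NeZero a] [NeZero d']
    (b : ℤ) (h00 : (d : ℤ) * γ 0 0 = γ' 0 0 * a)
    (h01 : (d : ℤ) * γ 0 1 = γ' 0 0 * b + γ' 0 1 * d')
    (h10 : γ 1 0 = γ' 1 0 * a) (h11 : γ 1 1 = γ' 1 0 * b + γ' 1 1 * d') (τ : ℍ) :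
    scaleH d (γ • τ) = γ' • affH a d' b τ ∧
      ((γ' 1 0 : ℤ) : ℂ) * (affH a d' b τ : ℂ) + ((γ' 1 1 : ℤ) : ℂ) =
        (((γ 1 0 : ℤ) : ℂ) * τ + ((γ 1 1 : ℤ) : ℂ)) / d' := by
  have hd' : (d' : ℂ) ≠ 0 := Nat.cast_ne_zero.mpr (NeZero.ne d')
  have hden := hermite_denom_ne_zero γ τ
  have e00 : (d : ℂ) * ((γ 0 0 : ℤ) : ℂ) = ((γ' 0 0 : ℤ) : ℂ) * (a : ℂ) := by
    exact_mod_cast congrArg (Int.cast : ℤ → ℂ) h00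
  have e01 : (d : ℂ) * ((γ 0 1 : ℤ) : ℂ) =
      ((γ' 0 0 : ℤ) : ℂ) * (b : ℂ) + ((γ' 0 1 : ℤ) : ℂ) * (d' : ℂ) := by
    exact_mod_cast congrArg (Int.cast : ℤ → ℂ) h01
  have e10 : ((γ 1 0 : ℤ) : ℂ) = ((γ' 1 0 : ℤ) : ℂ) * (a : ℂ) := by
    exact_mod_cast congrArg (Int.cast : ℤ → ℂ) h10
  have e11 : ((γ 1 1 : ℤ) : ℂ) =
      ((γ' 1 0 : ℤ) : ℂ) * (b : ℂ) + ((γ' 1 1 : ℤ) : ℂ) * (d' : ℂ) := by
    exact_mod_cast congrArg (Int.cast : ℤ → ℂ) h11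
  have hnum : ((γ' 0 0 : ℤ) : ℂ) * (((a : ℂ) * τ + b) / d') + ((γ' 0 1 : ℤ) : ℂ) =
      (d : ℂ) * (((γ 0 0 : ℤ) : ℂ) * τ + ((γ 0 1 : ℤ) : ℂ)) / d' := by
    field_simp
    linear_combination (-(τ : ℂ)) * e00 - e01
  have hdenq : ((γ' 1 0 : ℤ) : ℂ) * (((a : ℂ) * τ + b) / d') + ((γ' 1 1 : ℤ) : ℂ) =
      (((γ 1 0 : ℤ) : ℂ) * τ + ((γ 1 1 : ℤ) : ℂ)) / d' := by
    field_simp
    linear_combination (-(τ : ℂ)) * e10 - e11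
  refine ⟨?_, ?_⟩
  · apply UpperHalfPlane.ext
    rw [coe_scaleH, hermite_coe_smul, hermite_coe_smul, coe_affH, hnum, hdenq]
    field_simp
  · rw [coe_affH, hdenq]

/-- The transformation behaviour of `J(dτ)` and `Δ(dτ)/Δ(τ)`. -/
theorem exists_transform (γ : SL(2, ℤ)) (d : ℕ) [NeZero d] :
    ∃ (a d' : ℕ) (_ : NeZero a) (_ : NeZero d') (b : ℤ), a = Int.gcd (γ 1 0) d ∧ a * d' = d ∧
      (∀ τ : ℍ, Jfun (scaleH d (γ • τ)) = Jfun (affH a d' b τ)) ∧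
      (∀ τ : ℍ, Ufun d (γ • τ) = ((d' : ℂ)⁻¹) ^ 12 *
        (ModularForm.discriminant (affH a d' b τ) / ModularForm.discriminant τ)) := by
  obtain ⟨γ', a, d', b, ha, had, hapos, hd'pos, h00, h01, h10, h11⟩ := exists_hermite γ d
  have ia : NeZero a := ⟨hapos.ne'⟩
  have id' : NeZero d' := ⟨hd'pos.ne'⟩
  refine ⟨a, d', ia, id', b, ha, had, fun τ => ?_, fun τ => ?_⟩
  · rw [(hermite_scaleH_smul γ γ' d a d' b h00 h01 h10 h11 τ).1, Jfun_smul]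
  · obtain ⟨h1, h2⟩ := hermite_scaleH_smul γ γ' d a d' b h00 h01 h10 h11 τ
    have hden := hermite_denom_ne_zero γ τ
    unfold Ufun
    rw [h1, discriminant_smul, discriminant_smul, h2]
    have h3 : ((((γ 1 0 : ℤ) : ℂ) * τ + ((γ 1 1 : ℤ) : ℂ)) / (d' : ℂ)) ^ 12 =
        (((γ 1 0 : ℤ) : ℂ) * τ + ((γ 1 1 : ℤ) : ℂ)) ^ 12 * ((d' : ℂ)⁻¹) ^ 12 := by
      rw [div_eq_mul_inv, mul_pow]
    rw [h3, mul_assoc, mul_div_mul_left _ _ (pow_ne_zero 12 hden), mul_div_assoc]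

/-- The parameter of `(aτ + b)/d'` in terms of the level-`N` parameter of `τ` (`d' ∣ N`). -/
theorem tParam_affH (N a d' : ℕ) [NeZero N] [NeZero a] [NeZero d'] (b : ℤ) (hd : d' ∣ N) (τ : ℍ) :
    tParam 1 (affH a d' b τ) = zetaN N ^ (b * ((N / d' : ℕ) : ℤ)) * tParam N τ ^ (a * (N / d')) := by
  obtain ⟨k, rfl⟩ := hd
  have hd' : (d' : ℂ) ≠ 0 := Nat.cast_ne_zero.mpr (NeZero.ne d')
  have hk : (k : ℂ) ≠ 0 := by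
    have h := NeZero.ne (d' * k)
    exact Nat.cast_ne_zero.mpr (fun h0 => h (by rw [h0, mul_zero]))
  rw [Nat.mul_div_cancel_left k (Nat.pos_of_ne_zero (NeZero.ne d'))]
  unfold tParam zetaN
  rw [coe_affH, ← Complex.exp_int_mul, ← Complex.exp_nat_mul, ← Complex.exp_add]
  congr 1
  push_cast
  field_simp
  ring

theorem tParam_scaleH (N d : ℕ) [NeZero N] [NeZero d] (τ : ℍ) :
    tParam 1 (scaleH d τ) = tParam N τ ^ (N * d) := by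
  have hN : (N : ℂ) ≠ 0 := Nat.cast_ne_zero.mpr (NeZero.ne N)
  unfold tParam
  rw [coe_scaleH, ← Complex.exp_nat_mul]
  congr 1
  push_cast
  field_simp

/-- For `d ∣ N` and `γ ∈ Γ₀(N)`: `d (γ τ) = γ'' (d τ)` with `γ'' = (d 0; 0 1) γ (d 0; 0 1)⁻¹`. -/
theorem hermite_gamma0_conj (N d : ℕ) [NeZero N] [NeZero d] (hd : d ∣ N) (γ : SL(2, ℤ))
    (hγ : γ ∈ CongruenceSubgroup.Gamma0 N) :
    ∃ γ'' : SL(2, ℤ), (∀ τ : ℍ, scaleH d (γ • τ) = γ'' • scaleH d τ) ∧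
      ∀ τ : ℍ, ((γ'' 1 0 : ℤ) : ℂ) * (scaleH d τ : ℂ) + ((γ'' 1 1 : ℤ) : ℂ) =
        ((γ 1 0 : ℤ) : ℂ) * τ + ((γ 1 1 : ℤ) : ℂ) := by
  have hN : (N : ℤ) ∣ γ 1 0 := by
    rw [CongruenceSubgroup.Gamma0_mem] at hγ
    exact (ZMod.intCast_zmod_eq_zero_iff_dvd _ N).mp hγ
  have hdc : (d : ℤ) ∣ γ 1 0 := (Int.natCast_dvd_natCast.mpr hd).trans hN
  obtain ⟨c', hc'⟩ := hdc
  have hdet := hermite_det γ
  have hdet' : (!![γ 0 0, (d : ℤ) * γ 0 1; c', γ 1 1] : Matrix (Fin 2) (Fin 2) ℤ).det = 1 := by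
    rw [Matrix.det_fin_two_of]
    linear_combination hdet + (γ 0 1) * hc'
  have e10 : ((γ 1 0 : ℤ) : ℂ) = (d : ℂ) * (c' : ℂ) := by
    exact_mod_cast congrArg (Int.cast : ℤ → ℂ) hc'
  refine ⟨⟨!![γ 0 0, (d : ℤ) * γ 0 1; c', γ 1 1], hdet'⟩, fun τ => ?_, fun τ => ?_⟩
  · apply UpperHalfPlane.ext
    rw [coe_scaleH, hermite_coe_smul, hermite_coe_smul, coe_scaleH]
    show (d : ℂ) * ((((γ 0 0 : ℤ) : ℂ) * τ + ((γ 0 1 : ℤ) : ℂ)) /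
        (((γ 1 0 : ℤ) : ℂ) * τ + ((γ 1 1 : ℤ) : ℂ))) =
      (((γ 0 0 : ℤ) : ℂ) * ((d : ℂ) * τ) + (((d : ℤ) * γ 0 1 : ℤ) : ℂ)) /
        ((c' : ℂ) * ((d : ℂ) * τ) + ((γ 1 1 : ℤ) : ℂ))
    push_cast
    rw [e10]
    ring
  · rw [coe_scaleH]
    show (c' : ℂ) * ((d : ℂ) * τ) + ((γ 1 1 : ℤ) : ℂ) = ((γ 1 0 : ℤ) : ℂ) * τ + ((γ 1 1 : ℤ) : ℂ)
    rw [e10]
    ring

/-- `Γ₀(N)`-invariance of `J(dτ)` for `d ∣ N`. -/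
theorem Jfun_scaleH_smul (N d : ℕ) [NeZero N] [NeZero d] (hd : d ∣ N) (γ : SL(2, ℤ))
    (hγ : γ ∈ CongruenceSubgroup.Gamma0 N) (τ : ℍ) :
    Jfun (scaleH d (γ • τ)) = Jfun (scaleH d τ) := by
  obtain ⟨γ'', h1, -⟩ := hermite_gamma0_conj N d hd γ hγ
  rw [h1 τ, Jfun_smul]

/-- `Γ₀(N)`-invariance of `Δ(dτ)/Δ(τ)` for `d ∣ N`. -/
theorem Ufun_smul (N d : ℕ) [NeZero N] [NeZero d] (hd : d ∣ N) (γ : SL(2, ℤ))
    (hγ : γ ∈ CongruenceSubgroup.Gamma0 N) (τ : ℍ) : Ufun d (γ • τ) = Ufun d τ := by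
  obtain ⟨γ'', h1, h2⟩ := hermite_gamma0_conj N d hd γ hγ
  have hden := hermite_denom_ne_zero γ τ
  unfold Ufun
  rw [h1 τ, discriminant_smul, discriminant_smul, h2 τ,
    mul_div_mul_left _ _ (pow_ne_zero 12 hden)]

end Fermat.Agent.S28
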