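import Fermat.Agent.S28.JDelta
import Fermat.Agent.S28.LevelOnePoly

/-!
# S28 piece P3: holomorphic `SL₂(ℤ)`-invariant functions with a Laurent expansion at `∞` with
coefficients in a subring `A ⊆ ℂ` are polynomials in `j` with coefficients in `A`.
-/

set_option autoImplicit false

open UpperHalfPlane ModularForm Complex ModularCurve Filter
open scoped Real MatrixGroups CongruenceSubgroup Manifold

noncomputable section

namespace Fermat.Agent.S28

/-- The level-`N` expansion of `J`. -/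
theorem hasQExp_Jfun_level (N : ℕ) [NeZero N] : HasQExp N Jfun (jN ℂ N) := by
  have h := hasQExp_Jfun.level N
  rwa [one_mul] at h

/-! ### Formal part: coefficients of powers of `jN` and descent of the polynomial -/

theorem lvl_coeff_jN_pow_self (A : Type*) [CommRing A] (N : ℕ) [NeZero N] (n : ℕ) :
    ((jN A N) ^ n).coeff (-((N : ℤ) * n)) = 1 := by
  rw [jN, ← map_pow, show -((N : ℤ) * n) = (N : ℤ) * (-(n : ℤ)) by ring, qExpand_coeff_mul,
    coeff_jqModC_pow_self]

theorem lvl_coeff_jN_pow_of_lt (A : Type*) [CommRing A] (N : ℕ) [NeZero N] {i n : ℕ}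
    (h : i < n) : ((jN A N) ^ i).coeff (-((N : ℤ) * n)) = 0 := by
  rw [jN, ← map_pow, show -((N : ℤ) * n) = (N : ℤ) * (-(n : ℤ)) by ring, qExpand_coeff_mul]
  exact coeff_jqModC_pow_of_lt A (by omega)

theorem lvl_coeffMap_jN {A B : Type*} [CommRing A] [CommRing B] (f : A →+* B) (N : ℕ)
    [NeZero N] : coeffMap f (jN A N) = jN B N := by
  rw [jN, coeffMap_qExpand, coeffMap_jqModC]

theorem lvl_coeffMap_C {A B : Type*} [CommRing A] [CommRing B] (f : A →+* B) (a : A) :
    coeffMap f (HahnSeries.C a : LaurentSeries A) = HahnSeries.C (f a) := by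
  rw [HahnSeries.C_apply, coeffMap_single, HahnSeries.C_apply]

/-- The coefficient of `t ^ (-N n)` of `P(jN)` when `deg P ≤ n`. -/
theorem lvl_coeff_eval₂_jN (A : Type*) [CommRing A] (N : ℕ) [NeZero N] (n : ℕ)
    (P : Polynomial A) (hP : ∀ m, n + 1 ≤ m → P.coeff m = 0) :
    (P.eval₂ HahnSeries.C (jN A N)).coeff (-((N : ℤ) * n)) = P.coeff n := by
  have hdeg : P.natDegree < n + 1 := by
    by_contra hcon
    push Not at hcon
    have h0 := hP P.natDegree hcon
    have hP0 : P = 0 := Polynomial.leadingCoeff_eq_zero.mp h0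
    rw [hP0] at hcon
    simp at hcon
  rw [Polynomial.eval₂_eq_sum_range' _ hdeg]
  have hterm : ∀ i ∈ Finset.range (n + 1),
      (HahnSeries.C (P.coeff i) * (jN A N) ^ i).coeff (-((N : ℤ) * n)) =
        if i = n then P.coeff n else 0 := by
    intro i hi
    rw [HahnSeries.C_mul_eq_smul, HahnSeries.coeff_smul, smul_eq_mul]
    split_ifs with hin
    · subst hin
      rw [lvl_coeff_jN_pow_self, mul_one]
    · have hlt : i < n := lt_of_le_of_ne (Nat.lt_succ_iff.mp (Finset.mem_range.mp hi)) hin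
      rw [lvl_coeff_jN_pow_of_lt A N hlt, mul_zero]
  have hsum : (∑ i ∈ Finset.range (n + 1), HahnSeries.C (P.coeff i) * (jN A N) ^ i).coeff
      (-((N : ℤ) * n)) = ∑ i ∈ Finset.range (n + 1),
        (HahnSeries.C (P.coeff i) * (jN A N) ^ i).coeff (-((N : ℤ) * n)) := by
    exact map_sum (HahnSeries.coeff.addMonoidHom (-((N : ℤ) * n)) :
      LaurentSeries A →+ A) _ _
  rw [hsum, Finset.sum_congr rfl hterm, Finset.sum_ite_eq' (Finset.range (n + 1)) n,
    if_pos (Finset.mem_range.mpr (Nat.lt_succ_self n))]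

/-- Descent of the coefficients of the polynomial to the subring `A`. -/
theorem lvl_descend (N : ℕ) [NeZero N] (A : Subring ℂ) :
    ∀ (n : ℕ) (P₀ : Polynomial ℂ) (s : LaurentSeries A), (∀ m, n ≤ m → P₀.coeff m = 0) →
      coeffMap A.subtype s = P₀.eval₂ HahnSeries.C (jN ℂ N) →
      ∃ P : Polynomial A, s = P.eval₂ HahnSeries.C (jN A N) := by
  intro n
  induction n with
  | zero =>
    intro P₀ s hP hs
    have hP0 : P₀ = 0 := Polynomial.ext fun m => by simpa using hP m (Nat.zero_le m)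
    subst hP0
    refine ⟨0, ?_⟩
    rw [Polynomial.eval₂_zero] at hs ⊢
    ext k
    have h1 := congrArg (fun x : LaurentSeries ℂ => x.coeff k) hs
    simp only [coeffMap_coeff, HahnSeries.coeff_zero] at h1
    rw [HahnSeries.coeff_zero]
    have h2 : ((s.coeff k : A) : ℂ) = ((0 : A) : ℂ) := by simpa using h1
    exact h2
  | succ n ih =>
    intro P₀ s hP hs
    have hcoeff := lvl_coeff_eval₂_jN ℂ N n P₀ hP
    have ha : ((s.coeff (-((N : ℤ) * n)) : A) : ℂ) = P₀.coeff n := by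
      rw [← hcoeff, ← hs]
      rfl
    set a' : A := s.coeff (-((N : ℤ) * n)) with ha'
    have hC : (HahnSeries.C (A.subtype a') : LaurentSeries ℂ) = HahnSeries.C (P₀.coeff n) := by
      rw [← ha]
      rfl
    obtain ⟨P', hP'⟩ := ih (P₀ - Polynomial.C (P₀.coeff n) * Polynomial.X ^ n)
      (s - HahnSeries.C a' * (jN A N) ^ n) (by
        intro m hm
        rw [Polynomial.coeff_sub, Polynomial.coeff_C_mul, Polynomial.coeff_X_pow]
        rcases Nat.eq_or_lt_of_le hm with rfl | hlt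
        · simp
        · rw [hP m hlt, if_neg (by omega)]
          simp) (by
        rw [map_sub, map_mul, map_pow, lvl_coeffMap_jN, lvl_coeffMap_C, hs, Polynomial.eval₂_sub,
          Polynomial.eval₂_mul, Polynomial.eval₂_C, Polynomial.eval₂_pow, Polynomial.eval₂_X, hC])
    refine ⟨P' + Polynomial.C a' * Polynomial.X ^ n, ?_⟩
    rw [Polynomial.eval₂_add, Polynomial.eval₂_mul, Polynomial.eval₂_C, Polynomial.eval₂_pow,
      Polynomial.eval₂_X, ← hP']
    ring

/-! ### Analytic part -/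

/-- A function given by a convergent power series in a parameter `u` with
`‖u τ‖ = exp (-c · Im τ)` is bounded at `i∞`. -/
theorem lvl_isBoundedAtImInfty_of_hasSum (u : ℍ → ℂ) (c : ℝ) (hc : 0 < c)
    (hu : ∀ τ : ℍ, ‖u τ‖ = Real.exp (-c * τ.im)) (H : ℍ → ℂ) (b : ℕ → ℂ)
    (hs : ∀ τ : ℍ, HasSum (fun k : ℕ => b k * u τ ^ k) (H τ)) : IsBoundedAtImInfty H := by
  rw [isBoundedAtImInfty_iff]
  set u₀ : ℂ := u UpperHalfPlane.I with hu₀
  have hsum₀ : Summable (fun k : ℕ => ‖b k * u₀ ^ k‖) := (hs UpperHalfPlane.I).summable.norm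
  set M : ℝ := ∑' k : ℕ, ‖b k * u₀ ^ k‖ with hM
  have hle : ∀ k, ‖b k * u₀ ^ k‖ ≤ M := fun k =>
    hsum₀.le_tsum k (fun j _ => norm_nonneg _)
  refine ⟨2 * M, 1 + 1 / c, fun τ hτ => ?_⟩
  have hu₀norm : ‖u₀‖ = Real.exp (-c) := by
    rw [hu₀, hu]
    simp
  have hratio : ‖u τ‖ ≤ ‖u₀‖ / 2 := by
    rw [hu τ, hu₀norm, le_div_iff₀ (by norm_num : (0 : ℝ) < 2)]
    have h1 : Real.exp (-c * τ.im) ≤ Real.exp (-c) * Real.exp (-1) := by
      rw [← Real.exp_add]
      apply Real.exp_le_exp.mpr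
      have h2 : c * (1 + 1 / c) ≤ c * τ.im := mul_le_mul_of_nonneg_left hτ hc.le
      have h3 : c * (1 + 1 / c) = c + 1 := by
        field_simp
      linarith
    have h4 : Real.exp (-1) * 2 ≤ 1 := by
      rw [Real.exp_neg, inv_mul_le_iff₀ (Real.exp_pos 1)]
      have := Real.add_one_le_exp (1 : ℝ)
      linarith
    nlinarith [Real.exp_pos (-c), Real.exp_pos (-1 : ℝ)]
  have hbound : ∀ k : ℕ, ‖b k * u τ ^ k‖ ≤ M * (1 / 2) ^ k := by
    intro k
    have h1 : ‖b k * u τ ^ k‖ ≤ ‖b k‖ * (‖u₀‖ / 2) ^ k := by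
      rw [norm_mul, norm_pow]
      exact mul_le_mul_of_nonneg_left (pow_le_pow_left₀ (norm_nonneg _) hratio k) (norm_nonneg _)
    have h2 : ‖b k‖ * (‖u₀‖ / 2) ^ k = ‖b k * u₀ ^ k‖ * (1 / 2) ^ k := by
      rw [norm_mul, norm_pow, div_pow, one_div, inv_pow]
      ring
    rw [h2] at h1
    exact h1.trans (mul_le_mul_of_nonneg_right (hle k) (by positivity))
  have hgeom : HasSum (fun k : ℕ => M * (1 / 2 : ℝ) ^ k) (M * 2) := by
    have h := (hasSum_geometric_of_lt_one (by norm_num : (0 : ℝ) ≤ 1 / 2)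
      (by norm_num : (1 / 2 : ℝ) < 1)).mul_left M
    have h2 : M * (1 - 1 / 2 : ℝ)⁻¹ = M * 2 := by norm_num
    rwa [h2] at h
  have := (hs τ).norm_le_of_bounded hgeom hbound
  linarith

theorem lvl_norm_tParam (N : ℕ) (τ : ℍ) :
    ‖tParam N τ‖ = Real.exp (-(2 * π / N) * τ.im) := by
  rw [tParam, Complex.norm_exp]
  congr 1
  have h : (2 * (π : ℂ) * Complex.I * (τ : ℂ) / (N : ℂ)) =
      ((2 * π / N : ℝ) : ℂ) * (Complex.I * (τ : ℂ)) := by
    push_cast
    ring
  rw [h, Complex.re_ofReal_mul, Complex.I_mul_re, UpperHalfPlane.coe_im]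
  ring

theorem lvl_tParam_pow (N : ℕ) [NeZero N] (τ : ℍ) :
    tParam N τ ^ N = Function.Periodic.qParam 1 (τ : ℂ) := by
  rw [tParam, ← Complex.exp_nat_mul, Function.Periodic.qParam]
  congr 1
  have hN : (N : ℂ) ≠ 0 := Nat.cast_ne_zero.mpr (NeZero.ne N)
  field_simp
  simp

/-- Analytic core: the function is a complex polynomial in `J`. -/
theorem lvl_exists_poly (N : ℕ) [NeZero N] (h : ℍ → ℂ)
    (hh : MDifferentiable 𝓘(ℂ) 𝓘(ℂ) h) (hinv : ∀ (γ : SL(2, ℤ)) (τ : ℍ), h (γ • τ) = h τ)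
    (S : LaurentSeries ℂ) (hs : HasQExp N h S) :
    ∃ P₀ : Polynomial ℂ, ∀ τ, h τ = P₀.eval (Jfun τ) := by
  have hN : 0 < N := Nat.pos_of_ne_zero (NeZero.ne N)
  have ht0 : ∀ τ : ℍ, tParam N τ ≠ 0 := fun τ => Complex.exp_ne_zero _
  set M : ℕ := (-S.order).toNat with hMdef
  have hM : ∀ n : ℤ, n < -(M : ℤ) → S.coeff n = 0 := by
    intro n hn
    apply HahnSeries.coeff_eq_zero_of_lt_order
    have : -S.order ≤ (M : ℤ) := Int.self_le_toNat _
    omega
  -- `h t^M` is bounded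
  have h1 : IsBoundedAtImInfty (fun τ : ℍ => h τ * tParam N τ ^ M) := by
    have hc : (0 : ℝ) < 2 * π / N := by positivity
    apply lvl_isBoundedAtImInfty_of_hasSum (tParam N) (2 * π / N) hc (lvl_norm_tParam N) _
      (fun k : ℕ => S.coeff ((k : ℤ) - M))
    intro τ
    have hinj : Function.Injective (fun k : ℕ => (k : ℤ) - M) := by
      intro x y hxy
      simpa using hxy
    have h2 := (hinj.hasSum_iff (f := fun n : ℤ => S.coeff n * tParam N τ ^ n)
      (fun n hn => by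
        have : n < -(M : ℤ) := by
          by_contra hcon
          push Not at hcon
          exact hn ⟨(n + M).toNat, by simp; omega⟩
        simp [hM n this])).mpr (hs τ)
    have h3 := h2.mul_right (tParam N τ ^ M)
    have hfun : (fun k : ℕ => S.coeff ((k : ℤ) - M) * tParam N τ ^ k) =
        fun i => ((fun n : ℤ => S.coeff n * tParam N τ ^ n) ∘
          fun k : ℕ => (k : ℤ) - M) i * tParam N τ ^ M := by
      funext k
      simp only [Function.comp_apply]
      rw [mul_assoc, zpow_sub₀ (ht0 τ), zpow_natCast, zpow_natCast, div_mul_cancel₀]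
      exact pow_ne_zero _ (ht0 τ)
    rw [hfun]
    exact h3
  -- `Δ^M / t^M` is bounded
  have h2 : IsBoundedAtImInfty (fun τ : ℍ =>
      (ModularForm.discriminant τ / Function.Periodic.qParam 1 (τ : ℂ)) ^ M *
        tParam N τ ^ (N * M - M)) := by
    apply BoundedAtFilter.mul
      (lop_isBoundedAtImInfty_pow lop_isBoundedAtImInfty_discriminant_div_q M)
    show IsBoundedAtImInfty (fun τ : ℍ => tParam N τ ^ (N * M - M))
    rw [isBoundedAtImInfty_iff]
    refine ⟨1, 0, fun τ _ => ?_⟩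
    rw [norm_pow, lvl_norm_tParam]
    apply pow_le_one₀ (Real.exp_pos _).le
    rw [Real.exp_le_one_iff]
    have : 0 ≤ 2 * π / N * τ.im := by
      have := τ.im_pos
      positivity
    linarith
  have h3 : h * ModularForm.discriminant ^ M = fun τ : ℍ => (h τ * tParam N τ ^ M) *
      ((ModularForm.discriminant τ / Function.Periodic.qParam 1 (τ : ℂ)) ^ M *
        tParam N τ ^ (N * M - M)) := by
    funext τ
    simp only [Pi.mul_apply, Pi.pow_apply]
    have hq : Function.Periodic.qParam 1 (τ : ℂ) ≠ 0 := Complex.exp_ne_zero _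
    have hle : M ≤ N * M := Nat.le_mul_of_pos_left M hN
    have e1 : tParam N τ ^ M * tParam N τ ^ (N * M - M) =
        Function.Periodic.qParam 1 (τ : ℂ) ^ M := by
      rw [← pow_add, Nat.add_sub_cancel' hle, pow_mul, lvl_tParam_pow]
    rw [div_pow]
    calc h τ * ModularForm.discriminant τ ^ M
        = h τ * (ModularForm.discriminant τ ^ M / Function.Periodic.qParam 1 (τ : ℂ) ^ M *
            Function.Periodic.qParam 1 (τ : ℂ) ^ M) := by
          rw [div_mul_cancel₀ _ (pow_ne_zero M hq)]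
      _ = _ := by rw [← e1]; ring
  have hbd : IsBoundedAtImInfty (h * ModularForm.discriminant ^ M) := by
    rw [h3]
    exact BoundedAtFilter.mul h1 h2
  have hinv' : lop_WtInv 0 h := by
    intro γ τ
    rw [hinv γ τ, zpow_zero, one_mul]
  obtain ⟨P₀, -, hP₀⟩ := lop_exists_polynomial M h hh hinv' hbd
  exact ⟨P₀, hP₀⟩

theorem lvl_hasQExp_eval (N : ℕ) [NeZero N] (P₀ : Polynomial ℂ) :
    HasQExp N (fun τ => P₀.eval (Jfun τ)) (P₀.eval₂ HahnSeries.C (jN ℂ N)) := by
  have hJ := hasQExp_Jfun_level N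
  have h1 : HasQExp N (fun τ => ∑ i ∈ Finset.range (P₀.natDegree + 1), P₀.coeff i * Jfun τ ^ i)
      (∑ i ∈ Finset.range (P₀.natDegree + 1), HahnSeries.C (P₀.coeff i) * (jN ℂ N) ^ i) :=
    HasQExp.finset_sum _ _ _ (fun i _ => (hJ.pow i).const_mul (P₀.coeff i))
  rw [Polynomial.eval₂_eq_sum_range]
  exact h1.congr (fun τ => (Polynomial.eval_eq_sum_range (p := P₀) (Jfun τ)).symm)

theorem levelOne_eq_poly (N : ℕ) [NeZero N] (A : Subring ℂ) (h : ℍ → ℂ)
    (hh : MDifferentiable 𝓘(ℂ) 𝓘(ℂ) h) (hinv : ∀ (γ : SL(2, ℤ)) (τ : ℍ), h (γ • τ) = h τ)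
    (s : LaurentSeries A) (hs : HasQExp N h (coeffMap A.subtype s)) :
    ∃ P : Polynomial A, s = P.eval₂ HahnSeries.C (jN A N) := by
  obtain ⟨P₀, hP₀⟩ := lvl_exists_poly N h hh hinv _ hs
  have h1 : HasQExp N h (P₀.eval₂ HahnSeries.C (jN ℂ N)) :=
    (lvl_hasQExp_eval N P₀).congr (fun τ => (hP₀ τ).symm)
  have h2 : coeffMap A.subtype s = P₀.eval₂ HahnSeries.C (jN ℂ N) := hs.unique h1
  exact lvl_descend N A (P₀.natDegree + 1) P₀ s
    (fun m hm => Polynomial.coeff_eq_zero_of_natDegree_lt (by omega)) h2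

end Fermat.Agent.S28
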