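import Fermat.Agent.S28.Norm

/-!
# S28 piece P10: the analytic core — the ring `B` of expansions of nice functions
-/

set_option autoImplicit false

open UpperHalfPlane ModularForm Complex ModularCurve
open scoped Real MatrixGroups CongruenceSubgroup Manifold

noncomputable section

namespace Fermat.Agent.S28

theorem coeffMap_C {A B : Type*} [CommRing A] [CommRing B] (f : A →+* B) (a : A) :
    coeffMap f (HahnSeries.C a) = HahnSeries.C (f a) := by
  rw [HahnSeries.C_apply, HahnSeries.C_apply, coeffMap_single]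

/-- The ring `B` of expansions at `∞` of nice functions. -/
def niceRing (N ℓ : ℕ) [NeZero N] : Subring (LaurentSeries ℚ) where
  carrier := niceSet N ℓ
  mul_mem' := by
    rintro x y ⟨g, hg, hx⟩ ⟨g', hg', hy⟩
    exact ⟨_, hg.mul hg', by rw [map_mul]; exact hx.mul hy⟩
  one_mem' := ⟨fun _ => ((1 : cycRing N ℓ) : ℂ), isNice_const 1, by
    have h := hasQExp_const N (1 : ℂ)
    rw [map_one] at h ⊢
    simpa using h⟩
  add_mem' := by
    rintro x y ⟨g, hg, hx⟩ ⟨g', hg', hy⟩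
    exact ⟨_, hg.add hg', by rw [map_add]; exact hx.add hy⟩
  zero_mem' := ⟨fun _ => ((0 : cycRing N ℓ) : ℂ), isNice_const 0, by
    have h := hasQExp_const N (0 : ℂ)
    rw [map_zero] at h ⊢
    simpa using h⟩
  neg_mem' := by
    rintro x ⟨g, hg, hx⟩
    exact ⟨_, hg.neg, by rw [map_neg]; exact hx.neg⟩

theorem mem_niceRing {N ℓ : ℕ} [NeZero N] {x : LaurentSeries ℚ} :
    x ∈ niceRing N ℓ ↔ ∃ g, IsNice N ℓ g ∧ HasQExp N g (iotaN N x) := Iff.rfl

variable (N ℓ : ℕ) [NeZero N]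

theorem niceRing_const_mem (r : GaloisRep.ratLocalizedAt ℓ) : constR ℓ r ∈ niceRing N ℓ := by
  refine ⟨fun _ => ((⟨cycIncl ℓ r, cycIncl_mem_cycRing N ℓ r⟩ : cycRing N ℓ) : ℂ),
    isNice_const _, ?_⟩
  have h := hasQExp_const N (((r : ℚ) : ℂ))
  rw [← iotaN_C N] at h
  exact h

theorem niceRing_coeff_mem [Fact ℓ.Prime] (x : LaurentSeries ℚ) (hx : x ∈ niceRing N ℓ) (n : ℤ) :
    x.coeff n ∈ GaloisRep.ratLocalizedAt ℓ := by
  obtain ⟨g, hg, hx⟩ := hx
  obtain ⟨s, hs⟩ := hg.exp 1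
  have hs' : HasQExp N g (incO N ℓ s) := hs.congr (fun τ => by rw [one_smul])
  have h := hx.unique hs'
  refine rat_mem_of_mem_cycRing N ℓ (x.coeff n) ?_
  have h2 := iotaN_coeff_mul N x n
  rw [h, coeffMap_coeff] at h2
  rw [← h2]
  exact (s.coeff _).2

/-- Descent of integrality from `𝒪[j]` to `ℤ_(ℓ)[j]`. -/
theorem integral_of_root (x : LaurentSeries ℚ) (Φ : Polynomial (LaurentSeries ℂ)) (hΦ : Φ.Monic)
    (hcoeff : ∀ i, ∃ Q : Polynomial (cycRing N ℓ),
      Φ.coeff i = (Q.map (cycRing N ℓ).subtype).eval₂ HahnSeries.C (jN ℂ N))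
    (hroot : Φ.eval (iotaN N x) = 0) :
    ∃ Q : Polynomial (Polynomial (GaloisRep.ratLocalizedAt ℓ)), Q.Monic ∧ Q.eval₂ (evJ ℓ) x = 0 := by
  classical
  set ψ : Polynomial (GaloisRep.ratLocalizedAt ℓ) →+* LaurentSeries ℂ :=
    (iotaN N).comp (evJ ℓ) with hψ
  let _ : Algebra (Polynomial (GaloisRep.ratLocalizedAt ℓ)) (LaurentSeries ℂ) := ψ.toAlgebra
  have halg : algebraMap (Polynomial (GaloisRep.ratLocalizedAt ℓ)) (LaurentSeries ℂ) = ψ :=
    RingHom.algebraMap_toAlgebra ψ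
  -- constants from `𝒪` are integral
  have hψC : ψ.comp Polynomial.C = (HahnSeries.C : ℂ →+* LaurentSeries ℂ).comp (cycIncl ℓ) := by
    ext r
    simp only [hψ, RingHom.comp_apply, evJ, Polynomial.coe_eval₂RingHom, Polynomial.eval₂_C,
      constR, Subring.coe_subtype, iotaN_C, cycIncl_apply]
  have h1 : ∀ z : cycRing N ℓ, IsIntegral (Polynomial (GaloisRep.ratLocalizedAt ℓ))
      (HahnSeries.C (z : ℂ) : LaurentSeries ℂ) := by
    intro z
    obtain ⟨p, hp, hpz⟩ := cycRing_isIntegralElem N ℓ (z : ℂ) z.2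
    refine ⟨p.map Polynomial.C, hp.map _, ?_⟩
    rw [Polynomial.eval₂_map, halg, hψC, ← Polynomial.hom_eval₂, hpz, map_zero]
  have h2 : IsIntegral (Polynomial (GaloisRep.ratLocalizedAt ℓ)) (jN ℂ N) := by
    have : jN ℂ N = algebraMap (Polynomial (GaloisRep.ratLocalizedAt ℓ)) (LaurentSeries ℂ)
        Polynomial.X := by
      rw [halg, hψ, RingHom.comp_apply, evJ, Polynomial.coe_eval₂RingHom, Polynomial.eval₂_X,
        iotaN_jq]
    rw [this]
    exact isIntegral_algebraMap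
  have h3 : ∀ Q : Polynomial (cycRing N ℓ), IsIntegral (Polynomial (GaloisRep.ratLocalizedAt ℓ))
      ((Q.map (cycRing N ℓ).subtype).eval₂ HahnSeries.C (jN ℂ N)) := by
    intro Q
    rw [Polynomial.eval₂_eq_sum_range]
    refine IsIntegral.sum _ (fun i _ => ?_)
    rw [Polynomial.coeff_map]
    exact (h1 (Q.coeff i)).mul (h2.pow i)
  -- `Φ` lifts to the integral closure
  set A := integralClosure (Polynomial (GaloisRep.ratLocalizedAt ℓ)) (LaurentSeries ℂ) with hA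
  have hlifts : Φ ∈ Polynomial.lifts (algebraMap A (LaurentSeries ℂ)) := by
    rw [Polynomial.lifts_iff_coeff_lifts]
    intro i
    obtain ⟨Q, hQ⟩ := hcoeff i
    exact ⟨⟨_, h3 Q⟩, hQ.symm⟩
  obtain ⟨q, hq, -, hqm⟩ := Polynomial.lifts_and_natDegree_eq_and_monic hlifts hΦ
  have h4 : IsIntegral A (iotaN N x) :=
    ⟨q, hqm, by rw [Polynomial.eval₂_eq_eval_map, hq, hroot]⟩
  have h5 : IsIntegral (Polynomial (GaloisRep.ratLocalizedAt ℓ)) (iotaN N x) :=
    isIntegral_trans _ h4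
  obtain ⟨Q, hQm, hQ⟩ := h5
  refine ⟨Q, hQm, iotaN_injective N ?_⟩
  rw [map_zero, Polynomial.hom_eval₂]
  rw [halg] at hQ
  exact hQ

theorem niceRing_integral (x : LaurentSeries ℚ) (hx : x ∈ niceRing N ℓ) :
    ∃ Q : Polynomial (Polynomial (GaloisRep.ratLocalizedAt ℓ)), Q.Monic ∧ Q.eval₂ (evJ ℓ) x = 0 := by
  classical
  obtain ⟨g, hg, hx⟩ := hx
  choose S hS using fun c : CosetQ N => hg.exp (cosetRep c)
  have h1 : incO N ℓ (S (QuotientGroup.mk 1)) = iotaN N x := by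
    have h : HasQExp N g (incO N ℓ (S (QuotientGroup.mk 1))) := (hS _).congr (fun τ => by
      rw [hg.apply_eq_of_mk_eq (mk_cosetRep (QuotientGroup.mk 1)) τ, one_smul])
    exact h.unique hx
  choose P hP using fun n => esymm_eq_poly hg S hS n
  set Φ : Polynomial (LaurentSeries ℂ) :=
    ∏ c : CosetQ N, (Polynomial.X - Polynomial.C (incO N ℓ (S c))) with hΦ
  have hmonic : Φ.Monic := Polynomial.monic_prod_of_monic _ _ (fun c _ => Polynomial.monic_X_sub_C _)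
  have hroot : Φ.eval (iotaN N x) = 0 := by
    rw [hΦ, Polynomial.eval_prod]
    refine Finset.prod_eq_zero (Finset.mem_univ (QuotientGroup.mk 1 : CosetQ N)) ?_
    rw [Polynomial.eval_sub, Polynomial.eval_X, Polynomial.eval_C, h1, sub_self]
  refine integral_of_root N ℓ x Φ hmonic ?_ hroot
  -- the coefficients
  have hexpand : Φ = ∑ j ∈ Finset.range (Fintype.card (CosetQ N) + 1),
      (-1) ^ j * (Polynomial.C (((P j).map (cycRing N ℓ).subtype).eval₂ HahnSeries.C (jN ℂ N)) *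
        Polynomial.X ^ (Fintype.card (CosetQ N) - j)) := by
    have h := Multiset.prod_X_sub_X_eq_sum_esymm
      ((Finset.univ : Finset (CosetQ N)).val.map (fun c => incO N ℓ (S c)))
    rw [Multiset.map_map, Multiset.card_map] at h
    rw [hΦ, Finset.prod_eq_multiset_prod]
    refine h.trans (Finset.sum_congr rfl (fun j _ => ?_))
    rw [Finset.esymm_map_val]
    have h2 := congrArg (incO N ℓ) (hP j)
    rw [coeffMap_eval₂_jN, map_sum] at h2
    simp only [map_prod] at h2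
    rw [h2]
    rfl
  intro i
  rw [hexpand, Polynomial.finsetSum_coeff]
  -- each coefficient is a polynomial expression
  have hterm : ∀ j, ∃ Q : Polynomial (cycRing N ℓ),
      ((-1) ^ j * (Polynomial.C (((P j).map (cycRing N ℓ).subtype).eval₂ HahnSeries.C (jN ℂ N)) *
        Polynomial.X ^ (Fintype.card (CosetQ N) - j))).coeff i =
      (Q.map (cycRing N ℓ).subtype).eval₂ HahnSeries.C (jN ℂ N) := by
    intro j
    by_cases hij : i = Fintype.card (CosetQ N) - j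
    · refine ⟨(-1) ^ j * P j, ?_⟩
      rw [← Polynomial.C_1, ← Polynomial.C_neg, ← Polynomial.C_pow, ← mul_assoc, ← Polynomial.C_mul,
        Polynomial.coeff_C_mul_X_pow, if_pos hij, Polynomial.map_mul, Polynomial.map_pow,
        Polynomial.map_neg, Polynomial.map_one, Polynomial.eval₂_mul, Polynomial.eval₂_pow,
        Polynomial.eval₂_neg, Polynomial.eval₂_one]
    · refine ⟨0, ?_⟩
      rw [← Polynomial.C_1, ← Polynomial.C_neg, ← Polynomial.C_pow, ← mul_assoc, ← Polynomial.C_mul,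
        Polynomial.coeff_C_mul_X_pow, if_neg hij, Polynomial.map_zero, Polynomial.eval₂_zero]
  choose Q hQ using hterm
  refine ⟨∑ j ∈ Finset.range (Fintype.card (CosetQ N) + 1), Q j, ?_⟩
  rw [Polynomial.map_sum, Polynomial.eval₂_finsetSum]
  exact Finset.sum_congr rfl (fun j _ => hQ j)

theorem niceRing_div [Fact ℓ.Prime] (hℓN : ¬ ℓ ∣ N) (x : LaurentSeries ℚ)
    (hx : x ∈ niceRing N ℓ)
    (hdiv : ∀ n : ℤ, ∃ r ∈ GaloisRep.ratLocalizedAt ℓ, x.coeff n = ℓ * r) :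
    ∃ y ∈ niceRing N ℓ, x = HahnSeries.C (ℓ : ℚ) * y := by
  obtain ⟨g, hg, hx⟩ := hx
  have hℓ0 : (ℓ : ℂ) ≠ 0 := Nat.cast_ne_zero.mpr (Fact.out : ℓ.Prime).ne_zero
  have hℓQ : (ℓ : ℚ) ≠ 0 := Nat.cast_ne_zero.mpr (Fact.out : ℓ.Prime).ne_zero
  have hℓO : (ℓ : cycRing N ℓ) ≠ 0 := by
    intro h
    apply hℓ0
    have h' := congrArg Subtype.val h
    simpa using h'
  obtain ⟨s₁, hs₁⟩ := hg.exp 1
  have hs₁' : HasQExp N g (incO N ℓ s₁) := hs₁.congr (fun τ => by rw [one_smul])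
  have heq : iotaN N x = incO N ℓ s₁ := hx.unique hs₁'
  have hdiv₁ : ∀ n : ℤ, ∃ w : cycRing N ℓ, s₁.coeff n = (ℓ : cycRing N ℓ) * w := by
    intro n
    by_cases hn : (N : ℤ) ∣ n
    · obtain ⟨m, rfl⟩ := hn
      obtain ⟨r, hr, hxr⟩ := hdiv m
      refine ⟨⟨cycIncl ℓ ⟨r, hr⟩, cycIncl_mem_cycRing N ℓ _⟩, Subtype.ext ?_⟩
      have h2 := iotaN_coeff_mul N x m
      rw [heq, coeffMap_coeff] at h2
      rw [Subring.coe_mul, Subring.coe_natCast]
      rw [Subring.coe_subtype] at h2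
      rw [h2, hxr]
      show (((ℓ : ℚ) * r : ℚ) : ℂ) = (ℓ : ℂ) * cycIncl ℓ ⟨r, hr⟩
      rw [cycIncl_apply]
      push_cast
      rfl
    · refine ⟨0, Subtype.ext ?_⟩
      have h2 := iotaN_coeff_of_not_dvd N x hn
      rw [heq, coeffMap_coeff] at h2
      rw [mul_zero]
      exact h2
  have hnew : HasQExp N (fun τ => (ℓ : ℂ)⁻¹ * g τ) (iotaN N (HahnSeries.C ((ℓ : ℚ)⁻¹) * x)) := by
    rw [map_mul, iotaN_C]
    have h := hx.const_mul ((ℓ : ℂ)⁻¹)
    convert h using 3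
    push_cast
    rfl
  refine ⟨HahnSeries.C ((ℓ : ℚ)⁻¹) * x, ⟨fun τ => (ℓ : ℂ)⁻¹ * g τ, ⟨hnew.mdifferentiable, ?_, ?_⟩,
    hnew⟩, ?_⟩
  · intro γ hγ τ
    show (ℓ : ℂ)⁻¹ * g (γ • τ) = (ℓ : ℂ)⁻¹ * g τ
    rw [hg.inv γ hγ τ]
  · intro γ
    obtain ⟨s, hs⟩ := hg.exp γ
    obtain ⟨s', hs'⟩ := exists_eq_C_mul_of_coeff (ℓ : cycRing N ℓ) hℓO s
      (fun n => qep N ℓ hℓN g hg s₁ hs₁' hdiv₁ γ s hs n)
    refine ⟨s', ?_⟩
    have h := hs.const_mul ((ℓ : ℂ)⁻¹)
    convert h using 1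
    rw [hs', map_mul, coeffMap_C, ← mul_assoc, ← map_mul]
    have : (ℓ : ℂ)⁻¹ * (cycRing N ℓ).subtype (ℓ : cycRing N ℓ) = 1 := by
      rw [Subring.coe_subtype, Subring.coe_natCast, inv_mul_cancel₀ hℓ0]
    rw [this, map_one, one_mul]
  · rw [← mul_assoc, ← map_mul, mul_inv_cancel₀ hℓQ, map_one, one_mul]

theorem core (N ℓ : ℕ) [NeZero N] [Fact ℓ.Prime] (hℓN : ¬ ℓ ∣ N) :
    ∃ B : Subring (LaurentSeries ℚ), CoreData N ℓ B :=
  ⟨niceRing N ℓ,
    { const_mem := niceRing_const_mem N ℓ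
      gen_mem := fun d _ hd => ⟨_, isNice_Jd N ℓ d hd, hasQExp_Jd N d⟩
      coeff_mem := niceRing_coeff_mem N ℓ
      integral := niceRing_integral N ℓ
      div := niceRing_div N ℓ hℓN }⟩

end Fermat.Agent.S28
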