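import Mathlib

/-!
# S28 piece A4: a coprimality lemma for integral closures over integrally closed domains

If `D` is an integrally closed domain, `p ∈ D` is prime, `b ∉ pD`, and both `p x` and `b x` are
integral over `D`, then `x` is integral over `D`.
-/

set_option autoImplicit false

namespace Fermat.Agent.S28

open Polynomial

theorem isIntegral_of_prime_mul_of_mul {D F : Type*} [CommRing D] [IsDomain D]
    [IsIntegrallyClosed D] [Field F] [Algebra D F] [FaithfulSMul D F] (p b : D) (hp : Prime p)
    (hb : ¬ p ∣ b) (x : F) (h1 : IsIntegral D (algebraMap D F p * x))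
    (h2 : IsIntegral D (algebraMap D F b * x)) : IsIntegral D x := by
  have hinj : Function.Injective (algebraMap D F) := FaithfulSMul.algebraMap_injective D F
  have hp0 : p ≠ 0 := hp.ne_zero
  have hb0 : b ≠ 0 := fun h => hb (h ▸ dvd_zero p)
  have hpF : algebraMap D F p ≠ 0 := fun h => hp0 (hinj (by rw [h, map_zero]))
  set g := minpoly D (algebraMap D F p * x) with hg
  set h := minpoly D (algebraMap D F b * x) with hh
  have gm : g.Monic := minpoly.monic h1
  have hm : h.Monic := minpoly.monic h2
  have hy : IsIntegral D (algebraMap D F b * (algebraMap D F p * x)) :=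
    isIntegral_algebraMap.mul h1
  have hGy : aeval (algebraMap D F b * (algebraMap D F p * x)) (scaleRoots g b) = 0 :=
    scaleRoots_aeval_eq_zero (minpoly.aeval D _)
  have hHy : aeval (algebraMap D F p * (algebraMap D F b * x)) (scaleRoots h p) = 0 :=
    scaleRoots_aeval_eq_zero (minpoly.aeval D _)
  have hyeq : algebraMap D F p * (algebraMap D F b * x) =
      algebraMap D F b * (algebraMap D F p * x) := by ring
  rw [hyeq] at hHy
  set m := minpoly D (algebraMap D F b * (algebraMap D F p * x)) with hm_def
  have mm : m.Monic := minpoly.monic hy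
  have hmG : m ∣ scaleRoots g b := minpoly.isIntegrallyClosed_dvd hy hGy
  have hmH : m ∣ scaleRoots h p := minpoly.isIntegrallyClosed_dvd hy hHy
  have hcompb : (m.comp (C b * X)).natDegree = m.natDegree := by
    rw [natDegree_comp, natDegree_C_mul_X b hb0, mul_one]
  have hcompp : (m.comp (C p * X)).natDegree = m.natDegree := by
    rw [natDegree_comp, natDegree_C_mul_X p hp0, mul_one]
  have hcompb0 : m.comp (C b * X) ≠ 0 := by
    intro h0
    have h5 := leadingCoeff_comp (p := m) (q := C b * X) (by rw [natDegree_C_mul_X b hb0]; exact one_ne_zero)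
    rw [h0, leadingCoeff_zero, mm.leadingCoeff, one_mul, leadingCoeff_mul, leadingCoeff_C,
      leadingCoeff_X, mul_one] at h5
    exact pow_ne_zero _ hb0 h5.symm
  have hcompp0 : m.comp (C p * X) ≠ 0 := by
    intro h0
    have h5 := leadingCoeff_comp (p := m) (q := C p * X) (by rw [natDegree_C_mul_X p hp0]; exact one_ne_zero)
    rw [h0, leadingCoeff_zero, mm.leadingCoeff, one_mul, leadingCoeff_mul, leadingCoeff_C,
      leadingCoeff_X, mul_one] at h5
    exact pow_ne_zero _ hp0 h5.symm
  have hgm : g ∣ m.comp (C b * X) := by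
    apply minpoly.isIntegrallyClosed_dvd h1
    rw [aeval_comp]
    simp only [map_mul, aeval_C, aeval_X]
    exact minpoly.aeval D _
  have hhm : h ∣ m.comp (C p * X) := by
    apply minpoly.isIntegrallyClosed_dvd h2
    rw [aeval_comp]
    simp only [map_mul, aeval_C, aeval_X]
    rw [hyeq]
    exact minpoly.aeval D _
  have hdg : g.natDegree ≤ m.natDegree := by
    rw [← hcompb]; exact natDegree_le_of_dvd hgm hcompb0
  have hdh : h.natDegree ≤ m.natDegree := by
    rw [← hcompp]; exact natDegree_le_of_dvd hhm hcompp0
  have hG : m = scaleRoots g b :=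
    (eq_of_monic_of_dvd_of_natDegree_le mm ((monic_scaleRoots_iff b).mpr gm) hmG
      (by rw [natDegree_scaleRoots]; exact hdg)).symm
  have hH : m = scaleRoots h p :=
    (eq_of_monic_of_dvd_of_natDegree_le mm ((monic_scaleRoots_iff p).mpr hm) hmH
      (by rw [natDegree_scaleRoots]; exact hdh)).symm
  have hng : m.natDegree = g.natDegree := by rw [hG, natDegree_scaleRoots]
  have hnh : m.natDegree = h.natDegree := by rw [hH, natDegree_scaleRoots]
  set n := g.natDegree with hn
  have hcoeff : ∀ i, g.coeff i * b ^ (n - i) = h.coeff i * p ^ (n - i) := by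
    intro i
    have e1 : m.coeff i = g.coeff i * b ^ (n - i) := by rw [hG, coeff_scaleRoots]
    have e2 : m.coeff i = h.coeff i * p ^ (n - i) := by
      rw [hH, coeff_scaleRoots, ← hnh, hng]
    rw [← e1, e2]
  have hdiv : ∀ i, p ^ (n - i) ∣ g.coeff i := by
    intro i
    apply hp.pow_dvd_of_dvd_mul_right (n - i) (fun hpb => hb (hp.dvd_of_dvd_pow hpb))
    rw [hcoeff i]
    exact dvd_mul_left _ _
  choose c hc using hdiv
  set q : D[X] := ∑ i ∈ Finset.range (n + 1), monomial i (c i) with hq
  have hqcoeff : ∀ j, q.coeff j = if j ≤ n then c j else 0 := by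
    intro j
    rw [hq, finsetSum_coeff]
    simp only [coeff_monomial]
    rw [Finset.sum_ite_eq' (Finset.range (n + 1)) j]
    simp
  have hcn : c n = 1 := by
    have := hc n
    rw [Nat.sub_self, pow_zero, one_mul] at this
    rw [← this]
    exact gm.coeff_natDegree
  have hqdeg : q.natDegree ≤ n := by
    rw [natDegree_le_iff_coeff_eq_zero]
    intro j hj
    rw [hqcoeff, if_neg (by omega)]
  have hqn : q.coeff n = 1 := by rw [hqcoeff, if_pos le_rfl, hcn]
  have hqm : q.Monic := monic_of_natDegree_le_of_coeff_eq_one n hqdeg hqn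
  have hqdeg' : q.natDegree = n :=
    le_antisymm hqdeg (le_natDegree_of_ne_zero (by rw [hqn]; exact one_ne_zero))
  have hgq : g = scaleRoots q p := by
    ext i
    rw [coeff_scaleRoots, hqdeg', hqcoeff]
    split_ifs with hi
    · rw [hc i, mul_comm]
    · rw [zero_mul]
      exact coeff_eq_zero_of_natDegree_lt (by omega)
  refine ⟨q, hqm, ?_⟩
  have h3 : eval₂ (algebraMap D F) (algebraMap D F p * x) (scaleRoots q p) = 0 := by
    rw [← hgq, ← aeval_def]
    exact minpoly.aeval D _
  rw [scaleRoots_eval₂_mul] at h3
  rcases mul_eq_zero.mp h3 with h4 | h4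
  · exact absurd h4 (pow_ne_zero _ hpF)
  · exact h4

end Fermat.Agent.S28
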