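import Fermat.Agent.S28.Defs
import Fermat.Prelude.Thm_ModularCurve_coeffMap_qExpand
import Fermat.Prelude.Thm_ModularCurve_coeff_jqModC_pow_self
import Fermat.Prelude.Thm_ModularCurve_coeff_jqModC_pow_of_lt

/-!
# S28 piece PF: formal lemmas on Laurent series (no analysis)
-/

set_option autoImplicit false

open ModularCurve

noncomputable section

namespace Fermat.Agent.S28

variable {A B : Type*} [CommRing A] [CommRing B]

theorem substQ_coeff_mul (c : Aˣ) (m : ℕ) [NeZero m] (s : LaurentSeries A) (k : ℤ) :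
    (substQ c m s).coeff ((m : ℤ) * k) = ((c ^ k : Aˣ) : A) * s.coeff k := by
  rw [substQ, qExpand_coeff_mul, twistQ_coeff]

theorem substQ_coeff_of_not_dvd (c : Aˣ) (m : ℕ) [NeZero m] (s : LaurentSeries A) {k : ℤ}
    (hk : ¬ (m : ℤ) ∣ k) : (substQ c m s).coeff k = 0 :=
  qExpand_coeff_of_not_dvd m _ hk

theorem formal_coeffMap_twistQ (f : A →+* B) (c : Aˣ) (s : LaurentSeries A) :
    coeffMap f (twistQ c s) = twistQ (Units.map (f : A →* B) c) (coeffMap f s) := by
  ext n
  rw [coeffMap_coeff, twistQ_coeff, twistQ_coeff, coeffMap_coeff, map_mul, ← map_zpow,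
    Units.coe_map]
  rfl

theorem coeffMap_substQ (f : A →+* B) (c : Aˣ) (m : ℕ) [NeZero m] (s : LaurentSeries A) :
    coeffMap f (substQ c m s) = substQ (Units.map (f : A →* B) c) m (coeffMap f s) := by
  rw [substQ, substQ, coeffMap_qExpand, formal_coeffMap_twistQ]

/-! ### Normal form `single e 1 * ofPowerSeries p` -/

theorem formal_coeff_single_mul_ofPowerSeries (e : ℤ) (p : PowerSeries A) (n : ℕ) :
    (HahnSeries.single e (1 : A) * HahnSeries.ofPowerSeries ℤ A p).coeff (e + n) =
      PowerSeries.coeff n p := by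
  rw [HahnSeries.coeff_single_mul, one_mul, add_sub_cancel_left,
    HahnSeries.ofPowerSeries_apply_coeff]

theorem formal_coeff_single_mul_ofPowerSeries_of_lt (e : ℤ) (p : PowerSeries A) {k : ℤ}
    (hk : k < e) :
    (HahnSeries.single e (1 : A) * HahnSeries.ofPowerSeries ℤ A p).coeff k = 0 := by
  rw [HahnSeries.coeff_single_mul, one_mul]
  exact ofPowerSeries_coeff_of_neg _ (by omega)

theorem formal_isLeading_single_mul (e : ℤ) (p : PowerSeries A) :
    IsLeading (HahnSeries.single e (1 : A) * HahnSeries.ofPowerSeries ℤ A p) e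
      (PowerSeries.constantCoeff p) := by
  refine ⟨?_, fun n hn => formal_coeff_single_mul_ofPowerSeries_of_lt e p hn⟩
  have h := formal_coeff_single_mul_ofPowerSeries e p 0
  rw [PowerSeries.coeff_zero_eq_constantCoeff_apply] at h
  simpa using h

theorem IsLeading.exists_eq_single_mul {s : LaurentSeries A} {e : ℤ} {c : A}
    (h : IsLeading s e c) :
    ∃ p : PowerSeries A, s = HahnSeries.single e (1 : A) * HahnSeries.ofPowerSeries ℤ A p ∧
      PowerSeries.constantCoeff p = c := by
  refine ⟨PowerSeries.mk fun n => s.coeff (e + n), ?_, ?_⟩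
  · ext k
    rcases lt_or_ge k e with hk | hk
    · rw [formal_coeff_single_mul_ofPowerSeries_of_lt e _ hk, h.2 k hk]
    · obtain ⟨n, rfl⟩ : ∃ n : ℕ, k = e + n := ⟨(k - e).toNat, by omega⟩
      rw [formal_coeff_single_mul_ofPowerSeries, PowerSeries.coeff_mk]
  · rw [← PowerSeries.coeff_zero_eq_constantCoeff_apply, PowerSeries.coeff_mk]
    simpa using h.1

theorem formal_single_mul_single_one (e e' : ℤ) :
    HahnSeries.single e (1 : A) * HahnSeries.single e' (1 : A) =
      HahnSeries.single (e + e') (1 : A) := by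
  rw [HahnSeries.single_mul_single, one_mul]

theorem IsLeading.mul {s s' : LaurentSeries A} {e e' : ℤ} {c c' : A} (h : IsLeading s e c)
    (h' : IsLeading s' e' c') : IsLeading (s * s') (e + e') (c * c') := by
  obtain ⟨p, rfl, hp⟩ := h.exists_eq_single_mul
  obtain ⟨p', rfl, hp'⟩ := h'.exists_eq_single_mul
  have key : HahnSeries.single e (1 : A) * HahnSeries.ofPowerSeries ℤ A p *
      (HahnSeries.single e' (1 : A) * HahnSeries.ofPowerSeries ℤ A p') =
      HahnSeries.single (e + e') (1 : A) * HahnSeries.ofPowerSeries ℤ A (p * p') := by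
    rw [map_mul, ← formal_single_mul_single_one]
    ring
  rw [key, ← hp, ← hp', ← map_mul]
  exact formal_isLeading_single_mul _ _

theorem IsLeading.substQ (c₀ : Aˣ) (m : ℕ) [NeZero m] {s : LaurentSeries A} {e : ℤ} {c : A}
    (h : IsLeading s e c) : IsLeading (substQ c₀ m s) ((m : ℤ) * e) (((c₀ ^ e : Aˣ) : A) * c) := by
  refine ⟨by rw [substQ_coeff_mul, h.1], fun n hn => ?_⟩
  by_cases hd : (m : ℤ) ∣ n
  · obtain ⟨k, rfl⟩ := hd
    have hm : (0 : ℤ) < m := by exact_mod_cast Nat.pos_of_ne_zero (NeZero.ne m)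
    have hk : k < e := lt_of_mul_lt_mul_left hn hm.le
    rw [substQ_coeff_mul, h.2 k hk, mul_zero]
  · exact substQ_coeff_of_not_dvd c₀ m s hd

theorem IsLeading.qExpand (m : ℕ) [NeZero m] {s : LaurentSeries A} {e : ℤ} {c : A}
    (h : IsLeading s e c) : IsLeading (qExpand A m s) ((m : ℤ) * e) c := by
  refine ⟨by rw [qExpand_coeff_mul, h.1], fun n hn => ?_⟩
  by_cases hd : (m : ℤ) ∣ n
  · obtain ⟨k, rfl⟩ := hd
    have hm : (0 : ℤ) < m := by exact_mod_cast Nat.pos_of_ne_zero (NeZero.ne m)
    have hk : k < e := lt_of_mul_lt_mul_left hn hm.le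
    rw [qExpand_coeff_mul, h.2 k hk]
  · exact qExpand_coeff_of_not_dvd m s hd

theorem IsLeading.coeffMap (f : A →+* B) {s : LaurentSeries A} {e : ℤ} {c : A}
    (h : IsLeading s e c) : IsLeading (coeffMap f s) e (f c) :=
  ⟨by rw [coeffMap_coeff, h.1], fun n hn => by rw [coeffMap_coeff, h.2 n hn, map_zero]⟩

theorem formal_coeff_C_mul (a : A) (s : LaurentSeries A) (n : ℤ) :
    (HahnSeries.C a * s).coeff n = a * s.coeff n := by
  rw [HahnSeries.C_mul_eq_smul, HahnSeries.coeff_smul, smul_eq_mul]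

theorem IsLeading.C_mul (a : A) {s : LaurentSeries A} {e : ℤ} {c : A} (h : IsLeading s e c) :
    IsLeading (HahnSeries.C a * s) e (a * c) :=
  ⟨by rw [formal_coeff_C_mul, h.1], fun n hn => by rw [formal_coeff_C_mul, h.2 n hn, mul_zero]⟩

/-- A Laurent series with unit lowest coefficient is invertible. -/
theorem IsLeading.exists_inv {s : LaurentSeries A} {e : ℤ} (c : Aˣ) (h : IsLeading s e (c : A)) :
    ∃ s' : LaurentSeries A, s * s' = 1 ∧ IsLeading s' (-e) ((c⁻¹ : Aˣ) : A) := by
  obtain ⟨p, rfl, hp⟩ := h.exists_eq_single_mul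
  refine ⟨HahnSeries.single (-e) (1 : A) *
    HahnSeries.ofPowerSeries ℤ A (PowerSeries.invOfUnit p c), ?_, ?_⟩
  · have hs : HahnSeries.single e (1 : A) * HahnSeries.single (-e) (1 : A) = 1 := by
      rw [formal_single_mul_single_one, add_neg_cancel]
      rfl
    calc HahnSeries.single e (1 : A) * HahnSeries.ofPowerSeries ℤ A p *
          (HahnSeries.single (-e) (1 : A) *
            HahnSeries.ofPowerSeries ℤ A (PowerSeries.invOfUnit p c))
        = (HahnSeries.single e (1 : A) * HahnSeries.single (-e) (1 : A)) *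
          HahnSeries.ofPowerSeries ℤ A (p * PowerSeries.invOfUnit p c) := by
          rw [map_mul]; ring
      _ = 1 := by rw [hs, PowerSeries.mul_invOfUnit p c hp, map_one, one_mul]
  · have h2 := formal_isLeading_single_mul (-e) (PowerSeries.invOfUnit p c)
    rwa [PowerSeries.constantCoeff_invOfUnit] at h2

theorem IsLeading.ne_zero {s : LaurentSeries A} {e : ℤ} {c : A} (h : IsLeading s e c)
    (hc : c ≠ 0) : s ≠ 0 :=
  HahnSeries.ne_zero_of_coeff_ne_zero (g := e) (by rw [h.1]; exact hc)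

theorem IsLeading.order_eq {s : LaurentSeries A} {e : ℤ} {c : A} (h : IsLeading s e c)
    (hc : c ≠ 0) : s.order = e := by
  apply le_antisymm
  · exact HahnSeries.order_le_of_coeff_ne_zero (by rw [h.1]; exact hc)
  · by_contra hlt
    rw [not_le] at hlt
    have h1 := h.2 _ hlt
    rw [HahnSeries.coeff_order_eq_zero] at h1
    exact h.ne_zero hc h1

/-! ### The `Δ` series -/

theorem formal_deltaSeries_eq (A : Type*) [CommRing A] :
    deltaSeries A = HahnSeries.single (1 : ℤ) (1 : A) *
      HahnSeries.ofPowerSeries ℤ A (dedekindEtaUnit.map (Int.castRingHom A)) := by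
  rw [deltaSeries, map_mul, PowerSeries.map_X, map_mul, HahnSeries.ofPowerSeries_X]

theorem formal_constantCoeff_map_intCast (A : Type*) [CommRing A] (p : PowerSeries ℤ)
    (hp : PowerSeries.constantCoeff p = 1) :
    PowerSeries.constantCoeff (p.map (Int.castRingHom A)) = (1 : A) := by
  rw [← PowerSeries.coeff_zero_eq_constantCoeff_apply, PowerSeries.coeff_map,
    PowerSeries.coeff_zero_eq_constantCoeff_apply, hp]
  simp

theorem isLeading_deltaSeries (A : Type*) [CommRing A] : IsLeading (deltaSeries A) 1 1 := by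
  have h := formal_isLeading_single_mul (1 : ℤ) (dedekindEtaUnit.map (Int.castRingHom A))
  rw [← formal_deltaSeries_eq,
    formal_constantCoeff_map_intCast A _ constantCoeff_dedekindEtaUnit] at h
  exact h

theorem isLeading_deltaInvSeries (A : Type*) [CommRing A] :
    IsLeading (deltaInvSeries A) (-1) 1 := by
  have h := formal_isLeading_single_mul (-1 : ℤ) (dedekindEtaUnitInv.map (Int.castRingHom A))
  rw [formal_constantCoeff_map_intCast A _ constantCoeff_dedekindEtaUnitInv] at h
  exact h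

theorem deltaSeries_mul_deltaInvSeries (A : Type*) [CommRing A] :
    deltaSeries A * deltaInvSeries A = 1 := by
  rw [formal_deltaSeries_eq, deltaInvSeries]
  have hs : HahnSeries.single (1 : ℤ) (1 : A) * HahnSeries.single (-1 : ℤ) (1 : A) = 1 := by
    rw [formal_single_mul_single_one, add_neg_cancel]
    rfl
  calc HahnSeries.single (1 : ℤ) (1 : A) *
        HahnSeries.ofPowerSeries ℤ A (dedekindEtaUnit.map (Int.castRingHom A)) *
        (HahnSeries.single (-1 : ℤ) (1 : A) *
          HahnSeries.ofPowerSeries ℤ A (dedekindEtaUnitInv.map (Int.castRingHom A)))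
      = (HahnSeries.single (1 : ℤ) (1 : A) * HahnSeries.single (-1 : ℤ) (1 : A)) *
        HahnSeries.ofPowerSeries ℤ A
          ((dedekindEtaUnit * dedekindEtaUnitInv).map (Int.castRingHom A)) := by
        rw [map_mul, map_mul]; ring
    _ = 1 := by rw [hs, dedekindEtaUnit_mul_inv, map_one, map_one, one_mul]

theorem formal_map_map_intCast (f : A →+* B) (p : PowerSeries ℤ) :
    PowerSeries.map f (PowerSeries.map (Int.castRingHom A) p) =
      PowerSeries.map (Int.castRingHom B) p := by
  rw [← RingHom.comp_apply, ← PowerSeries.map_comp,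
    RingHom.ext_int (f.comp (Int.castRingHom A)) (Int.castRingHom B)]

theorem coeffMap_deltaSeries (f : A →+* B) : coeffMap f (deltaSeries A) = deltaSeries B := by
  rw [deltaSeries, deltaSeries, coeffMap_ofPowerSeries, formal_map_map_intCast]

theorem coeffMap_deltaInvSeries (f : A →+* B) :
    coeffMap f (deltaInvSeries A) = deltaInvSeries B := by
  rw [deltaInvSeries, deltaInvSeries, map_mul, coeffMap_single, map_one, coeffMap_ofPowerSeries,
    formal_map_map_intCast]

/-- If all coefficients are divisible by `a`, so is the series (over a domain, `a ≠ 0`). -/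
theorem exists_eq_C_mul_of_coeff [IsDomain A] (a : A) (ha : a ≠ 0) (s : LaurentSeries A)
    (h : ∀ n : ℤ, ∃ w : A, s.coeff n = a * w) : ∃ s' : LaurentSeries A, s = HahnSeries.C a * s' := by
  choose w hw using h
  refine ⟨⟨w, s.isPWO_support.mono fun n hn => ?_⟩, ?_⟩
  · simp only [Function.mem_support, ne_eq, HahnSeries.mem_support] at hn ⊢
    rw [hw n]
    exact mul_ne_zero ha hn
  · ext n
    rw [formal_coeff_C_mul, hw n]

/-- The level-`N` `j`-series over a ring. -/
abbrev jN (A : Type*) [CommRing A] (N : ℕ) [NeZero N] : LaurentSeries A := qExpand A N (jqModC A)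

theorem coeffMap_jN (f : A →+* B) (N : ℕ) [NeZero N] : coeffMap f (jN A N) = jN B N := by
  rw [coeffMap_qExpand, coeffMap_jqModC]

theorem formal_coeffMap_comp_C (f : A →+* B) :
    (coeffMap f).comp (HahnSeries.C : A →+* LaurentSeries A) =
      (HahnSeries.C : B →+* LaurentSeries B).comp f := by
  refine RingHom.ext fun a => ?_
  exact coeffMap_single f 0 a

theorem coeffMap_eval₂_jN (f : A →+* B) (N : ℕ) [NeZero N] (P : Polynomial A) :
    coeffMap f (P.eval₂ HahnSeries.C (jN A N)) = (P.map f).eval₂ HahnSeries.C (jN B N) := by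
  rw [Polynomial.hom_eval₂, Polynomial.eval₂_map, formal_coeffMap_comp_C, coeffMap_jN]

theorem formal_coeff_jN_pow (k : Type*) [CommRing k] (N : ℕ) [NeZero N] (i : ℕ) (m : ℤ) :
    ((jN k N) ^ i).coeff ((N : ℤ) * m) = ((jqModC k) ^ i).coeff m := by
  rw [← map_pow, qExpand_coeff_mul]

/-- The coefficient of `P(j(t^N))` at `-N deg P` is the leading coefficient of `P`. -/
theorem formal_coeff_eval₂_jN (k : Type*) [CommRing k] (N : ℕ) [NeZero N] (P : Polynomial k) :
    (P.eval₂ HahnSeries.C (jN k N)).coeff ((N : ℤ) * (-(P.natDegree : ℤ))) = P.leadingCoeff := by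
  rw [Polynomial.eval₂_eq_sum_range, HahnSeries.coeff_sum, Finset.sum_eq_single P.natDegree]
  · rw [formal_coeff_C_mul, formal_coeff_jN_pow, coeff_jqModC_pow_self, mul_one]
    rfl
  · intro i hi hne
    have hlt : i < P.natDegree :=
      lt_of_le_of_ne (Nat.lt_succ_iff.mp (Finset.mem_range.mp hi)) hne
    rw [formal_coeff_C_mul, formal_coeff_jN_pow, coeff_jqModC_pow_of_lt k (by omega), mul_zero]
  · intro hn
    exact absurd (Finset.mem_range.mpr (Nat.lt_succ_self _)) hn

/-- A nonzero polynomial in `j(t^N)` over a field has order `≤ 0`. -/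
theorem order_eval₂_jN_nonpos (k : Type*) [Field k] (N : ℕ) [NeZero N] (P : Polynomial k)
    (h : P.eval₂ HahnSeries.C (jN k N) ≠ 0) : (P.eval₂ HahnSeries.C (jN k N)).order ≤ 0 := by
  have hP : P ≠ 0 := by
    rintro rfl
    exact h (by simp)
  have hne : (P.eval₂ HahnSeries.C (jN k N)).coeff ((N : ℤ) * (-(P.natDegree : ℤ))) ≠ 0 := by
    rw [formal_coeff_eval₂_jN]
    exact Polynomial.leadingCoeff_ne_zero.mpr hP
  have hle := HahnSeries.order_le_of_coeff_ne_zero hne
  have h3 : (N : ℤ) * (-(P.natDegree : ℤ)) ≤ 0 := by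
    have h1 : (0 : ℤ) ≤ N := Int.natCast_nonneg N
    have h2 : (0 : ℤ) ≤ P.natDegree := Int.natCast_nonneg _
    nlinarith
  exact hle.trans h3

/-- `iotaN` of a constant. -/
theorem iotaN_C (N : ℕ) [NeZero N] (r : ℚ) :
    iotaN N (HahnSeries.C r) = HahnSeries.C (r : ℂ) := by
  show qExpand ℂ N (coeffMap (algebraMap ℚ ℂ) (HahnSeries.C r)) = _
  have h : coeffMap (algebraMap ℚ ℂ) (HahnSeries.C r) = HahnSeries.C (algebraMap ℚ ℂ r) :=
    coeffMap_single _ 0 r
  rw [h, qExpand_C, eq_ratCast]

theorem iotaN_injective (N : ℕ) [NeZero N] : Function.Injective (iotaN N) := by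
  intro x y hxy
  have h1 : coeffMap (algebraMap ℚ ℂ) x = coeffMap (algebraMap ℚ ℂ) y := qExpand_injective N hxy
  ext k
  have h2 := congrArg (fun z : LaurentSeries ℂ => z.coeff k) h1
  simp only [coeffMap_coeff] at h2
  exact (algebraMap ℚ ℂ).injective h2

theorem iotaN_jq (N : ℕ) [NeZero N] : iotaN N jq = jN ℂ N := by
  show qExpand ℂ N (coeffMap (algebraMap ℚ ℂ) jq) = _
  rw [← jqModC_rat, coeffMap_jqModC]

theorem iotaN_qExpand_jq (N : ℕ) [NeZero N] (d : ℕ) [NeZero d] :
    iotaN N (qExpand ℚ d jq) = qExpand ℂ (N * d) (jqModC ℂ) := by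
  show qExpand ℂ N (coeffMap (algebraMap ℚ ℂ) (qExpand ℚ d jq)) = _
  rw [coeffMap_qExpand, ← jqModC_rat, coeffMap_jqModC, qExpand_qExpand]

theorem iotaN_coeff_mul (N : ℕ) [NeZero N] (x : LaurentSeries ℚ) (k : ℤ) :
    (iotaN N x).coeff ((N : ℤ) * k) = ((x.coeff k : ℚ) : ℂ) := by
  show (qExpand ℂ N (coeffMap (algebraMap ℚ ℂ) x)).coeff ((N : ℤ) * k) = _
  rw [qExpand_coeff_mul, coeffMap_coeff, eq_ratCast]

theorem iotaN_coeff_of_not_dvd (N : ℕ) [NeZero N] (x : LaurentSeries ℚ) {k : ℤ}
    (hk : ¬ (N : ℤ) ∣ k) : (iotaN N x).coeff k = 0 :=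
  qExpand_coeff_of_not_dvd N _ hk

end Fermat.Agent.S28
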