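import Fermat.Agent.S28.WRing
import Fermat.Agent.S28.Coprime
import Fermat.Agent.S28.Formal

/-!
# S28 pieces A3/A5: from the analytic core `CoreData` to the reduction maps on the charts
-/

set_option autoImplicit false

open ModularCurve ModularCurve.IgusaScheme

noncomputable section

namespace Fermat.Agent.S28

variable (N : ℕ) [NeZero N] (ℓ : ℕ) [Fact ℓ.Prime]

/-! ### Evaluation of polynomials at the formal `j` over an arbitrary ring -/

/-- Evaluation of polynomials at the formal `j`-series over a commutative ring. -/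
def kerEvJ (A : Type*) [CommRing A] : Polynomial A →+* LaurentSeries A :=
  Polynomial.eval₂RingHom HahnSeries.C (jqModC A)

theorem kerEvJ_apply (A : Type*) [CommRing A] (P : Polynomial A) :
    kerEvJ A P = P.eval₂ HahnSeries.C (jqModC A) := rfl

theorem kerEvJ_coeff_neg_natDegree (A : Type*) [CommRing A] (P : Polynomial A) :
    (kerEvJ A P).coeff (-(P.natDegree : ℤ)) = P.leadingCoeff := by
  rw [kerEvJ_apply, Polynomial.eval₂_eq_sum_range, HahnSeries.coeff_sum]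
  rw [Finset.sum_eq_single P.natDegree]
  · rw [HahnSeries.C_mul_eq_smul, HahnSeries.coeff_smul, coeff_jqModC_pow_self, smul_eq_mul,
      mul_one]
    rfl
  · intro k hk hkn
    have hlt : k < P.natDegree := lt_of_le_of_ne (Nat.lt_succ_iff.mp (Finset.mem_range.mp hk)) hkn
    rw [HahnSeries.C_mul_eq_smul, HahnSeries.coeff_smul,
      coeff_jqModC_pow_of_lt A (by exact_mod_cast neg_lt_neg (Nat.cast_lt (α := ℤ).mpr hlt)),
      smul_zero]
  · intro h
    exact absurd (Finset.mem_range.mpr (Nat.lt_succ_self _)) h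

theorem kerEvJ_injective (A : Type*) [CommRing A] : Function.Injective (kerEvJ A) := by
  rw [injective_iff_map_eq_zero]
  intro P hP
  have h := kerEvJ_coeff_neg_natDegree A P
  rw [hP, HahnSeries.coeff_zero] at h
  exact Polynomial.leadingCoeff_eq_zero.mp h.symm

theorem coeffMap_comp_C {A B : Type*} [CommRing A] [CommRing B] (f : A →+* B) :
    (coeffMap f).comp (HahnSeries.C : A →+* LaurentSeries A) = (HahnSeries.C).comp f := by
  ext a : 1
  exact coeffMap_single f 0 a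

theorem coeffMap_kerEvJ {A B : Type*} [CommRing A] [CommRing B] (f : A →+* B)
    (P : Polynomial A) : coeffMap f (kerEvJ A P) = kerEvJ B (P.map f) := by
  rw [kerEvJ_apply, kerEvJ_apply, Polynomial.hom_eval₂, Polynomial.eval₂_map, coeffMap_comp_C,
    coeffMap_jqModC]

theorem constR_eq_comp : constR ℓ =
    (HahnSeries.C : ℚ →+* LaurentSeries ℚ).comp (GaloisRep.ratLocalizedAt ℓ).subtype := rfl

theorem evJ_eq_kerEvJ_map (P : Polynomial (GaloisRep.ratLocalizedAt ℓ)) :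
    evJ ℓ P = kerEvJ ℚ (P.map (GaloisRep.ratLocalizedAt ℓ).subtype) := by
  rw [kerEvJ_apply, Polynomial.eval₂_map]
  rfl

theorem incL_kerEvJ (P : Polynomial (GaloisRep.ratLocalizedAt ℓ)) :
    incL ℓ (kerEvJ (GaloisRep.ratLocalizedAt ℓ) P) = evJ ℓ P := by
  rw [evJ_eq_kerEvJ_map, incL, coeffMap_kerEvJ]

theorem redL_kerEvJ (P : Polynomial (GaloisRep.ratLocalizedAt ℓ)) :
    redL ℓ (kerEvJ (GaloisRep.ratLocalizedAt ℓ) P) = kerEvJ (ZMod ℓ) (P.map (redR ℓ)) := by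
  rw [redL, coeffMap_kerEvJ]

/-- `j` is transcendental over `ℤ_(ℓ)`. -/
theorem evJ_injective : Function.Injective (evJ ℓ) := by
  intro P Q h
  rw [evJ_eq_kerEvJ_map, evJ_eq_kerEvJ_map] at h
  exact Polynomial.map_injective _ (Subtype.val_injective) (kerEvJ_injective ℚ h)

/-- Evaluation of polynomials over `ℤ_(ℓ)` at `1/j`. -/
def evJinv : Polynomial (GaloisRep.ratLocalizedAt ℓ) →+* LaurentSeries ℚ :=
  Polynomial.eval₂RingHom (constR ℓ) jq⁻¹

theorem evJinv_injective : Function.Injective (evJinv ℓ) := by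
  rw [injective_iff_map_eq_zero]
  intro P hP
  let _ : Invertible (jq⁻¹ : LaurentSeries ℚ) := invertibleOfNonzero (inv_ne_zero jq_ne_zero)
  have h := Polynomial.eval₂_reverse_mul_pow (constR ℓ) (jq⁻¹ : LaurentSeries ℚ) P
  have hinv : (⅟(jq⁻¹ : LaurentSeries ℚ)) = jq := by
    rw [invOf_eq_inv, inv_inv]
  rw [hinv] at h
  have hP' : Polynomial.eval₂ (constR ℓ) jq⁻¹ P = 0 := hP
  rw [hP'] at h
  have h2 : Polynomial.eval₂ (constR ℓ) jq P.reverse = 0 := by
    rcases mul_eq_zero.mp h with h | h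
    · exact h
    · exact absurd h (pow_ne_zero _ (inv_ne_zero jq_ne_zero))
  have h3 : P.reverse = 0 := by
    apply evJ_injective ℓ
    rw [map_zero]
    exact h2
  exact Polynomial.reverse_eq_zero.mp h3

/-- The inclusion of the function field into `ℚ((q))` as a ring hom. -/
def kerVal : modularFunctionFieldFull N →+* LaurentSeries ℚ where
  toFun x := (x : LaurentSeries ℚ)
  map_one' := rfl
  map_mul' _ _ := rfl
  map_zero' := rfl
  map_add' _ _ := rfl

theorem kerVal_apply (x : modularFunctionFieldFull N) : kerVal N x = (x : LaurentSeries ℚ) := rfl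

theorem kerVal_injective : Function.Injective (kerVal N) := Subtype.val_injective

theorem kerVal_algebraMap (r : GaloisRep.ratLocalizedAt ℓ) :
    kerVal N (algebraMap (GaloisRep.ratLocalizedAt ℓ) (modularFunctionFieldFull N) r) =
      constR ℓ r := by
  have h1 : algebraMap ℚ (modularFunctionFieldFull N) (r : ℚ) =
      (((r : ℚ) : ℚ) : modularFunctionFieldFull N) := eq_ratCast _ _
  have h2 : (HahnSeries.C : ℚ →+* LaurentSeries ℚ) (r : ℚ) = (((r : ℚ) : ℚ) : LaurentSeries ℚ) :=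
    eq_ratCast _ _
  show kerVal N (algebraMap ℚ (modularFunctionFieldFull N) (r : ℚ)) = HahnSeries.C (r : ℚ)
  rw [h1, h2, map_ratCast]

theorem mem_chartAlg_singleton_iff (g : modularFunctionFieldFull N)
    (ev : Polynomial (GaloisRep.ratLocalizedAt ℓ) →+* LaurentSeries ℚ)
    (hev : ∀ c, ev c = kerVal N (Polynomial.aeval g c))
    (x : modularFunctionFieldFull N) :
    x ∈ chartAlg N ℓ {g} ↔ ∃ P : Polynomial (Polynomial (GaloisRep.ratLocalizedAt ℓ)),
      P.Monic ∧ P.eval₂ ev (x : LaurentSeries ℚ) = 0 := by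
  rw [mem_chartAlg_iff]
  let g' : Algebra.adjoin (GaloisRep.ratLocalizedAt ℓ) ({g} : Set (modularFunctionFieldFull N)) :=
    ⟨g, Algebra.subset_adjoin rfl⟩
  let f : Polynomial (GaloisRep.ratLocalizedAt ℓ) →+*
      Algebra.adjoin (GaloisRep.ratLocalizedAt ℓ) ({g} : Set (modularFunctionFieldFull N)) :=
    (Polynomial.aeval g').toRingHom
  have hfval : ∀ c, ((f c : Algebra.adjoin (GaloisRep.ratLocalizedAt ℓ)
      ({g} : Set (modularFunctionFieldFull N))) : modularFunctionFieldFull N) =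
      Polynomial.aeval g c := fun c => Polynomial.aeval_subalgebra_coe c _ g'
  have hf : Function.Surjective f := by
    rintro ⟨y, hy⟩
    rw [Algebra.adjoin_singleton_eq_range_aeval] at hy
    obtain ⟨c, hc⟩ := hy
    exact ⟨c, Subtype.ext ((hfval c).trans hc)⟩
  have hcomp : ev = (kerVal N).comp ((algebraMap (Algebra.adjoin (GaloisRep.ratLocalizedAt ℓ)
      ({g} : Set (modularFunctionFieldFull N))) (modularFunctionFieldFull N)).comp f) := by
    refine RingHom.ext (fun c => ?_)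
    rw [hev]
    show _ = kerVal N ((f c : Algebra.adjoin (GaloisRep.ratLocalizedAt ℓ)
      ({g} : Set (modularFunctionFieldFull N))) : modularFunctionFieldFull N)
    rw [hfval]
  constructor
  · rintro ⟨Q, hQm, hQ⟩
    obtain ⟨P, hP, -, hPm⟩ := Polynomial.lifts_and_natDegree_eq_and_monic (p := Q) (f := f)
      ((Polynomial.mem_lifts Q).mpr (Polynomial.map_surjective f hf Q)) hQm
    refine ⟨P, hPm, ?_⟩
    rw [hcomp, ← RingHom.comp_assoc, ← Polynomial.eval₂_map, hP, ← kerVal_apply,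
      ← Polynomial.hom_eval₂, hQ, map_zero]
  · rintro ⟨P, hPm, hP⟩
    refine ⟨P.map f, hPm.map f, ?_⟩
    apply kerVal_injective N
    rw [map_zero, Polynomial.hom_eval₂, Polynomial.eval₂_map, RingHom.comp_assoc, ← hcomp]
    exact hP

theorem evJ_eq_kerVal_aeval (c : Polynomial (GaloisRep.ratLocalizedAt ℓ)) :
    evJ ℓ c = kerVal N (Polynomial.aeval (jFull N) c) := by
  have h : evJ ℓ = (kerVal N).comp (Polynomial.aeval (jFull N) :
      Polynomial (GaloisRep.ratLocalizedAt ℓ) →ₐ[GaloisRep.ratLocalizedAt ℓ]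
        modularFunctionFieldFull N).toRingHom := by
    apply Polynomial.ringHom_ext
    · intro r
      show Polynomial.eval₂ (constR ℓ) jq (Polynomial.C r) =
        kerVal N (Polynomial.aeval (jFull N) (Polynomial.C r))
      rw [Polynomial.eval₂_C, Polynomial.aeval_C, kerVal_algebraMap]
    · show Polynomial.eval₂ (constR ℓ) jq Polynomial.X =
        kerVal N (Polynomial.aeval (jFull N) Polynomial.X)
      rw [Polynomial.eval₂_X, Polynomial.aeval_X]
      rfl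
  exact RingHom.congr_fun h c

theorem evJinv_eq_kerVal_aeval (c : Polynomial (GaloisRep.ratLocalizedAt ℓ)) :
    evJinv ℓ c = kerVal N (Polynomial.aeval (jFull N)⁻¹ c) := by
  have h : evJinv ℓ = (kerVal N).comp (Polynomial.aeval (jFull N)⁻¹ :
      Polynomial (GaloisRep.ratLocalizedAt ℓ) →ₐ[GaloisRep.ratLocalizedAt ℓ]
        modularFunctionFieldFull N).toRingHom := by
    apply Polynomial.ringHom_ext
    · intro r
      show Polynomial.eval₂ (constR ℓ) jq⁻¹ (Polynomial.C r) =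
        kerVal N (Polynomial.aeval (jFull N)⁻¹ (Polynomial.C r))
      rw [Polynomial.eval₂_C, Polynomial.aeval_C, kerVal_algebraMap]
    · show Polynomial.eval₂ (constR ℓ) jq⁻¹ Polynomial.X =
        kerVal N (Polynomial.aeval (jFull N)⁻¹ Polynomial.X)
      rw [Polynomial.eval₂_X, Polynomial.aeval_X]
      rfl
  exact RingHom.congr_fun h c

/-- Membership in the finite chart, in terms of explicit monic polynomials over `ℤ_(ℓ)[j]`. -/
theorem mem_chartAlgFin_iff (x : modularFunctionFieldFull N) :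
    x ∈ chartAlgFin N ℓ ↔ ∃ P : Polynomial (Polynomial (GaloisRep.ratLocalizedAt ℓ)),
      P.Monic ∧ P.eval₂ (evJ ℓ) (x : LaurentSeries ℚ) = 0 :=
  mem_chartAlg_singleton_iff N ℓ (jFull N) (evJ ℓ) (evJ_eq_kerVal_aeval N ℓ) x

/-- Membership in the chart at infinity, in terms of monic polynomials over `ℤ_(ℓ)[1/j]`. -/
theorem mem_chartAlgInf_iff (x : modularFunctionFieldFull N) :
    x ∈ chartAlgInf N ℓ ↔ ∃ P : Polynomial (Polynomial (GaloisRep.ratLocalizedAt ℓ)),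
      P.Monic ∧ P.eval₂ (evJinv ℓ) (x : LaurentSeries ℚ) = 0 :=
  mem_chartAlg_singleton_iff N ℓ (jFull N)⁻¹ (evJinv ℓ) (evJinv_eq_kerVal_aeval N ℓ) x

variable {N ℓ}

/-! ### The core ring `B` -/

theorem eval₂_mem_subring {A S : Type*} [CommRing A] [CommRing S] (B : Subring S) (f : A →+* S)
    (hf : ∀ a, f a ∈ B) (x : S) (hx : x ∈ B) (P : Polynomial A) : P.eval₂ f x ∈ B := by
  rw [Polynomial.eval₂_eq_sum_range]
  exact sum_mem (fun i _ => mul_mem (hf _) (pow_mem hx i))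

theorem CoreData.jq_mem {B : Subring (LaurentSeries ℚ)} (hB : CoreData N ℓ B) : jq ∈ B := by
  have h := hB.gen_mem 1 (one_dvd N)
  rwa [qExpand_one_apply] at h

theorem CoreData.evJ_mem {B : Subring (LaurentSeries ℚ)} (hB : CoreData N ℓ B)
    (c : Polynomial (GaloisRep.ratLocalizedAt ℓ)) : evJ ℓ c ∈ B :=
  eval₂_mem_subring B (constR ℓ) hB.const_mem jq hB.jq_mem c

theorem CoreData.eval₂_evJ_mem {B : Subring (LaurentSeries ℚ)} (hB : CoreData N ℓ B)
    (P : Polynomial (Polynomial (GaloisRep.ratLocalizedAt ℓ))) {a : LaurentSeries ℚ} (ha : a ∈ B) :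
    P.eval₂ (evJ ℓ) a ∈ B :=
  eval₂_mem_subring B (evJ ℓ) hB.evJ_mem a ha P

/-- A nonzero element of a field which is a root of a monic polynomial over `D` is a root of a
monic polynomial with nonzero constant term. -/
theorem exists_monic_coeff_zero_ne {D L : Type*} [CommRing D] [Field L] (ev : D →+* L)
    (a : L) (ha : a ≠ 0) (P : Polynomial D) (hP : P.Monic) (hroot : P.eval₂ ev a = 0) :
    ∃ Q : Polynomial D, Q.Monic ∧ Q.coeff 0 ≠ 0 ∧ Q.eval₂ ev a = 0 := by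
  classical
  have hD : Nontrivial D := ev.domain_nontrivial
  obtain ⟨Q, hQ, hdvd⟩ := Polynomial.exists_eq_pow_rootMultiplicity_mul_and_not_dvd P hP.ne_zero 0
  rw [map_zero, sub_zero] at hQ hdvd
  have hQm : Q.Monic := by
    have h1 : (Polynomial.X ^ P.rootMultiplicity 0 * Q).Monic := hQ ▸ hP
    exact (Polynomial.monic_X_pow _).of_mul_monic_left h1
  refine ⟨Q, hQm, fun h => hdvd (Polynomial.X_dvd_iff.mpr h), ?_⟩
  rw [hQ, Polynomial.eval₂_mul, Polynomial.eval₂_pow, Polynomial.eval₂_X] at hroot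
  rcases mul_eq_zero.mp hroot with h | h
  · exact absurd h (pow_ne_zero _ ha)
  · exact h

/-- Every element of the function field is `a / c` with `a ∈ B` and `0 ≠ c ∈ ℤ_(ℓ)[j]`. -/
theorem exists_mul_mem_of_mem_full {B : Subring (LaurentSeries ℚ)} (hB : CoreData N ℓ B)
    (f : LaurentSeries ℚ) (hf : f ∈ modularFunctionFieldFull N) :
    ∃ c : Polynomial (GaloisRep.ratLocalizedAt ℓ), c ≠ 0 ∧ evJ ℓ c * f ∈ B := by
  unfold modularFunctionFieldFull at hf
  induction hf using IntermediateField.adjoin_induction with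
  | mem x hx =>
    obtain ⟨d, hd, hdN, rfl⟩ := hx
    exact ⟨1, one_ne_zero, by rw [map_one, one_mul]; exact hB.gen_mem d hdN⟩
  | algebraMap a =>
    have hℓ : ℓ.Prime := Fact.out
    refine ⟨Polynomial.C ((a.den : ℕ) : GaloisRep.ratLocalizedAt ℓ), ?_, ?_⟩
    · rw [Ne, Polynomial.C_eq_zero]
      intro h
      have h2 := congrArg Subtype.val h
      simp only [Subring.coe_natCast, ZeroMemClass.coe_zero, Nat.cast_eq_zero] at h2
      exact a.den_ne_zero h2
    · have h1 : evJ ℓ (Polynomial.C ((a.den : ℕ) : GaloisRep.ratLocalizedAt ℓ)) *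
          algebraMap ℚ (LaurentSeries ℚ) a =
          constR ℓ ((a.num : ℤ) : GaloisRep.ratLocalizedAt ℓ) := by
        have h2 : algebraMap ℚ (LaurentSeries ℚ) a = (HahnSeries.C : ℚ →+* LaurentSeries ℚ) a :=
          RingHom.congr_fun (RingHom.ext_rat _ _) a
        have h3 : evJ ℓ (Polynomial.C ((a.den : ℕ) : GaloisRep.ratLocalizedAt ℓ)) =
            constR ℓ ((a.den : ℕ) : GaloisRep.ratLocalizedAt ℓ) := Polynomial.eval₂_C _ _
        rw [h2, h3]
        show (HahnSeries.C : ℚ →+* LaurentSeries ℚ) _ * (HahnSeries.C : ℚ →+* LaurentSeries ℚ) a =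
          (HahnSeries.C : ℚ →+* LaurentSeries ℚ) _
        rw [← map_mul]
        congr 1
        push_cast
        rw [mul_comm]
        exact Rat.mul_den_eq_num a
      rw [h1]
      exact hB.const_mem _
  | add x y _ _ hx hy =>
    obtain ⟨c₁, h₁, m₁⟩ := hx
    obtain ⟨c₂, h₂, m₂⟩ := hy
    refine ⟨c₁ * c₂, mul_ne_zero h₁ h₂, ?_⟩
    have h : evJ ℓ (c₁ * c₂) * (x + y) =
        evJ ℓ c₂ * (evJ ℓ c₁ * x) + evJ ℓ c₁ * (evJ ℓ c₂ * y) := by
      rw [map_mul]; ring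
    rw [h]
    exact add_mem (mul_mem (hB.evJ_mem c₂) m₁) (mul_mem (hB.evJ_mem c₁) m₂)
  | inv x _ hx =>
    obtain ⟨c, hc, m⟩ := hx
    by_cases hx0 : x = 0
    · exact ⟨1, one_ne_zero, by rw [hx0, inv_zero, mul_zero]; exact zero_mem _⟩
    · have hc0 : evJ ℓ c ≠ 0 := (map_ne_zero_iff _ (evJ_injective ℓ)).mpr hc
      have ha0 : evJ ℓ c * x ≠ 0 := mul_ne_zero hc0 hx0
      obtain ⟨P, hPm, hP⟩ := hB.integral _ m
      obtain ⟨Q, hQm, hQ0, hQ⟩ := exists_monic_coeff_zero_ne (evJ ℓ) _ ha0 P hPm hP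
      refine ⟨Q.coeff 0, hQ0, ?_⟩
      have hdiv := Polynomial.divX_mul_X_add Q
      have h1 : Q.divX.eval₂ (evJ ℓ) (evJ ℓ c * x) * (evJ ℓ c * x) + evJ ℓ (Q.coeff 0) = 0 := by
        rw [← hQ]
        conv_rhs => rw [← hdiv]
        rw [Polynomial.eval₂_add, Polynomial.eval₂_mul, Polynomial.eval₂_X, Polynomial.eval₂_C]
      have h2 : evJ ℓ (Q.coeff 0) * x⁻¹ =
          -(Q.divX.eval₂ (evJ ℓ) (evJ ℓ c * x)) * evJ ℓ c := by
        have h3 : evJ ℓ (Q.coeff 0) = -(Q.divX.eval₂ (evJ ℓ) (evJ ℓ c * x) * (evJ ℓ c * x)) :=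
          eq_neg_of_add_eq_zero_right h1
        rw [h3]
        field_simp
      rw [h2]
      exact mul_mem (neg_mem (hB.eval₂_evJ_mem _ m)) (hB.evJ_mem c)
  | mul x y _ _ hx hy =>
    obtain ⟨c₁, h₁, m₁⟩ := hx
    obtain ⟨c₂, h₂, m₂⟩ := hy
    refine ⟨c₁ * c₂, mul_ne_zero h₁ h₂, ?_⟩
    have h : evJ ℓ (c₁ * c₂) * (x * y) = (evJ ℓ c₁ * x) * (evJ ℓ c₂ * y) := by
      rw [map_mul]; ring
    rw [h]
    exact mul_mem m₁ m₂

theorem evJ_C (r : GaloisRep.ratLocalizedAt ℓ) : evJ ℓ (Polynomial.C r) = constR ℓ r :=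
  Polynomial.eval₂_C _ _

theorem evJ_C_ell :
    evJ ℓ (Polynomial.C (ℓ : GaloisRep.ratLocalizedAt ℓ)) = HahnSeries.C (ℓ : ℚ) := by
  rw [evJ_C]
  show HahnSeries.C (((ℓ : GaloisRep.ratLocalizedAt ℓ) : ℚ)) = _
  rw [Subring.coe_natCast]

theorem redL_kerEvJ_C_ell :
    redL ℓ (kerEvJ (GaloisRep.ratLocalizedAt ℓ) (Polynomial.C (ℓ : GaloisRep.ratLocalizedAt ℓ)))
      = 0 := by
  rw [redL_kerEvJ, Polynomial.map_C, map_natCast, ZMod.natCast_self, map_zero, map_zero]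

theorem kerIncL_coeff (s : LaurentSeries (GaloisRep.ratLocalizedAt ℓ)) (n : ℤ) :
    (incL ℓ s).coeff n = ((s.coeff n : GaloisRep.ratLocalizedAt ℓ) : ℚ) := rfl

theorem C_ell_ne_zero : (HahnSeries.C (ℓ : ℚ) : LaurentSeries ℚ) ≠ 0 := by
  have hℓ : ℓ.Prime := Fact.out
  rw [Ne, map_eq_zero]
  exact_mod_cast hℓ.ne_zero

/-- The `q`-expansion principle in `CoreData`, in the form: if `incL y ∈ B` and `redL y = 0`
then `incL y = ℓ z` with `z ∈ B`. -/
theorem CoreData.exists_eq_ell_mul {B : Subring (LaurentSeries ℚ)} (hB : CoreData N ℓ B)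
    (y : LaurentSeries (GaloisRep.ratLocalizedAt ℓ)) (hy : incL ℓ y ∈ B) (hred : redL ℓ y = 0) :
    ∃ z ∈ B, incL ℓ y = HahnSeries.C (ℓ : ℚ) * z := by
  obtain ⟨s', hs'⟩ := (redL_eq_zero_iff ℓ y).mp hred
  refine hB.div _ hy (fun n => ⟨((s'.coeff n : GaloisRep.ratLocalizedAt ℓ) : ℚ), (s'.coeff n).2, ?_⟩)
  rw [kerIncL_coeff, hs', HahnSeries.C_mul_eq_smul, HahnSeries.coeff_smul, smul_eq_mul]
  push_cast
  rfl

/-- If `x` is integral over `ℤ_(ℓ)[j]` and `ℓ x ∈ B`, then `x ∈ B`. -/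
theorem CoreData.mem_of_ell_mul_mem {B : Subring (LaurentSeries ℚ)} (hB : CoreData N ℓ B)
    (x : LaurentSeries ℚ) (hint : (evJ ℓ).IsIntegralElem x)
    (hx : HahnSeries.C (ℓ : ℚ) * x ∈ B) : x ∈ B := by
  obtain ⟨P, hPm, hP⟩ := hint
  obtain ⟨s, hs⟩ := exists_incL_of_coeff_mem ℓ _ (hB.coeff_mem _ hx)
  -- the scaled polynomial
  have hQm : (P.scaleRoots (Polynomial.C (ℓ : GaloisRep.ratLocalizedAt ℓ))).Monic :=
    (Polynomial.monic_scaleRoots_iff _).mpr hPm
  have hQ : (P.scaleRoots (Polynomial.C (ℓ : GaloisRep.ratLocalizedAt ℓ))).eval₂ (evJ ℓ)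
      (incL ℓ s) = 0 := by
    rw [hs, ← evJ_C_ell, Polynomial.scaleRoots_eval₂_mul, hP, mul_zero]
  have hev : evJ ℓ = (incL ℓ).comp (kerEvJ (GaloisRep.ratLocalizedAt ℓ)) :=
    RingHom.ext (fun c => (incL_kerEvJ ℓ c).symm)
  rw [hev, ← Polynomial.hom_eval₂] at hQ
  have hQ' : (P.scaleRoots (Polynomial.C (ℓ : GaloisRep.ratLocalizedAt ℓ))).eval₂
      (kerEvJ (GaloisRep.ratLocalizedAt ℓ)) s = 0 :=
    incL_injective ℓ (by rw [hQ, map_zero])
  have hQ'' := congrArg (redL ℓ) hQ'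
  rw [map_zero, Polynomial.hom_eval₂, Polynomial.eval₂_eq_eval_map] at hQ''
  have hmap : (P.scaleRoots (Polynomial.C (ℓ : GaloisRep.ratLocalizedAt ℓ))).map
      ((redL ℓ).comp (kerEvJ (GaloisRep.ratLocalizedAt ℓ))) = Polynomial.X ^ P.natDegree := by
    ext i
    rw [Polynomial.coeff_map, Polynomial.coeff_scaleRoots, Polynomial.coeff_X_pow, map_mul,
      map_pow, RingHom.comp_apply (redL ℓ) (kerEvJ _) (Polynomial.C _), redL_kerEvJ_C_ell]
    split_ifs with hi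
    · rw [hi, Nat.sub_self, pow_zero, mul_one, hPm.coeff_natDegree, map_one]
    · rcases lt_or_gt_of_ne hi with hlt | hgt
      · rw [zero_pow (by omega), mul_zero]
      · rw [Polynomial.coeff_eq_zero_of_natDegree_lt hgt, map_zero, zero_mul]
  rw [hmap, Polynomial.eval_pow, Polynomial.eval_X] at hQ''
  have hred : redL ℓ s = 0 := IsNilpotent.eq_zero ⟨_, hQ''⟩
  obtain ⟨z, hz, hzeq⟩ := hB.exists_eq_ell_mul s (hs ▸ hx) hred
  rw [hs] at hzeq
  rwa [mul_left_cancel₀ C_ell_ne_zero hzeq]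

/-- Elements of the function field integral over `ℤ_(ℓ)[j]` have a primitive denominator. -/
theorem exists_primitive_mul_mem {B : Subring (LaurentSeries ℚ)} (hB : CoreData N ℓ B)
    (f : LaurentSeries ℚ) (hf : f ∈ modularFunctionFieldFull N)
    (hint : ∃ P : Polynomial (Polynomial (GaloisRep.ratLocalizedAt ℓ)),
      P.Monic ∧ P.eval₂ (evJ ℓ) f = 0) :
    ∃ b : Polynomial (GaloisRep.ratLocalizedAt ℓ),
      ¬ (Polynomial.C (ℓ : GaloisRep.ratLocalizedAt ℓ) ∣ b) ∧ evJ ℓ b * f ∈ B := by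
  obtain ⟨c, hc, hm⟩ := exists_mul_mem_of_mem_full hB f hf
  have hnu : ¬ IsUnit (Polynomial.C (ℓ : GaloisRep.ratLocalizedAt ℓ)) :=
    (Polynomial.prime_C_iff.mpr (prime_ell_ratLocalizedAt ℓ)).not_isUnit
  obtain ⟨k, b, hb, rfl⟩ := WfDvdMonoid.max_power_factor' hc hnu
  refine ⟨b, hb, ?_⟩
  clear hc
  induction k with
  | zero => simpa using hm
  | succ k ih =>
    apply ih
    apply hB.mem_of_ell_mul_mem
    · exact RingHom.IsIntegralElem.mul (evJ ℓ) (evJ ℓ).isIntegralElem_map hint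
    · have h : HahnSeries.C (ℓ : ℚ) *
          (evJ ℓ (Polynomial.C (ℓ : GaloisRep.ratLocalizedAt ℓ) ^ k * b) * f) =
          evJ ℓ (Polynomial.C (ℓ : GaloisRep.ratLocalizedAt ℓ) ^ (k + 1) * b) * f := by
        rw [← evJ_C_ell, pow_succ, map_mul, map_mul, map_mul]
        ring
      rw [h]
      exact hm

/-! ### The charts inside `W` and the reduction maps -/

theorem redL_kerEvJ_ne_zero {b : Polynomial (GaloisRep.ratLocalizedAt ℓ)}
    (hb : ¬ (Polynomial.C (ℓ : GaloisRep.ratLocalizedAt ℓ) ∣ b)) :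
    redL ℓ (kerEvJ (GaloisRep.ratLocalizedAt ℓ) b) ≠ 0 := by
  rw [redL_kerEvJ]
  intro h
  have h0 : b.map (redR ℓ) = 0 := kerEvJ_injective (ZMod ℓ) (h.trans (map_zero _).symm)
  apply hb
  rw [Polynomial.C_dvd_iff_dvd_coeff]
  intro i
  have hi : redR ℓ (b.coeff i) = 0 := by
    rw [← Polynomial.coeff_map, h0, Polynomial.coeff_zero]
  obtain ⟨r', hr'⟩ := (redR_eq_zero_iff ℓ _).mp hi
  exact ⟨r', hr'⟩

variable (ℓ) in
theorem jq_inv_mem_Wring : (jq⁻¹ : LaurentSeries ℚ) ∈ Wring ℓ := by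
  rw [mem_Wring_iff]
  refine ⟨jqModC (GaloisRep.ratLocalizedAt ℓ), 1, ?_, ?_⟩
  · rw [redL, coeffMap_jqModC]
    exact jqModC_ne_zero_of_nontrivial _
  · rw [incL, coeffMap_jqModC, map_one]
    exact mul_inv_cancel₀ jq_ne_zero

theorem CoreData.mem_Wring_of_isIntegralElem {B : Subring (LaurentSeries ℚ)}
    (hB : CoreData N ℓ B) (f : LaurentSeries ℚ) (hf : f ∈ modularFunctionFieldFull N)
    (hint : (evJ ℓ).IsIntegralElem f) : f ∈ Wring ℓ := by
  obtain ⟨b, hb, hm⟩ := exists_primitive_mul_mem hB f hf hint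
  obtain ⟨y, hy⟩ := exists_incL_of_coeff_mem ℓ _ (hB.coeff_mem _ hm)
  rw [mem_Wring_iff]
  exact ⟨kerEvJ (GaloisRep.ratLocalizedAt ℓ) b, y, redL_kerEvJ_ne_zero hb, by
    rw [incL_kerEvJ, hy]⟩

variable (N ℓ) in
theorem exists_pow_mul_mem_fin (x : modularFunctionFieldFull N) (hx : x ∈ chartAlgMid N ℓ) :
    ∃ n : ℕ, jFull N ^ n * x ∈ chartAlgFin N ℓ := by
  have hz : x ∈ chartAlg N ℓ (insert (jFull N)⁻¹ {jFull N}) := by
    rw [show insert (jFull N)⁻¹ ({jFull N} : Set (modularFunctionFieldFull N)) =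
      {jFull N, (jFull N)⁻¹} from Set.pair_comm _ _]
    exact hx
  exact exists_pow_mul_mem_chartAlg (Set.mem_singleton _) (jFull_ne_zero N) hz

variable (N ℓ) in
theorem exists_pow_mul_mem_inf (x : modularFunctionFieldFull N) (hx : x ∈ chartAlgMid N ℓ) :
    ∃ n : ℕ, (jFull N)⁻¹ ^ n * x ∈ chartAlgInf N ℓ := by
  have hz : x ∈ chartAlg N ℓ (insert (jFull N)⁻¹⁻¹ {(jFull N)⁻¹}) := by
    rw [inv_inv]; exact hx
  exact exists_pow_mul_mem_chartAlg (Set.mem_singleton _) (inv_ne_zero (jFull_ne_zero N)) hz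

theorem CoreData.coe_mem_Wring_of_mem_chartAlgFin {B : Subring (LaurentSeries ℚ)}
    (hB : CoreData N ℓ B) (x : modularFunctionFieldFull N) (hx : x ∈ chartAlgFin N ℓ) :
    (x : LaurentSeries ℚ) ∈ Wring ℓ :=
  hB.mem_Wring_of_isIntegralElem _ x.2 ((mem_chartAlgFin_iff N ℓ x).mp hx)

theorem CoreData.coe_mem_Wring_of_mem_chartAlgMid {B : Subring (LaurentSeries ℚ)}
    (hB : CoreData N ℓ B) (x : modularFunctionFieldFull N) (hx : x ∈ chartAlgMid N ℓ) :
    (x : LaurentSeries ℚ) ∈ Wring ℓ := by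
  obtain ⟨n, hn⟩ := exists_pow_mul_mem_fin N ℓ x hx
  have h1 := hB.coe_mem_Wring_of_mem_chartAlgFin _ hn
  have h2 : (x : LaurentSeries ℚ) = jq⁻¹ ^ n * kerVal N (jFull N ^ n * x) := by
    rw [map_mul, map_pow]
    show (x : LaurentSeries ℚ) = jq⁻¹ ^ n * (jq ^ n * (x : LaurentSeries ℚ))
    rw [← mul_assoc, ← mul_pow, inv_mul_cancel₀ jq_ne_zero, one_pow, one_mul]
  rw [h2]
  exact mul_mem (pow_mem (jq_inv_mem_Wring ℓ) n) h1

/-- The reduction map on a chart contained in the middle chart. -/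
def redChart {B : Subring (LaurentSeries ℚ)} (hB : CoreData N ℓ B)
    (A : Subalgebra (GaloisRep.ratLocalizedAt ℓ) (modularFunctionFieldFull N))
    (hA : A ≤ chartAlgMid N ℓ) : A →+* LaurentSeries (ZMod ℓ) :=
  (redW ℓ).comp (RingHom.codRestrict ((kerVal N).comp A.val.toRingHom) (Wring ℓ)
    (fun x => hB.coe_mem_Wring_of_mem_chartAlgMid _ (hA x.2)))

theorem redChart_apply {B : Subring (LaurentSeries ℚ)} (hB : CoreData N ℓ B)
    (A : Subalgebra (GaloisRep.ratLocalizedAt ℓ) (modularFunctionFieldFull N))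
    (hA : A ≤ chartAlgMid N ℓ) (x : A) :
    redChart hB A hA x = redW ℓ ⟨((x : modularFunctionFieldFull N) : LaurentSeries ℚ),
      hB.coe_mem_Wring_of_mem_chartAlgMid _ (hA x.2)⟩ := rfl

theorem redChart_algebraMap {B : Subring (LaurentSeries ℚ)} (hB : CoreData N ℓ B)
    (A : Subalgebra (GaloisRep.ratLocalizedAt ℓ) (modularFunctionFieldFull N))
    (hA : A ≤ chartAlgMid N ℓ) (r : GaloisRep.ratLocalizedAt ℓ) :
    redChart hB A hA (algebraMap (GaloisRep.ratLocalizedAt ℓ) A r) = HahnSeries.C (redR ℓ r) := by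
  rw [redChart_apply]
  have h := redW_spec ℓ ⟨_, hB.coe_mem_Wring_of_mem_chartAlgMid _
    (hA (algebraMap (GaloisRep.ratLocalizedAt ℓ) A r).2)⟩ 1 (HahnSeries.C r) (by
      rw [map_one, one_mul, incL_C]
      exact kerVal_algebraMap N ℓ r)
  rwa [map_one, one_mul, redL_C] at h

variable (ℓ) in
/-- Integrality over `ℤ_(ℓ)[X]` (acting through an injective `ev`) can be tested after
multiplying by `ℓ` and by a polynomial prime to `ℓ`. -/
theorem isIntegralElem_of_ell_mul_of_mul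
    (ev : Polynomial (GaloisRep.ratLocalizedAt ℓ) →+* LaurentSeries ℚ)
    (hev : Function.Injective ev) (b : Polynomial (GaloisRep.ratLocalizedAt ℓ))
    (hb : ¬ (Polynomial.C (ℓ : GaloisRep.ratLocalizedAt ℓ) ∣ b)) (x : LaurentSeries ℚ)
    (h1 : ev.IsIntegralElem (ev (Polynomial.C (ℓ : GaloisRep.ratLocalizedAt ℓ)) * x))
    (h2 : ev.IsIntegralElem (ev b * x)) : ev.IsIntegralElem x := by
  let _ : Algebra (Polynomial (GaloisRep.ratLocalizedAt ℓ)) (LaurentSeries ℚ) := ev.toAlgebra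
  have : FaithfulSMul (Polynomial (GaloisRep.ratLocalizedAt ℓ)) (LaurentSeries ℚ) :=
    (faithfulSMul_iff_algebraMap_injective _ _).mpr hev
  exact isIntegral_of_prime_mul_of_mul (Polynomial.C (ℓ : GaloisRep.ratLocalizedAt ℓ)) b
    (Polynomial.prime_C_iff.mpr (prime_ell_ratLocalizedAt ℓ)) hb x h1 h2

variable (N ℓ) in
theorem kerVal_natCast_ell :
    kerVal N ((ℓ : ℕ) : modularFunctionFieldFull N) = HahnSeries.C (ℓ : ℚ) := by
  rw [map_natCast, map_natCast]

variable (N ℓ) in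
theorem natCast_ell_ne_zero_full : ((ℓ : ℕ) : modularFunctionFieldFull N) ≠ 0 := by
  intro h
  have h2 := congrArg (kerVal N) h
  rw [kerVal_natCast_ell, map_zero] at h2
  exact C_ell_ne_zero h2

variable (N ℓ) in
theorem kerVal_ell_inv_mul (x : modularFunctionFieldFull N) :
    kerVal N (((ℓ : ℕ) : modularFunctionFieldFull N)⁻¹ * x) =
      (HahnSeries.C (ℓ : ℚ))⁻¹ * (x : LaurentSeries ℚ) := by
  rw [map_mul, map_inv₀, kerVal_natCast_ell]
  rfl

variable (ℓ) in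
theorem evJinv_C_ell :
    evJinv ℓ (Polynomial.C (ℓ : GaloisRep.ratLocalizedAt ℓ)) = HahnSeries.C (ℓ : ℚ) := by
  have h : evJinv ℓ (Polynomial.C (ℓ : GaloisRep.ratLocalizedAt ℓ)) =
      constR ℓ (ℓ : GaloisRep.ratLocalizedAt ℓ) := Polynomial.eval₂_C _ _
  rw [h]
  show HahnSeries.C (((ℓ : GaloisRep.ratLocalizedAt ℓ) : ℚ)) = _
  rw [Subring.coe_natCast]

variable (ℓ) in
theorem evJinv_X_pow (m : ℕ) :
    evJinv ℓ (Polynomial.X ^ m) = (jq⁻¹ : LaurentSeries ℚ) ^ m := by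
  rw [map_pow]
  congr 1
  exact Polynomial.eval₂_X _ _

variable (ℓ) in
theorem not_C_ell_dvd_X_pow (m : ℕ) :
    ¬ (Polynomial.C (ℓ : GaloisRep.ratLocalizedAt ℓ) ∣
      (Polynomial.X ^ m : Polynomial (GaloisRep.ratLocalizedAt ℓ))) := by
  rw [Polynomial.C_dvd_iff_dvd_coeff]
  intro h
  have h1 := h m
  rw [Polynomial.coeff_X_pow, if_pos rfl] at h1
  exact (prime_ell_ratLocalizedAt ℓ).not_isUnit (isUnit_of_dvd_one h1)

/-- The kernel of the reduction map on the finite chart is `ℓ A_fin`. -/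
theorem CoreData.fin_kernel {B : Subring (LaurentSeries ℚ)} (hB : CoreData N ℓ B)
    (x : modularFunctionFieldFull N) (hx : x ∈ chartAlgFin N ℓ)
    (hW : (x : LaurentSeries ℚ) ∈ Wring ℓ) (hred : redW ℓ ⟨(x : LaurentSeries ℚ), hW⟩ = 0) :
    ((ℓ : ℕ) : modularFunctionFieldFull N)⁻¹ * x ∈ chartAlgFin N ℓ := by
  have hint : (evJ ℓ).IsIntegralElem (x : LaurentSeries ℚ) := (mem_chartAlgFin_iff N ℓ x).mp hx
  obtain ⟨b, hb, hm⟩ := exists_primitive_mul_mem hB _ x.2 hint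
  obtain ⟨y, hy⟩ := exists_incL_of_coeff_mem ℓ _ (hB.coeff_mem _ hm)
  have hspec := redW_spec ℓ ⟨(x : LaurentSeries ℚ), hW⟩
    (kerEvJ (GaloisRep.ratLocalizedAt ℓ) b) y (by rw [incL_kerEvJ, hy])
  rw [hred, mul_zero] at hspec
  obtain ⟨z, hz, hzeq⟩ := hB.exists_eq_ell_mul y (hy ▸ hm) hspec.symm
  rw [hy] at hzeq
  rw [mem_chartAlgFin_iff]
  show (evJ ℓ).IsIntegralElem (kerVal N (((ℓ : ℕ) : modularFunctionFieldFull N)⁻¹ * x))
  rw [kerVal_ell_inv_mul]
  apply isIntegralElem_of_ell_mul_of_mul ℓ (evJ ℓ) (evJ_injective ℓ) b hb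
  · rw [evJ_C_ell, mul_inv_cancel_left₀ C_ell_ne_zero]
    exact hint
  · have h : evJ ℓ b * ((HahnSeries.C (ℓ : ℚ))⁻¹ * (x : LaurentSeries ℚ)) = z := by
      rw [mul_left_comm, hzeq, inv_mul_cancel_left₀ C_ell_ne_zero]
    rw [h]
    exact hB.integral z hz

/-- The kernel of the reduction map on the chart at infinity is `ℓ A_inf`. -/
theorem CoreData.inf_kernel {B : Subring (LaurentSeries ℚ)} (hB : CoreData N ℓ B)
    (x : modularFunctionFieldFull N) (hx : x ∈ chartAlgInf N ℓ)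
    (hW : (x : LaurentSeries ℚ) ∈ Wring ℓ) (hred : redW ℓ ⟨(x : LaurentSeries ℚ), hW⟩ = 0) :
    ((ℓ : ℕ) : modularFunctionFieldFull N)⁻¹ * x ∈ chartAlgInf N ℓ := by
  have hxmid : x ∈ chartAlgMid N ℓ := chartAlg_mono N ℓ (sInf_subset N) hx
  obtain ⟨n, hn⟩ := exists_pow_mul_mem_fin N ℓ x hxmid
  have hWg := hB.coe_mem_Wring_of_mem_chartAlgFin _ hn
  have hjW : (jq : LaurentSeries ℚ) ∈ Wring ℓ :=
    hB.coe_mem_Wring_of_mem_chartAlgFin (jFull N) (jChartFin N ℓ).2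
  have hredg : redW ℓ ⟨((jFull N ^ n * x : modularFunctionFieldFull N) : LaurentSeries ℚ), hWg⟩
      = 0 := by
    have h : (⟨((jFull N ^ n * x : modularFunctionFieldFull N) : LaurentSeries ℚ), hWg⟩ :
        Wring ℓ) = ⟨jq, hjW⟩ ^ n * ⟨(x : LaurentSeries ℚ), hW⟩ := by
      apply Subtype.ext
      show kerVal N (jFull N ^ n * x) = _
      rw [map_mul, map_pow]
      rfl
    rw [h, map_mul, hred, mul_zero]
  have hg' := hB.fin_kernel _ hn hWg hredg
  obtain ⟨E, hE⟩ := exists_pow_mul_mem_inf N ℓ _ (chartAlg_mono N ℓ (sFin_subset N) hg')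
  have hE' := (mem_chartAlgInf_iff N ℓ _).mp hE
  rw [mem_chartAlgInf_iff]
  show (evJinv ℓ).IsIntegralElem (kerVal N (((ℓ : ℕ) : modularFunctionFieldFull N)⁻¹ * x))
  rw [kerVal_ell_inv_mul]
  apply isIntegralElem_of_ell_mul_of_mul ℓ (evJinv ℓ) (evJinv_injective ℓ)
    (Polynomial.X ^ (E + n)) (not_C_ell_dvd_X_pow ℓ _)
  · rw [evJinv_C_ell, mul_inv_cancel_left₀ C_ell_ne_zero]
    exact (mem_chartAlgInf_iff N ℓ x).mp hx
  · have h : evJinv ℓ (Polynomial.X ^ (E + n)) *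
        ((HahnSeries.C (ℓ : ℚ))⁻¹ * (x : LaurentSeries ℚ)) =
        evJinv ℓ (Polynomial.X ^ (2 * n)) * kerVal N ((jFull N)⁻¹ ^ E *
          (((ℓ : ℕ) : modularFunctionFieldFull N)⁻¹ * (jFull N ^ n * x))) := by
      rw [evJinv_X_pow, evJinv_X_pow, map_mul, map_pow, map_inv₀, kerVal_ell_inv_mul]
      show jq⁻¹ ^ (E + n) * ((HahnSeries.C (ℓ : ℚ))⁻¹ * (x : LaurentSeries ℚ)) =
        jq⁻¹ ^ (2 * n) * (jq⁻¹ ^ E * ((HahnSeries.C (ℓ : ℚ))⁻¹ * kerVal N (jFull N ^ n * x)))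
      rw [map_mul, map_pow]
      show jq⁻¹ ^ (E + n) * ((HahnSeries.C (ℓ : ℚ))⁻¹ * (x : LaurentSeries ℚ)) =
        jq⁻¹ ^ (2 * n) * (jq⁻¹ ^ E * ((HahnSeries.C (ℓ : ℚ))⁻¹ *
          (jq ^ n * (x : LaurentSeries ℚ))))
      have hj : jq⁻¹ ^ (2 * n) * jq ^ n = (jq⁻¹ : LaurentSeries ℚ) ^ n := by
        rw [two_mul, pow_add, mul_assoc, ← mul_pow, inv_mul_cancel₀ jq_ne_zero, one_pow, mul_one]
      calc jq⁻¹ ^ (E + n) * ((HahnSeries.C (ℓ : ℚ))⁻¹ * (x : LaurentSeries ℚ))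
          = jq⁻¹ ^ E * ((HahnSeries.C (ℓ : ℚ))⁻¹ * (jq⁻¹ ^ n * (x : LaurentSeries ℚ))) := by
            rw [pow_add]; ring
        _ = jq⁻¹ ^ E * ((HahnSeries.C (ℓ : ℚ))⁻¹ *
              ((jq⁻¹ ^ (2 * n) * jq ^ n) * (x : LaurentSeries ℚ))) := by rw [hj]
        _ = _ := by ring
    rw [h]
    exact RingHom.IsIntegralElem.mul (evJinv ℓ) (evJinv ℓ).isIntegralElem_map hE'

theorem exists_red_fin {B : Subring (LaurentSeries ℚ)} (hB : CoreData N ℓ B) :
    ∃ φ : chartAlgFin N ℓ →+* LaurentSeries (ZMod ℓ),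
      (∀ r : GaloisRep.ratLocalizedAt ℓ,
        φ (algebraMap (GaloisRep.ratLocalizedAt ℓ) (chartAlgFin N ℓ) r) =
          HahnSeries.C (redR ℓ r)) ∧
      ∀ a : chartAlgFin N ℓ, φ a = 0 → ∃ a' : chartAlgFin N ℓ,
        a = algebraMap (GaloisRep.ratLocalizedAt ℓ) (chartAlgFin N ℓ)
          (ℓ : GaloisRep.ratLocalizedAt ℓ) * a' := by
  refine ⟨redChart hB (chartAlgFin N ℓ) (chartAlg_mono N ℓ (sFin_subset N)),
    redChart_algebraMap hB _ _, ?_⟩
  intro a ha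
  rw [redChart_apply] at ha
  refine ⟨⟨((ℓ : ℕ) : modularFunctionFieldFull N)⁻¹ * (a : modularFunctionFieldFull N),
    hB.fin_kernel (a : modularFunctionFieldFull N) a.2 _ ha⟩, ?_⟩
  apply Subtype.ext
  show (a : modularFunctionFieldFull N) =
    ((algebraMap (GaloisRep.ratLocalizedAt ℓ) (chartAlgFin N ℓ)
      (ℓ : GaloisRep.ratLocalizedAt ℓ) : chartAlgFin N ℓ) : modularFunctionFieldFull N) *
      (((ℓ : ℕ) : modularFunctionFieldFull N)⁻¹ * (a : modularFunctionFieldFull N))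
  have h1 : ((algebraMap (GaloisRep.ratLocalizedAt ℓ) (chartAlgFin N ℓ)
      (ℓ : GaloisRep.ratLocalizedAt ℓ) : chartAlgFin N ℓ) : modularFunctionFieldFull N) =
      ((ℓ : ℕ) : modularFunctionFieldFull N) := by
    rw [map_natCast]
    rfl
  rw [h1, mul_inv_cancel_left₀ (natCast_ell_ne_zero_full N ℓ)]

theorem exists_red_inf {B : Subring (LaurentSeries ℚ)} (hB : CoreData N ℓ B) :
    ∃ φ : chartAlgInf N ℓ →+* LaurentSeries (ZMod ℓ),
      (∀ r : GaloisRep.ratLocalizedAt ℓ,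
        φ (algebraMap (GaloisRep.ratLocalizedAt ℓ) (chartAlgInf N ℓ) r) =
          HahnSeries.C (redR ℓ r)) ∧
      ∀ a : chartAlgInf N ℓ, φ a = 0 → ∃ a' : chartAlgInf N ℓ,
        a = algebraMap (GaloisRep.ratLocalizedAt ℓ) (chartAlgInf N ℓ)
          (ℓ : GaloisRep.ratLocalizedAt ℓ) * a' := by
  refine ⟨redChart hB (chartAlgInf N ℓ) (chartAlg_mono N ℓ (sInf_subset N)),
    redChart_algebraMap hB _ _, ?_⟩
  intro a ha
  rw [redChart_apply] at ha
  refine ⟨⟨((ℓ : ℕ) : modularFunctionFieldFull N)⁻¹ * (a : modularFunctionFieldFull N),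
    hB.inf_kernel (a : modularFunctionFieldFull N) a.2 _ ha⟩, ?_⟩
  apply Subtype.ext
  show (a : modularFunctionFieldFull N) =
    ((algebraMap (GaloisRep.ratLocalizedAt ℓ) (chartAlgInf N ℓ)
      (ℓ : GaloisRep.ratLocalizedAt ℓ) : chartAlgInf N ℓ) : modularFunctionFieldFull N) *
      (((ℓ : ℕ) : modularFunctionFieldFull N)⁻¹ * (a : modularFunctionFieldFull N))
  have h1 : ((algebraMap (GaloisRep.ratLocalizedAt ℓ) (chartAlgInf N ℓ)
      (ℓ : GaloisRep.ratLocalizedAt ℓ) : chartAlgInf N ℓ) : modularFunctionFieldFull N) =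
      ((ℓ : ℕ) : modularFunctionFieldFull N) := by
    rw [map_natCast]
    rfl
  rw [h1, mul_inv_cancel_left₀ (natCast_ell_ne_zero_full N ℓ)]

theorem exists_red_mid {B : Subring (LaurentSeries ℚ)} (hB : CoreData N ℓ B) :
    ∃ φ : chartAlgMid N ℓ →+* LaurentSeries (ZMod ℓ),
      ∀ r : GaloisRep.ratLocalizedAt ℓ,
        φ (algebraMap (GaloisRep.ratLocalizedAt ℓ) (chartAlgMid N ℓ) r) =
          HahnSeries.C (redR ℓ r) :=
  ⟨redChart hB (chartAlgMid N ℓ) le_rfl, redChart_algebraMap hB _ _⟩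

end Fermat.Agent.S28
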