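import Fermat.Statements.S28

set_option autoImplicit false
open AlgebraicGeometry CategoryTheory CategoryTheory.Limits ModularCurve ModularCurve.IgusaScheme

namespace Fermat.Agent.S28

/-- A space covered by two irreducible open subsets with nonempty intersection is irreducible. -/
theorem irreducibleSpace_of_two_opens {X : Type*} [TopologicalSpace X] (S₁ S₂ : Set X)
    (h₁ : IsIrreducible S₁) (h₂ : IsIrreducible S₂) (o₁ : IsOpen S₁) (o₂ : IsOpen S₂)
    (hcov : ∀ x, x ∈ S₁ ∨ x ∈ S₂) (hint : (S₁ ∩ S₂).Nonempty) : IrreducibleSpace X := by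
  obtain ⟨z, hz₁, hz₂⟩ := hint
  have key : ∀ u v : Set X, IsOpen u → IsOpen v → u.Nonempty → v.Nonempty → (u ∩ v).Nonempty := by
    -- first: any nonempty open set meets S₁ ∩ S₂
    have meet : ∀ u : Set X, IsOpen u → u.Nonempty → (S₁ ∩ S₂ ∩ u).Nonempty := by
      intro u hu ⟨x, hx⟩
      rcases hcov x with hx₁ | hx₂
      · obtain ⟨w, hw₁, hw₂, hw₃⟩ := h₁.2 u S₂ hu o₂ ⟨x, hx₁, hx⟩ ⟨z, hz₁, hz₂⟩
        exact ⟨w, ⟨hw₁, hw₃⟩, hw₂⟩
      · obtain ⟨w, hw₁, hw₂, hw₃⟩ := h₂.2 u S₁ hu o₁ ⟨x, hx₂, hx⟩ ⟨z, hz₂, hz₁⟩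
        exact ⟨w, ⟨hw₃, hw₁⟩, hw₂⟩
    intro u v hu hv hune hvne
    obtain ⟨x, ⟨hx₁, _⟩, hxu⟩ := meet u hu hune
    obtain ⟨y, ⟨hy₁, _⟩, hyv⟩ := meet v hv hvne
    obtain ⟨w, -, hw⟩ := h₁.2 u v hu hv ⟨x, hx₁, hxu⟩ ⟨y, hy₁, hyv⟩
    exact ⟨w, hw⟩
  refine @IrreducibleSpace.mk X _ ⟨?_⟩ ⟨z⟩
  rintro u v hu hv ⟨x, -, hx⟩ ⟨y, -, hy⟩
  obtain ⟨w, hw⟩ := key u v hu hv ⟨x, hx⟩ ⟨y, hy⟩
  exact ⟨w, Set.mem_univ _, hw⟩

end Fermat.Agent.S28

namespace Fermat.Agent.S28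

noncomputable section

variable (N : ℕ) [NeZero N] (ℓ : ℕ) [Fact ℓ.Prime]

/-- The two-chart open cover of the Igusa scheme. -/
def igusaChartCover : (ModularCurve.IgusaScheme N ℓ).OpenCover :=
  Scheme.Cover.mkOfCovers Bool
    (fun b => match b with
      | true => XFin N ℓ
      | false => XInf N ℓ)
    (fun b => match b with
      | true => ιFin N ℓ
      | false => ιInf N ℓ)
    (by
      intro x
      rcases mem_range_ιFin_or_mem_range_ιInf N ℓ x with ⟨y, hy⟩ | ⟨y, hy⟩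
      · exact ⟨true, y, hy⟩
      · exact ⟨false, y, hy⟩)
    (by
      intro b
      cases b
      · exact isOpenImmersion_ιInf N ℓ
      · exact isOpenImmersion_ιFin N ℓ)


variable (K : Type) [Field K] [Algebra ↥(GaloisRep.ratLocalizedAt ℓ) K]

/-- The `fin` chart of the base change is the spectrum of a tensor product. -/
def chartFinIso :
    pullback (ιFin N ℓ ≫ igusaTo N ℓ)
      (Spec.map (CommRingCat.ofHom (algebraMap ↥(GaloisRep.ratLocalizedAt ℓ) K))) ≅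
    Spec (CommRingCat.of (TensorProduct ↥(GaloisRep.ratLocalizedAt ℓ) (chartAlgFin N ℓ) K)) :=
  pullback.congrHom (ιFin_igusaTo N ℓ) rfl ≪≫
    pullbackSpecIso ↥(GaloisRep.ratLocalizedAt ℓ) (chartAlgFin N ℓ) K

/-- The `inf` chart of the base change is the spectrum of a tensor product. -/
def chartInfIso :
    pullback (ιInf N ℓ ≫ igusaTo N ℓ)
      (Spec.map (CommRingCat.ofHom (algebraMap ↥(GaloisRep.ratLocalizedAt ℓ) K))) ≅
    Spec (CommRingCat.of (TensorProduct ↥(GaloisRep.ratLocalizedAt ℓ) (chartAlgInf N ℓ) K)) :=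
  pullback.congrHom (ιInf_igusaTo N ℓ) rfl ≪≫
    pullbackSpecIso ↥(GaloisRep.ratLocalizedAt ℓ) (chartAlgInf N ℓ) K


theorem fFin_ιFin_igusaTo :
    fFin N ℓ ≫ ιFin N ℓ ≫ igusaTo N ℓ =
      Spec.map (CommRingCat.ofHom (algebraMap ↥(GaloisRep.ratLocalizedAt ℓ) (chartAlgMid N ℓ))) := by
  rw [ιFin_igusaTo, ← Spec.map_comp, ← CommRingCat.ofHom_comp]
  rfl

/-- The `mid` chart of the base change is the spectrum of a tensor product. -/
def chartMidIso :
    pullback (fFin N ℓ ≫ ιFin N ℓ ≫ igusaTo N ℓ)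
      (Spec.map (CommRingCat.ofHom (algebraMap ↥(GaloisRep.ratLocalizedAt ℓ) K))) ≅
    Spec (CommRingCat.of (TensorProduct ↥(GaloisRep.ratLocalizedAt ℓ) (chartAlgMid N ℓ) K)) :=
  pullback.congrHom (fFin_ιFin_igusaTo N ℓ) rfl ≪≫
    pullbackSpecIso ↥(GaloisRep.ratLocalizedAt ℓ) (chartAlgMid N ℓ) K

theorem isIntegral_pullback_of_charts
    (hFin : IsDomain (TensorProduct ↥(GaloisRep.ratLocalizedAt ℓ) (chartAlgFin N ℓ) K))
    (hInf : IsDomain (TensorProduct ↥(GaloisRep.ratLocalizedAt ℓ) (chartAlgInf N ℓ) K))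
    (hMid : Nontrivial (TensorProduct ↥(GaloisRep.ratLocalizedAt ℓ) (chartAlgMid N ℓ) K)) :
    IsIntegral ↑(pullback (igusaTo N ℓ)
      (Spec.map (CommRingCat.ofHom (algebraMap ↥(GaloisRep.ratLocalizedAt ℓ) K)))) := by
  set g := Spec.map (CommRingCat.ofHom (algebraMap ↥(GaloisRep.ratLocalizedAt ℓ) K)) with hg
  let 𝒱 := Scheme.Pullback.openCoverOfLeft (igusaChartCover N ℓ) (igusaTo N ℓ) g
  -- the two charts are integral
  have hne_fin : Nonempty ↥(pullback (ιFin N ℓ ≫ igusaTo N ℓ) g) := by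
    have hnt : Nontrivial (TensorProduct ↥(GaloisRep.ratLocalizedAt ℓ) (chartAlgFin N ℓ) K) :=
      hFin.toNontrivial
    obtain ⟨x⟩ := (PrimeSpectrum.nonempty_iff_nontrivial.mpr hnt)
    exact ⟨(chartFinIso N ℓ K).inv.base x⟩
  have hne_inf : Nonempty ↥(pullback (ιInf N ℓ ≫ igusaTo N ℓ) g) := by
    have hnt : Nontrivial (TensorProduct ↥(GaloisRep.ratLocalizedAt ℓ) (chartAlgInf N ℓ) K) :=
      hInf.toNontrivial
    obtain ⟨x⟩ := (PrimeSpectrum.nonempty_iff_nontrivial.mpr hnt)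
    exact ⟨(chartInfIso N ℓ K).inv.base x⟩
  have int_fin : IsIntegral (pullback (ιFin N ℓ ≫ igusaTo N ℓ) g) :=
    isIntegral_of_isOpenImmersion (chartFinIso N ℓ K).hom
  have int_inf : IsIntegral (pullback (ιInf N ℓ ≫ igusaTo N ℓ) g) :=
    isIntegral_of_isOpenImmersion (chartInfIso N ℓ K).hom
  have hX : ∀ b, IsIntegral (𝒱.X b) := by
    intro b
    cases b
    · exact int_inf
    · exact int_fin
  have : IsReduced (pullback (igusaTo N ℓ) g) := IsReduced.of_openCover _ 𝒱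
  have oi_t : IsOpenImmersion (𝒱.f true) := 𝒱.map_prop true
  have oi_f : IsOpenImmersion (𝒱.f false) := 𝒱.map_prop false
  have irr_t : IrreducibleSpace ↥(𝒱.X true) := @irreducibleSpace_of_isIntegral _ (hX true)
  have irr_f : IrreducibleSpace ↥(𝒱.X false) := @irreducibleSpace_of_isIntegral _ (hX false)
  -- irreducibility
  have : IrreducibleSpace ↥(pullback (igusaTo N ℓ) g) := by
    refine irreducibleSpace_of_two_opens (Set.range (𝒱.f true).base) (Set.range (𝒱.f false).base)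
      ?_ ?_ (𝒱.f true).isOpenEmbedding.isOpen_range (𝒱.f false).isOpenEmbedding.isOpen_range ?_ ?_
    · rw [← Set.image_univ]
      exact (IrreducibleSpace.isIrreducible_univ _).image _ (𝒱.f true).continuous.continuousOn
    · rw [← Set.image_univ]
      exact (IrreducibleSpace.isIrreducible_univ _).image _ (𝒱.f false).continuous.continuousOn
    · intro x
      obtain ⟨b, y, hy⟩ := 𝒱.exists_eq x
      cases b
      · exact Or.inr ⟨y, hy⟩
      · exact Or.inl ⟨y, hy⟩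
    · -- a point of the middle chart
      obtain ⟨x⟩ := (PrimeSpectrum.nonempty_iff_nontrivial.mpr hMid)
      have m : ↥(pullback (fFin N ℓ ≫ ιFin N ℓ ≫ igusaTo N ℓ) g) := (chartMidIso N ℓ K).inv.base x
      let a₁ : pullback (fFin N ℓ ≫ ιFin N ℓ ≫ igusaTo N ℓ) g ⟶ pullback (ιFin N ℓ ≫ igusaTo N ℓ) g :=
        pullback.map _ _ _ _ (fFin N ℓ) (𝟙 _) (𝟙 _) (by simp) (by simp)
      let a₂ : pullback (fFin N ℓ ≫ ιFin N ℓ ≫ igusaTo N ℓ) g ⟶ pullback (ιInf N ℓ ≫ igusaTo N ℓ) g :=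
        pullback.map _ _ _ _ (fInf N ℓ) (𝟙 _) (𝟙 _)
          (by simp only [Category.comp_id]; rw [← Category.assoc, glue_condition, Category.assoc])
          (by simp)
      let b₁ : pullback (ιFin N ℓ ≫ igusaTo N ℓ) g ⟶ pullback (igusaTo N ℓ) g :=
        pullback.map _ _ _ _ (ιFin N ℓ) (𝟙 _) (𝟙 _) (by simp) (by simp)
      let b₂ : pullback (ιInf N ℓ ≫ igusaTo N ℓ) g ⟶ pullback (igusaTo N ℓ) g :=
        pullback.map _ _ _ _ (ιInf N ℓ) (𝟙 _) (𝟙 _) (by simp) (by simp)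
      have h₁ : 𝒱.f true = b₁ := rfl
      have h₂ : 𝒱.f false = b₂ := rfl
      have hcomp : a₁ ≫ 𝒱.f true = a₂ ≫ 𝒱.f false := by
        rw [h₁, h₂]
        apply pullback.hom_ext
        · simp only [a₁, a₂, b₁, b₂, Category.assoc, pullback.lift_fst, pullback.lift_fst_assoc,
            pullback.map]
          rw [glue_condition]
        · simp only [a₁, a₂, b₁, b₂, Category.assoc, pullback.lift_snd, pullback.lift_snd_assoc,
            pullback.map]
      refine ⟨(a₁ ≫ 𝒱.f true).base m, ⟨a₁.base m, ?_⟩, ⟨a₂.base m, ?_⟩⟩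
      · rfl
      · rw [hcomp]; rfl
  exact isIntegral_of_irreducibleSpace_of_isReduced _

end

end Fermat.Agent.S28
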