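import Fermat.Agent.S28.RedR

/-!
# S28 piece A6: from a reduction map with kernel `ℓ A` to integrality of `A ⊗ K`
-/

set_option autoImplicit false

noncomputable section

open scoped TensorProduct
open ModularCurve

namespace Fermat.Agent.S28

variable (ℓ : ℕ) [Fact ℓ.Prime]

/-- The structure map `ℤ_(ℓ) → K` of a field of characteristic `ℓ` factors through `redR`. -/
theorem algebraMap_ratLocalizedAt_eq_cast (K : Type*) [Field K] [CharP K ℓ]
    [Algebra (GaloisRep.ratLocalizedAt ℓ) K] (r : GaloisRep.ratLocalizedAt ℓ) :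
    algebraMap (GaloisRep.ratLocalizedAt ℓ) K r = ZMod.castHom (dvd_refl ℓ) K (redR ℓ r) :=
  RingHom.congr_fun (ringHom_ext_ratLocalizedAt ℓ (algebraMap (GaloisRep.ratLocalizedAt ℓ) K)
    ((ZMod.castHom (dvd_refl ℓ) K).comp (redR ℓ))) r

/-- The structure map of `K((q))` over a ring `R` acting on `K` is given by constants. -/
theorem algebraMap_laurentSeries_eq_C (R K : Type*) [CommRing R] [Field K] [Algebra R K] (r : R) :
    algebraMap R (LaurentSeries K) r = HahnSeries.C (algebraMap R K r) := by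
  show HahnSeries.ofPowerSeries ℤ K (algebraMap R (PowerSeries K) r) = _
  rw [PowerSeries.algebraMap_apply, HahnSeries.ofPowerSeries_C]

/-- The comparison map `A ⊗_{ℤ_(ℓ)} K → K((q))`, `a ⊗ c ↦ c • (φ a)^K`. -/
def tensorToLaurent {A : Type} [CommRing A] [Algebra (GaloisRep.ratLocalizedAt ℓ) A]
    (K : Type) [Field K] [CharP K ℓ] [Algebra (GaloisRep.ratLocalizedAt ℓ) K]
    (φ : A →+* LaurentSeries (ZMod ℓ))
    (hφ : ∀ r : GaloisRep.ratLocalizedAt ℓ,
      φ (algebraMap (GaloisRep.ratLocalizedAt ℓ) A r) = HahnSeries.C (redR ℓ r)) :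
    A ⊗[GaloisRep.ratLocalizedAt ℓ] K →ₐ[GaloisRep.ratLocalizedAt ℓ] LaurentSeries K :=
  Algebra.TensorProduct.productMap
    ({ toRingHom := (coeffMap (ZMod.castHom (dvd_refl ℓ) K)).comp φ
       commutes' := fun r => by
         show coeffMap (ZMod.castHom (dvd_refl ℓ) K) (φ (algebraMap _ A r)) = _
         rw [hφ, algebraMap_laurentSeries_eq_C, algebraMap_ratLocalizedAt_eq_cast]
         exact coeffMap_single _ _ _ } :
      A →ₐ[GaloisRep.ratLocalizedAt ℓ] LaurentSeries K)
    ({ toRingHom := (HahnSeries.C : K →+* LaurentSeries K)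
       commutes' := fun r => by
         exact (algebraMap_laurentSeries_eq_C _ K r).symm } :
      K →ₐ[GaloisRep.ratLocalizedAt ℓ] LaurentSeries K)

theorem tensorToLaurent_tmul {A : Type} [CommRing A] [Algebra (GaloisRep.ratLocalizedAt ℓ) A]
    (K : Type) [Field K] [CharP K ℓ] [Algebra (GaloisRep.ratLocalizedAt ℓ) K]
    (φ : A →+* LaurentSeries (ZMod ℓ))
    (hφ : ∀ r : GaloisRep.ratLocalizedAt ℓ,
      φ (algebraMap (GaloisRep.ratLocalizedAt ℓ) A r) = HahnSeries.C (redR ℓ r))
    (a : A) (c : K) :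
    tensorToLaurent ℓ K φ hφ (a ⊗ₜ c) =
      coeffMap (ZMod.castHom (dvd_refl ℓ) K) (φ a) * HahnSeries.C c := by
  rw [tensorToLaurent, Algebra.TensorProduct.productMap_apply_tmul]
  rfl

theorem tensorToLaurent_injective {A : Type} [CommRing A] [Algebra (GaloisRep.ratLocalizedAt ℓ) A]
    (K : Type) [Field K] [CharP K ℓ] [Algebra (GaloisRep.ratLocalizedAt ℓ) K]
    (φ : A →+* LaurentSeries (ZMod ℓ))
    (hφ : ∀ r : GaloisRep.ratLocalizedAt ℓ,
      φ (algebraMap (GaloisRep.ratLocalizedAt ℓ) A r) = HahnSeries.C (redR ℓ r))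
    (hker : ∀ a : A, φ a = 0 →
      ∃ a' : A, a = algebraMap (GaloisRep.ratLocalizedAt ℓ) A (ℓ : GaloisRep.ratLocalizedAt ℓ) * a') :
    Function.Injective (tensorToLaurent ℓ K φ hφ) := by
  classical
  let _ : Algebra (ZMod ℓ) K := ZMod.algebra K ℓ
  -- a basis of `K` over `𝔽_ℓ`
  let e := Module.Free.chooseBasis (ZMod ℓ) K
  -- compatibility of the two scalar actions on `K`
  have hsmul : ∀ (r : GaloisRep.ratLocalizedAt ℓ) (c : K), (redR ℓ r) • c = r • c := by
    intro r c
    rw [Algebra.smul_def, Algebra.smul_def, algebraMap_ratLocalizedAt_eq_cast]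
    rfl
  -- the parametrisation of `A ⊗ K` by finitely supported families
  let Φ : (Module.Free.ChooseBasisIndex (ZMod ℓ) K →₀ A) →ₗ[GaloisRep.ratLocalizedAt ℓ]
      A ⊗[GaloisRep.ratLocalizedAt ℓ] K :=
    Finsupp.lsum (GaloisRep.ratLocalizedAt ℓ)
      (fun i => (TensorProduct.mk (GaloisRep.ratLocalizedAt ℓ) A K).flip (e i))
  have hΦ : ∀ b, Φ b = ∑ i ∈ b.support, (b i) ⊗ₜ[GaloisRep.ratLocalizedAt ℓ] (e i) := by
    intro b
    simp only [Φ, Finsupp.coe_lsum, Finsupp.sum, LinearMap.flip_apply, TensorProduct.mk_apply]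
  have hsurj : ∀ x : A ⊗[GaloisRep.ratLocalizedAt ℓ] K, ∃ b, Φ b = x := by
    intro x
    have hx : x ∈ LinearMap.range Φ := by
      have htop : (⊤ : Submodule (GaloisRep.ratLocalizedAt ℓ) (A ⊗[GaloisRep.ratLocalizedAt ℓ] K))
          ≤ LinearMap.range Φ := by
        rw [← TensorProduct.span_tmul_eq_top, Submodule.span_le]
        rintro _ ⟨a, c, rfl⟩
        have hc : c = ∑ i ∈ (e.repr c).support, (e.repr c i) • e i := by
          conv_lhs => rw [← e.linearCombination_repr c, Finsupp.linearCombination_apply]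
          rfl
        rw [hc, TensorProduct.tmul_sum]
        refine Submodule.sum_mem _ (fun i _ => ?_)
        obtain ⟨r, hr⟩ := redR_surjective ℓ (e.repr c i)
        rw [← hr, hsmul, ← TensorProduct.smul_tmul]
        refine ⟨Finsupp.single i (r • a), ?_⟩
        simp only [Φ, Finsupp.lsum_single, LinearMap.flip_apply, TensorProduct.mk_apply]
      exact htop Submodule.mem_top
    exact hx
  rw [injective_iff_map_eq_zero]
  intro x hx
  obtain ⟨b, rfl⟩ := hsurj x
  rw [hΦ] at hx ⊢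
  rw [map_sum] at hx
  have hcoeff : ∀ n : ℤ, ∑ i ∈ b.support, ((φ (b i)).coeff n) • e i = 0 := by
    intro n
    have h1 := congrArg (fun s : LaurentSeries K => s.coeff n) hx
    simp only [HahnSeries.coeff_zero] at h1
    rw [← h1, HahnSeries.coeff_sum]
    refine Finset.sum_congr rfl (fun i _ => ?_)
    rw [tensorToLaurent_tmul, mul_comm, HahnSeries.C_mul_eq_smul, HahnSeries.coeff_smul,
      coeffMap_coeff, Algebra.smul_def, smul_eq_mul, mul_comm]
    rfl
  have hli := e.linearIndependent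
  rw [linearIndependent_iff'] at hli
  refine Finset.sum_eq_zero (fun i hi => ?_)
  have hφi : φ (b i) = 0 := by
    ext n
    rw [HahnSeries.coeff_zero]
    exact hli b.support (fun i => (φ (b i)).coeff n) (hcoeff n) i hi
  obtain ⟨a', ha'⟩ := hker (b i) hφi
  rw [ha', ← Algebra.smul_def, TensorProduct.smul_tmul]
  have h0 : (ℓ : GaloisRep.ratLocalizedAt ℓ) • e i = 0 := by
    rw [Algebra.smul_def, map_natCast, CharP.cast_eq_zero, zero_mul]
  rw [h0, TensorProduct.tmul_zero]

/-- If `φ : A → 𝔽_ℓ((q))` is a ring hom compatible with the residue map of `ℤ_(ℓ)` whose kernel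
is `ℓ A`, then `A ⊗_{ℤ_(ℓ)} K` is a domain for every field `K` of characteristic `ℓ`.
(Proof idea: `a ⊗ k ↦ k • (φ a)^K` is an injective ring hom into `K((q))`; use a basis of `K`
over `𝔽_ℓ` and the surjectivity of `redR`.) -/
theorem isDomain_tensor_of_kernel {A : Type} [CommRing A] [Algebra (GaloisRep.ratLocalizedAt ℓ) A]
    (K : Type) [Field K] [CharP K ℓ] [Algebra (GaloisRep.ratLocalizedAt ℓ) K]
    (φ : A →+* LaurentSeries (ZMod ℓ))
    (hφ : ∀ r : GaloisRep.ratLocalizedAt ℓ,
      φ (algebraMap (GaloisRep.ratLocalizedAt ℓ) A r) = HahnSeries.C (redR ℓ r))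
    (hker : ∀ a : A, φ a = 0 →
      ∃ a' : A, a = algebraMap (GaloisRep.ratLocalizedAt ℓ) A (ℓ : GaloisRep.ratLocalizedAt ℓ) * a') :
    IsDomain (TensorProduct (GaloisRep.ratLocalizedAt ℓ) A K) :=
  Function.Injective.isDomain (tensorToLaurent ℓ K φ hφ).toRingHom
    (tensorToLaurent_injective ℓ K φ hφ hker)

/-- Existence of a compatible reduction map already gives nontriviality of `A ⊗ K`. -/
theorem nontrivial_tensor_of_hom {A : Type} [CommRing A] [Algebra (GaloisRep.ratLocalizedAt ℓ) A]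
    (K : Type) [Field K] [CharP K ℓ] [Algebra (GaloisRep.ratLocalizedAt ℓ) K]
    (φ : A →+* LaurentSeries (ZMod ℓ))
    (hφ : ∀ r : GaloisRep.ratLocalizedAt ℓ,
      φ (algebraMap (GaloisRep.ratLocalizedAt ℓ) A r) = HahnSeries.C (redR ℓ r)) :
    Nontrivial (TensorProduct (GaloisRep.ratLocalizedAt ℓ) A K) :=
  (tensorToLaurent ℓ K φ hφ).toRingHom.domain_nontrivial

end Fermat.Agent.S28
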