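import Mathlib

/-!
# S28 piece P9: an arithmetic lemma on sums of squares of gcd's

If `∑_{c ∈ Bad} gcd(x c, d)² = |Bad| · d` for every `d ∣ N` and no `x c` is divisible by `N`,
then `Bad = ∅`.  (Proof: induction on `N`, splitting off one prime power `p^k ∥ N` and subtracting
the identities for `p^k e` and `p^(k-1) e`.)
-/

set_option autoImplicit false

namespace Fermat.Agent.S28

theorem arith_gcd_pow_pred_eq {p k a : ℕ} (hp : p.Prime) (h : ¬ p ^ k ∣ a) :
    Nat.gcd a (p ^ k) = Nat.gcd a (p ^ (k - 1)) := by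
  apply Nat.dvd_antisymm
  · apply Nat.dvd_gcd (Nat.gcd_dvd_left _ _)
    obtain ⟨j, hj, hje⟩ := (Nat.dvd_prime_pow hp).mp (Nat.gcd_dvd_right a (p ^ k))
    rw [hje]
    apply pow_dvd_pow
    by_contra hlt
    have hjk : j = k := by omega
    subst hjk
    exact h (hje ▸ Nat.gcd_dvd_left a (p ^ j))
  · exact Nat.gcd_dvd_gcd_of_dvd_right _ (pow_dvd_pow p (Nat.sub_le k 1))

theorem arith_gcd_sums_core {ι : Type*} (a : ι → ℕ) :
    ∀ (N : ℕ), 0 < N → ∀ (Bad : Finset ι) (A B : ℤ), A ≠ 0 → (∀ c ∈ Bad, ¬ N ∣ a c) →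
      (∀ d : ℕ, d ∣ N → A * ∑ c ∈ Bad, ((Nat.gcd (a c) d : ℤ)) ^ 2 = B * d) → B = 0 := by
  classical
  intro N
  induction N using Nat.strong_induction_on with
  | _ N ih =>
    intro hN Bad A B hA hx h
    rcases Nat.eq_or_lt_of_le (Nat.one_le_iff_ne_zero.mpr hN.ne') with h1 | h1
    · have hBad : Bad = ∅ :=
        Finset.eq_empty_of_forall_notMem fun c hc => hx c hc (h1 ▸ one_dvd _)
      have h2 := h 1 (one_dvd _)
      rw [hBad] at h2
      simpa using h2.symm
    · have hp : N.minFac.Prime := Nat.minFac_prime h1.ne'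
      obtain ⟨k, M, hpM, hNeq⟩ := Nat.exists_eq_pow_mul_and_not_dvd hN.ne' N.minFac hp.ne_one
      set p := N.minFac with hp_def
      have hk : 1 ≤ k := by
        by_contra hk0
        have hk0' : k = 0 := by omega
        subst hk0'
        rw [pow_zero, one_mul] at hNeq
        exact hpM (hNeq ▸ Nat.minFac_dvd N)
      have hM0 : 0 < M := by
        rcases Nat.eq_zero_or_pos M with h0 | h0
        · rw [h0, mul_zero] at hNeq; omega
        · exact h0
      have hpk2 : 2 ≤ p ^ k := hp.two_le.trans (Nat.le_self_pow (by omega) p)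
      have hMN : M < N := by
        rw [hNeq]; nlinarith
      have hpk : p ^ k = p ^ (k - 1) * p := by
        rw [← pow_succ]; congr 1; omega
      have hcopM : Nat.Coprime p M := (Nat.Prime.coprime_iff_not_dvd hp).mpr hpM
      set Bad' := Bad.filter (fun c => p ^ k ∣ a c) with hBad'
      have hp1 : (1 : ℤ) < (p : ℤ) := by exact_mod_cast hp.one_lt
      have hP0 : (0 : ℤ) < (p : ℤ) ^ (k - 1) := pow_pos (by linarith) _
      refine ih M hMN hM0 Bad' (A * (p : ℤ) ^ (k - 1) * ((p : ℤ) + 1)) B ?_ ?_ ?_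
      · have : ((p : ℤ) + 1) ≠ 0 := by linarith
        exact mul_ne_zero (mul_ne_zero hA hP0.ne') this
      · intro c hc hMc
        rw [hBad', Finset.mem_filter] at hc
        apply hx c hc.1
        rw [hNeq]
        exact Nat.Coprime.mul_dvd_of_dvd_of_dvd (Nat.Coprime.pow_left k hcopM) hc.2 hMc
      · intro e he
        have cop1 : Nat.Coprime (p ^ k) e :=
          Nat.Coprime.coprime_dvd_right he (Nat.Coprime.pow_left k hcopM)
        have cop2 : Nat.Coprime (p ^ (k - 1)) e :=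
          Nat.Coprime.coprime_dvd_right he (Nat.Coprime.pow_left (k - 1) hcopM)
        have hd1 : p ^ k * e ∣ N := by rw [hNeq]; exact mul_dvd_mul_left _ he
        have hd2 : p ^ (k - 1) * e ∣ N := by
          rw [hNeq]; exact mul_dvd_mul (pow_dvd_pow p (Nat.sub_le k 1)) he
        have E1 := h _ hd1
        have E2 := h _ hd2
        have hterm : ∀ c ∈ Bad, ((Nat.gcd (a c) (p ^ k * e) : ℤ)) ^ 2 -
            ((Nat.gcd (a c) (p ^ (k - 1) * e) : ℤ)) ^ 2 =
            if p ^ k ∣ a c then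
              (((p : ℤ) ^ (k - 1) * p) ^ 2 - ((p : ℤ) ^ (k - 1)) ^ 2) *
                ((Nat.gcd (a c) e : ℤ)) ^ 2
            else 0 := by
          intro c _
          rw [Nat.Coprime.gcd_mul (a c) cop1, Nat.Coprime.gcd_mul (a c) cop2]
          split_ifs with hdvd
          · rw [Nat.gcd_eq_right hdvd,
              Nat.gcd_eq_right ((pow_dvd_pow p (Nat.sub_le k 1)).trans hdvd), hpk]
            push_cast
            ring
          · rw [arith_gcd_pow_pred_eq hp hdvd]
            ring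
        have hsum : ∑ c ∈ Bad, (((Nat.gcd (a c) (p ^ k * e) : ℤ)) ^ 2 -
            ((Nat.gcd (a c) (p ^ (k - 1) * e) : ℤ)) ^ 2) =
            (((p : ℤ) ^ (k - 1) * p) ^ 2 - ((p : ℤ) ^ (k - 1)) ^ 2) *
              ∑ c ∈ Bad', ((Nat.gcd (a c) e : ℤ)) ^ 2 := by
          rw [Finset.sum_congr rfl hterm, hBad', Finset.sum_filter, Finset.mul_sum]
          refine Finset.sum_congr rfl fun c _ => ?_
          split_ifs <;> simp
        rw [Finset.sum_sub_distrib] at hsum
        have E3 : A * ((((p : ℤ) ^ (k - 1) * p) ^ 2 - ((p : ℤ) ^ (k - 1)) ^ 2) *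
            ∑ c ∈ Bad', ((Nat.gcd (a c) e : ℤ)) ^ 2) =
            B * ((p ^ k * e : ℕ) : ℤ) - B * ((p ^ (k - 1) * e : ℕ) : ℤ) := by
          rw [← hsum, mul_sub, E1, E2]
        rw [hpk] at E3
        push_cast at E3
        have hfac : ((p : ℤ) ^ (k - 1) * ((p : ℤ) - 1)) *
            (A * (p : ℤ) ^ (k - 1) * ((p : ℤ) + 1) * ∑ c ∈ Bad', ((Nat.gcd (a c) e : ℤ)) ^ 2 -
              B * e) = 0 := by
          linear_combination E3
        have hne : ((p : ℤ) ^ (k - 1) * ((p : ℤ) - 1)) ≠ 0 :=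
          mul_ne_zero hP0.ne' (by linarith)
        have := (mul_eq_zero.mp hfac).resolve_left hne
        linarith

theorem bad_empty_of_gcd_sums (N : ℕ) (hN : 0 < N) {ι : Type*} (Bad : Finset ι) (x : ι → ℤ)
    (hx : ∀ c ∈ Bad, ¬ (N : ℤ) ∣ x c)
    (h : ∀ d : ℕ, d ∣ N → ∑ c ∈ Bad, ((Int.gcd (x c) d : ℤ)) ^ 2 = (Bad.card : ℤ) * d) :
    Bad = ∅ := by
  have key := arith_gcd_sums_core (fun c => (x c).natAbs) N hN Bad 1 (Bad.card : ℤ) one_ne_zero
    (fun c hc hdvd => hx c hc (Int.natCast_dvd.mpr hdvd))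
    (fun d hd => by
      rw [one_mul, ← h d hd]
      refine Finset.sum_congr rfl fun c _ => ?_
      simp [Int.gcd])
  exact Finset.card_eq_zero.mp (by exact_mod_cast key)

end Fermat.Agent.S28
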