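import Fermat.Agent.S28.Nice
import Fermat.Agent.S28.LevelOne

/-!
# S28 piece P7: the conjugates of a nice function over `SL₂(ℤ)/Γ(N)`; their elementary symmetric
functions are polynomials in `j`
-/

set_option autoImplicit false

open UpperHalfPlane ModularForm Complex ModularCurve
open scoped Real MatrixGroups CongruenceSubgroup Manifold

noncomputable section

namespace Fermat.Agent.S28

/-- The finite group `SL₂(ℤ)/Γ(N)`. -/
abbrev CosetQ (N : ℕ) : Type := SL(2, ℤ) ⧸ CongruenceSubgroup.Gamma N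

instance instFintypeCosetQ (N : ℕ) [NeZero N] : Fintype (CosetQ N) :=
  haveI : Finite (CosetQ N) := Subgroup.finite_quotient_of_finiteIndex
  Fintype.ofFinite _

instance instNormalGammaS28 (N : ℕ) : (CongruenceSubgroup.Gamma N).Normal :=
  CongruenceSubgroup.Gamma_normal N

/-- The chosen representative of a coset. -/
def cosetRep {N : ℕ} (c : CosetQ N) : SL(2, ℤ) := Quotient.out c

theorem mk_cosetRep {N : ℕ} (c : CosetQ N) : (QuotientGroup.mk (cosetRep c) : CosetQ N) = c :=
  Quotient.out_eq' c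

theorem gamma_le_gamma0 (N : ℕ) : CongruenceSubgroup.Gamma N ≤ CongruenceSubgroup.Gamma0 N := by
  intro γ hγ
  rw [CongruenceSubgroup.Gamma_mem] at hγ
  rw [CongruenceSubgroup.Gamma0_mem]
  exact hγ.2.2.1

variable {N ℓ : ℕ} [NeZero N]

/-- `g ∘ γ` only depends on the class of `γ` modulo `Γ(N)`. -/
theorem IsNice.apply_eq_of_mk_eq {g : ℍ → ℂ} (hg : IsNice N ℓ g) {γ₁ γ₂ : SL(2, ℤ)}
    (h : (QuotientGroup.mk γ₁ : CosetQ N) = QuotientGroup.mk γ₂) (τ : ℍ) :
    g (γ₁ • τ) = g (γ₂ • τ) := by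
  have h1 : γ₁⁻¹ * γ₂ ∈ CongruenceSubgroup.Gamma N := QuotientGroup.eq.mp h
  have hnorm : (CongruenceSubgroup.Gamma N).Normal := CongruenceSubgroup.Gamma_normal N
  have h2 : γ₁ * (γ₁⁻¹ * γ₂) * γ₁⁻¹ ∈ CongruenceSubgroup.Gamma N := hnorm.conj_mem _ h1 γ₁
  have h3 : γ₂ • τ = (γ₁ * (γ₁⁻¹ * γ₂) * γ₁⁻¹) • (γ₁ • τ) := by
    rw [← mul_smul]
    congr 1
    group
  rw [h3, hg.inv _ (gamma_le_gamma0 N h2)]

/-- Reindexing elementary symmetric sums along a permutation. -/
theorem sum_powersetCard_prod_equiv {C M : Type*} [Fintype C] [DecidableEq C] [CommRing M]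
    (σ : C ≃ C) (f : C → M) (n : ℕ) :
    ∑ t ∈ Finset.powersetCard n (Finset.univ : Finset C), ∏ c ∈ t, f (σ c) =
      ∑ t ∈ Finset.powersetCard n (Finset.univ : Finset C), ∏ c ∈ t, f c := by
  refine Finset.sum_nbij' (fun t => t.map σ.toEmbedding) (fun t => t.map σ.symm.toEmbedding)
    ?_ ?_ ?_ ?_ ?_
  · intro t ht
    rw [Finset.mem_powersetCard] at ht ⊢
    exact ⟨Finset.subset_univ _, by rw [Finset.card_map]; exact ht.2⟩
  · intro t ht
    rw [Finset.mem_powersetCard] at ht ⊢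
    exact ⟨Finset.subset_univ _, by rw [Finset.card_map]; exact ht.2⟩
  · intro t _
    ext c
    simp
  · intro t _
    ext c
    simp
  · intro t _
    rw [Finset.prod_map]
    rfl

/-- The elementary symmetric functions of the expansions of the conjugates of a nice function
are polynomials in `j(t^N)` with coefficients in `𝒪`. -/
theorem esymm_eq_poly {g : ℍ → ℂ} (hg : IsNice N ℓ g) (s : CosetQ N → LaurentSeries (cycRing N ℓ))
    (hs : ∀ c : CosetQ N, HasQExp N (fun τ => g (cosetRep c • τ)) (incO N ℓ (s c))) (n : ℕ) :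
    ∃ P : Polynomial (cycRing N ℓ),
      ∑ t ∈ Finset.powersetCard n (Finset.univ : Finset (CosetQ N)), ∏ c ∈ t, s c =
        P.eval₂ HahnSeries.C (jN (cycRing N ℓ) N) := by
  classical
  set E : ℍ → ℂ := fun τ =>
    ∑ t ∈ Finset.powersetCard n (Finset.univ : Finset (CosetQ N)), ∏ c ∈ t, g (cosetRep c • τ)
    with hE
  have hexp : HasQExp N E (coeffMap (cycRing N ℓ).subtype
      (∑ t ∈ Finset.powersetCard n (Finset.univ : Finset (CosetQ N)), ∏ c ∈ t, s c)) := by
    rw [map_sum]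
    refine HasQExp.finset_sum _ _ _ (fun t _ => ?_)
    rw [map_prod]
    exact HasQExp.finset_prod _ _ _ (fun c _ => hs c)
  have hinv : ∀ (γ : SL(2, ℤ)) (τ : ℍ), E (γ • τ) = E τ := by
    intro γ τ
    have key : ∀ c : CosetQ N, g (cosetRep c • γ • τ) =
        g (cosetRep (Equiv.mulRight (QuotientGroup.mk γ : CosetQ N) c) • τ) := by
      intro c
      rw [← mul_smul]
      refine hg.apply_eq_of_mk_eq ?_ τ
      rw [mk_cosetRep, QuotientGroup.mk_mul, mk_cosetRep]
      rfl
    simp only [hE, key]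
    exact sum_powersetCard_prod_equiv (Equiv.mulRight (QuotientGroup.mk γ : CosetQ N))
      (fun c => g (cosetRep c • τ)) n
  exact levelOne_eq_poly N (cycRing N ℓ) E hexp.mdifferentiable hinv _ hexp

end Fermat.Agent.S28
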