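import Fermat.Agent.S28.WRing
import Fermat.Agent.S28.Formal

/-!
# S28 piece A5b (descent): primitive denominators

If `x ∈ ℚ((q))` is integral over `ℤ_(ℓ)[j]` and `ℓ x ∈ B`, then `x ∈ B`; consequently a nonzero
denominator `c ∈ ℤ_(ℓ)[j]` of an integral element can be replaced by a primitive one.
-/

set_option autoImplicit false
set_option linter.unusedSectionVars false

open ModularCurve ModularCurve.IgusaScheme

noncomputable section

namespace Fermat.Agent.S28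

variable {N : ℕ} [NeZero N] {ℓ : ℕ} [Fact ℓ.Prime]

/-- Evaluation at `j` with values in `ℤ_(ℓ)((q))` (private copy for this file). -/
def kerCD_evJR (ℓ : ℕ) [Fact ℓ.Prime] :
    Polynomial (GaloisRep.ratLocalizedAt ℓ) →+* LaurentSeries (GaloisRep.ratLocalizedAt ℓ) :=
  Polynomial.eval₂RingHom HahnSeries.C (jqModC (GaloisRep.ratLocalizedAt ℓ))

theorem kerCD_incL_jqModC : incL ℓ (jqModC (GaloisRep.ratLocalizedAt ℓ)) = jq := by
  rw [← jqModC_rat]
  exact coeffMap_jqModC _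

theorem kerCD_incL_evJR (b : Polynomial (GaloisRep.ratLocalizedAt ℓ)) :
    incL ℓ (kerCD_evJR ℓ b) = evJ ℓ b := by
  unfold kerCD_evJR evJ
  rw [Polynomial.coe_eval₂RingHom, Polynomial.coe_eval₂RingHom, Polynomial.hom_eval₂,
    kerCD_incL_jqModC]
  congr 1
  ext r : 1
  exact incL_C ℓ r

theorem kerCD_evJ_C (r : GaloisRep.ratLocalizedAt ℓ) :
    evJ ℓ (Polynomial.C r) = HahnSeries.C ((r : GaloisRep.ratLocalizedAt ℓ) : ℚ) := by
  unfold evJ
  rw [Polynomial.coe_eval₂RingHom, Polynomial.eval₂_C]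
  rfl

theorem kerCD_evJ_C_ell :
    evJ ℓ (Polynomial.C (ℓ : GaloisRep.ratLocalizedAt ℓ)) = HahnSeries.C (ℓ : ℚ) := by
  rw [kerCD_evJ_C]
  simp

theorem kerCD_evJR_C (r : GaloisRep.ratLocalizedAt ℓ) :
    kerCD_evJR ℓ (Polynomial.C r) = HahnSeries.C r := by
  unfold kerCD_evJR
  rw [Polynomial.coe_eval₂RingHom, Polynomial.eval₂_C]

/-- Descent: if `ℓ x ∈ B` and `x` is integral over `ℤ_(ℓ)[j]`, then `x ∈ B`. -/
theorem kerCD_descent {B : Subring (LaurentSeries ℚ)} (hB : CoreData N ℓ B)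
    (x : LaurentSeries ℚ) (hx : HahnSeries.C (ℓ : ℚ) * x ∈ B)
    (hint : ∃ P : Polynomial (Polynomial (GaloisRep.ratLocalizedAt ℓ)),
      P.Monic ∧ P.eval₂ (evJ ℓ) x = 0) : x ∈ B := by
  obtain ⟨P, hPm, hPx⟩ := hint
  obtain ⟨y0, hy0⟩ := exists_incL_of_coeff_mem ℓ _ (hB.coeff_mem _ hx)
  set s : Polynomial (GaloisRep.ratLocalizedAt ℓ) :=
    Polynomial.C (ℓ : GaloisRep.ratLocalizedAt ℓ) with hs
  set Q := P.scaleRoots s with hQ
  -- `Q(ℓ x) = 0`
  have hQx : Q.eval₂ (evJ ℓ) (HahnSeries.C (ℓ : ℚ) * x) = 0 := by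
    rw [← kerCD_evJ_C_ell, hQ, Polynomial.scaleRoots_eval₂_mul, hPx, mul_zero]
  -- transport to `ℤ_(ℓ)((q))`
  have hQy0 : Q.eval₂ (kerCD_evJR ℓ) y0 = 0 := by
    apply incL_injective ℓ
    rw [map_zero, Polynomial.hom_eval₂, hy0]
    have : (incL ℓ).comp (kerCD_evJR ℓ) = evJ ℓ := RingHom.ext fun b => kerCD_incL_evJR b
    rw [this]
    exact hQx
  -- reduce mod `ℓ`
  have hred : (redL ℓ y0) ^ P.natDegree = 0 := by
    have h1 : redL ℓ (Q.eval₂ (kerCD_evJR ℓ) y0) = 0 := by rw [hQy0, map_zero]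
    rw [Polynomial.hom_eval₂, Polynomial.eval₂_eq_sum_range, hQ,
      Polynomial.natDegree_scaleRoots, Finset.sum_range_succ] at h1
    rw [Finset.sum_eq_zero, zero_add, ← hQ] at h1
    · have h2 : Q.coeff P.natDegree = 1 := by
        rw [hQ, Polynomial.coeff_scaleRoots_natDegree]
        exact hPm
      rw [h2, map_one, one_mul] at h1
      exact h1
    · intro i hi
      rw [Finset.mem_range] at hi
      rw [Polynomial.coeff_scaleRoots]
      have h3 : ((redL ℓ).comp (kerCD_evJR ℓ)) s = 0 := by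
        rw [hs, RingHom.comp_apply, kerCD_evJR_C, redL_C, map_natCast, ZMod.natCast_self,
          map_zero]
      obtain ⟨m, hm⟩ : ∃ m, P.natDegree - i = m + 1 := ⟨P.natDegree - i - 1, by omega⟩
      rw [hm, pow_succ, map_mul, map_mul, h3, mul_zero, mul_zero, zero_mul]
  have hred0 : redL ℓ y0 = 0 := eq_zero_of_pow_eq_zero hred
  obtain ⟨s', hs'⟩ := (redL_eq_zero_iff ℓ y0).mp hred0
  have hdiv : ∀ n : ℤ, ∃ r ∈ GaloisRep.ratLocalizedAt ℓ,
      (HahnSeries.C (ℓ : ℚ) * x).coeff n = ℓ * r := by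
    intro n
    refine ⟨((s'.coeff n : GaloisRep.ratLocalizedAt ℓ) : ℚ), (s'.coeff n).2, ?_⟩
    rw [← hy0, hs', incL_coeff, formal_coeff_C_mul]
    simp
  obtain ⟨y, hyB, hy⟩ := hB.div _ hx hdiv
  have hne : (HahnSeries.C (ℓ : ℚ) : LaurentSeries ℚ) ≠ 0 := by
    have hl : (ℓ : ℚ) ≠ 0 := by exact_mod_cast (Fact.out : ℓ.Prime).ne_zero
    exact (map_ne_zero_iff _ HahnSeries.C_injective).mpr hl
  rw [mul_left_cancel₀ hne hy]
  exact hyB

theorem kerCD_evJ_scaleRoots_mul (P : Polynomial (Polynomial (GaloisRep.ratLocalizedAt ℓ)))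
    (c : Polynomial (GaloisRep.ratLocalizedAt ℓ)) (f : LaurentSeries ℚ)
    (hP : P.eval₂ (evJ ℓ) f = 0) : (P.scaleRoots c).eval₂ (evJ ℓ) (evJ ℓ c * f) = 0 := by
  rw [Polynomial.scaleRoots_eval₂_mul, hP, mul_zero]

/-- From a nonzero denominator to a primitive denominator for integral elements. -/
theorem kerCD_primitive_of_mul_mem {B : Subring (LaurentSeries ℚ)} (hB : CoreData N ℓ B)
    (f : LaurentSeries ℚ)
    (hint : ∃ P : Polynomial (Polynomial (GaloisRep.ratLocalizedAt ℓ)),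
      P.Monic ∧ P.eval₂ (evJ ℓ) f = 0)
    (c : Polynomial (GaloisRep.ratLocalizedAt ℓ)) (hc : c ≠ 0) (hcf : evJ ℓ c * f ∈ B) :
    ∃ b : Polynomial (GaloisRep.ratLocalizedAt ℓ),
      ¬ (Polynomial.C (ℓ : GaloisRep.ratLocalizedAt ℓ) ∣ b) ∧ evJ ℓ b * f ∈ B := by
  obtain ⟨P, hPm, hPf⟩ := hint
  have hnu : ¬ IsUnit (Polynomial.C (ℓ : GaloisRep.ratLocalizedAt ℓ)) := by
    rw [Polynomial.isUnit_C]
    exact (prime_ell_ratLocalizedAt ℓ).not_isUnit
  obtain ⟨k, b, hb, hcb⟩ := WfDvdMonoid.max_power_factor' hc hnu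
  refine ⟨b, hb, ?_⟩
  have key : ∀ k : ℕ, evJ ℓ (Polynomial.C (ℓ : GaloisRep.ratLocalizedAt ℓ) ^ k * b) * f ∈ B →
      evJ ℓ b * f ∈ B := by
    intro k
    induction k with
    | zero =>
      intro h
      simpa using h
    | succ k ih =>
      intro h
      apply ih
      apply kerCD_descent hB
      · rw [← kerCD_evJ_C_ell, ← mul_assoc, ← map_mul, ← mul_assoc, ← pow_succ']
        exact h
      · exact ⟨P.scaleRoots (Polynomial.C (ℓ : GaloisRep.ratLocalizedAt ℓ) ^ k * b),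
          (Polynomial.monic_scaleRoots_iff _).mpr hPm, kerCD_evJ_scaleRoots_mul P _ f hPf⟩
  exact key k (hcb ▸ hcf)

end Fermat.Agent.S28
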