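import Fermat.Agent.S28.Hermite
import Fermat.Agent.S28.CycRing

/-!
# S28 pieces P5/P6: nice functions (`IsNice`): ring operations, `J(dτ)`, the eta quotients
`Δ(dτ)/Δ(τ)` and their orders at all cusps
-/

set_option autoImplicit false

open UpperHalfPlane ModularForm Complex ModularCurve
open scoped Real MatrixGroups CongruenceSubgroup Manifold

noncomputable section

namespace Fermat.Agent.S28

/-- The coefficient embedding `𝒪((t)) → ℂ((t))`. -/
abbrev incO (N ℓ : ℕ) : LaurentSeries (cycRing N ℓ) →+* LaurentSeries ℂ :=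
  coeffMap (cycRing N ℓ).subtype

theorem incO_injective (N ℓ : ℕ) : Function.Injective (incO N ℓ) := by
  intro x y h
  ext n
  have h1 := congrArg (fun s => HahnSeries.coeff s n) h
  simpa using h1

theorem nice_coeffMap_C {A B : Type*} [CommRing A] [CommRing B] (f : A →+* B) (a : A) :
    coeffMap f (HahnSeries.C a) = HahnSeries.C (f a) := by
  rw [HahnSeries.C_apply, HahnSeries.C_apply, coeffMap_single]

theorem nice_substQ_one {A : Type*} [CommRing A] (m : ℕ) [NeZero m] (s : LaurentSeries A) :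
    substQ (1 : Aˣ) m s = qExpand A m s := by
  have h : twistQ (1 : Aˣ) s = s := by
    ext n
    simp [twistQ_coeff]
  rw [substQ, h]

variable {N ℓ : ℕ} [NeZero N]

theorem isNice_const (z : cycRing N ℓ) : IsNice N ℓ (fun _ => (z : ℂ)) where
  holo := mdifferentiable_const
  inv := fun _ _ _ => rfl
  exp := fun _ => ⟨HahnSeries.C z, by
    rw [nice_coeffMap_C]
    exact hasQExp_const N (z : ℂ)⟩

theorem IsNice.add {g g' : ℍ → ℂ} (hg : IsNice N ℓ g) (hg' : IsNice N ℓ g') :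
    IsNice N ℓ (fun τ => g τ + g' τ) where
  holo := hg.holo.add hg'.holo
  inv := fun γ hγ τ => by rw [hg.inv γ hγ τ, hg'.inv γ hγ τ]
  exp := fun γ => by
    obtain ⟨s, hs⟩ := hg.exp γ
    obtain ⟨s', hs'⟩ := hg'.exp γ
    exact ⟨s + s', by rw [map_add]; exact hs.add hs'⟩

theorem IsNice.neg {g : ℍ → ℂ} (hg : IsNice N ℓ g) : IsNice N ℓ (fun τ => -g τ) where
  holo := hg.holo.neg
  inv := fun γ hγ τ => by rw [hg.inv γ hγ τ]
  exp := fun γ => by
    obtain ⟨s, hs⟩ := hg.exp γ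
    exact ⟨-s, by rw [map_neg]; exact hs.neg⟩

theorem IsNice.sub {g g' : ℍ → ℂ} (hg : IsNice N ℓ g) (hg' : IsNice N ℓ g') :
    IsNice N ℓ (fun τ => g τ - g' τ) where
  holo := hg.holo.sub hg'.holo
  inv := fun γ hγ τ => by rw [hg.inv γ hγ τ, hg'.inv γ hγ τ]
  exp := fun γ => by
    obtain ⟨s, hs⟩ := hg.exp γ
    obtain ⟨s', hs'⟩ := hg'.exp γ
    exact ⟨s - s', by rw [map_sub]; exact hs.sub hs'⟩

theorem IsNice.mul {g g' : ℍ → ℂ} (hg : IsNice N ℓ g) (hg' : IsNice N ℓ g') :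
    IsNice N ℓ (fun τ => g τ * g' τ) where
  holo := hg.holo.mul hg'.holo
  inv := fun γ hγ τ => by rw [hg.inv γ hγ τ, hg'.inv γ hγ τ]
  exp := fun γ => by
    obtain ⟨s, hs⟩ := hg.exp γ
    obtain ⟨s', hs'⟩ := hg'.exp γ
    exact ⟨s * s', by rw [map_mul]; exact hs.mul hs'⟩

theorem IsNice.pow {g : ℍ → ℂ} (hg : IsNice N ℓ g) (n : ℕ) : IsNice N ℓ (fun τ => g τ ^ n) where
  holo := hg.holo.pow n
  inv := fun γ hγ τ => by rw [hg.inv γ hγ τ]
  exp := fun γ => by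
    obtain ⟨s, hs⟩ := hg.exp γ
    exact ⟨s ^ n, by rw [map_pow]; exact hs.pow n⟩

/-- The expansion of `J(dτ)` at `∞`, at level `N`. -/
theorem hasQExp_Jd (N : ℕ) [NeZero N] (d : ℕ) [NeZero d] :
    HasQExp N (fun τ => Jfun (scaleH d τ)) (iotaN N (qExpand ℚ d jq)) := by
  have : NeZero (N * d) := ⟨Nat.mul_ne_zero (NeZero.ne N) (NeZero.ne d)⟩
  have h := hasQExp_Jfun.comp_of_tParam (N := N) (scaleH d) (1 : ℂˣ) (N * d)
    (fun τ => by rw [Units.val_one, one_mul]; exact tParam_scaleH N d τ)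
  rw [nice_substQ_one] at h
  rw [iotaN_qExpand_jq]
  exact h

/-- The unit `ζ_N^k` of `𝒪`, mapped to `ℂ`. -/
theorem nice_coe_zetaUnit_zpow (N ℓ : ℕ) [NeZero N] (k : ℤ) :
    ((Units.map ((cycRing N ℓ).subtype : cycRing N ℓ →* ℂ) (zetaUnit N ℓ ^ k) : ℂˣ) : ℂ) =
      zetaN N ^ k := by
  rw [map_zpow, Units.val_zpow_eq_zpow_val, Units.coe_map]
  rfl

/-- `J(dτ)` is nice for `d ∣ N`. -/
theorem isNice_Jd (N ℓ : ℕ) [NeZero N] (d : ℕ) [NeZero d] (hd : d ∣ N) :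
    IsNice N ℓ (fun τ => Jfun (scaleH d τ)) where
  holo := (hasQExp_Jd N d).mdifferentiable
  inv := fun γ hγ τ => Jfun_scaleH_smul N d hd γ hγ τ
  exp := fun γ => by
    obtain ⟨a, d', ha, hd', b, -, had, hJ, -⟩ := exists_transform γ d
    have := ha
    have := hd'
    have hd'N : d' ∣ N := (Dvd.intro_left a had).trans hd
    have hm0 : a * (N / d') ≠ 0 :=
      Nat.mul_ne_zero (NeZero.ne a)
        (Nat.div_pos (Nat.le_of_dvd (Nat.pos_of_ne_zero (NeZero.ne N)) hd'N)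
          (Nat.pos_of_ne_zero (NeZero.ne d'))).ne'
    have : NeZero (a * (N / d')) := ⟨hm0⟩
    refine ⟨substQ (zetaUnit N ℓ ^ (b * ((N / d' : ℕ) : ℤ))) (a * (N / d'))
      (jqModC (cycRing N ℓ)), ?_⟩
    rw [coeffMap_substQ, coeffMap_jqModC]
    have h := hasQExp_Jfun.comp_of_tParam (N := N) (affH a d' b)
      (Units.map ((cycRing N ℓ).subtype : cycRing N ℓ →* ℂ)
        (zetaUnit N ℓ ^ (b * ((N / d' : ℕ) : ℤ)))) (a * (N / d'))
      (fun τ => by rw [nice_coe_zetaUnit_zpow]; exact tParam_affH N a d' b hd'N τ)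
    exact h.congr (fun τ => (hJ τ).symm)

/-- The expansions of `U_d = Δ(dτ)/Δ(τ)` and of its inverse at the cusp `γ∞`: unit leading
coefficients and exponent `e` with `e d = N (gcd(γ₁₀, d)² - d)`. -/
theorem Ufun_leading (N ℓ : ℕ) [NeZero N] [Fact ℓ.Prime] (hℓN : ¬ ℓ ∣ N) (d : ℕ) [NeZero d]
    (hd : d ∣ N) (γ : SL(2, ℤ)) :
    ∃ (s s' : LaurentSeries (cycRing N ℓ)) (c : (cycRing N ℓ)ˣ) (e : ℤ),
      e * d = N * ((Int.gcd (γ 1 0) d : ℤ) ^ 2 - d) ∧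
      HasQExp N (fun τ => Ufun d (γ • τ)) (incO N ℓ s) ∧
      HasQExp N (fun τ => (Ufun d (γ • τ))⁻¹) (incO N ℓ s') ∧
      IsLeading s e (c : cycRing N ℓ) ∧
      IsLeading s' (-e) ((c⁻¹ : (cycRing N ℓ)ˣ) : cycRing N ℓ) := by
  obtain ⟨a, d', ha, hd', b, hab, had, -, hU⟩ := exists_transform γ d
  have := ha
  have := hd'
  have hd'N : d' ∣ N := (Dvd.intro_left a had).trans hd
  have hℓd' : ¬ ℓ ∣ d' := fun h => hℓN (h.trans hd'N)
  obtain ⟨ud, hud⟩ := isUnit_natCast_cycRing N ℓ d' hℓd'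
  have hm0 : a * (N / d') ≠ 0 :=
    Nat.mul_ne_zero (NeZero.ne a)
      (Nat.div_pos (Nat.le_of_dvd (Nat.pos_of_ne_zero (NeZero.ne N)) hd'N)
        (Nat.pos_of_ne_zero (NeZero.ne d'))).ne'
  have : NeZero (a * (N / d')) := ⟨hm0⟩
  set m : ℕ := a * (N / d') with hm
  set cO : (cycRing N ℓ)ˣ := zetaUnit N ℓ ^ (b * ((N / d' : ℕ) : ℤ)) with hcO
  set cC : ℂˣ := Units.map ((cycRing N ℓ).subtype : cycRing N ℓ →* ℂ) cO with hcC
  have hc : (cC : ℂ) = zetaN N ^ (b * ((N / d' : ℕ) : ℤ)) := nice_coe_zetaUnit_zpow N ℓ _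
  have hz : ∀ τ : ℍ, tParam 1 (affH a d' b τ) = (cC : ℂ) * tParam N τ ^ m := fun τ => by
    rw [hc]; exact tParam_affH N a d' b hd'N τ
  -- complex expansions
  have hΔaff : HasQExp N (fun τ => ModularForm.discriminant (affH a d' b τ))
      (substQ cC m (deltaSeries ℂ)) :=
    hasQExp_discriminant.comp_of_tParam (N := N) (affH a d' b) cC m hz
  have hΔinvaff : HasQExp N (fun τ => (ModularForm.discriminant (affH a d' b τ))⁻¹)
      (substQ cC m (deltaInvSeries ℂ)) :=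
    hasQExp_discriminant_inv.comp_of_tParam (N := N) (affH a d' b) cC m hz
  have hΔN : HasQExp N (fun τ => ModularForm.discriminant τ) (qExpand ℂ N (deltaSeries ℂ)) := by
    have h := hasQExp_discriminant.level N
    rwa [one_mul] at h
  have hΔinvN : HasQExp N (fun τ => (ModularForm.discriminant τ)⁻¹)
      (qExpand ℂ N (deltaInvSeries ℂ)) := by
    have h := hasQExp_discriminant_inv.level N
    rwa [one_mul] at h
  -- the unit `d'⁻¹ ^ 12`
  have hudC : (((ud : cycRing N ℓ)) : ℂ) = (d' : ℂ) := by rw [hud]; simp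
  have hudinvC : ((((ud⁻¹ : (cycRing N ℓ)ˣ) : cycRing N ℓ)) : ℂ) = (d' : ℂ)⁻¹ := by
    have h1 : (((ud : cycRing N ℓ)) : ℂ) * ((((ud⁻¹ : (cycRing N ℓ)ˣ) : cycRing N ℓ)) : ℂ) = 1 := by
      rw [← Subring.coe_mul, Units.mul_inv]; rfl
    rw [hudC] at h1
    exact eq_inv_of_mul_eq_one_right h1
  set u : (cycRing N ℓ)ˣ := ud⁻¹ ^ 12 with hu
  have huC : (((u : cycRing N ℓ)) : ℂ) = ((d' : ℂ)⁻¹) ^ 12 := by
    rw [hu, Units.val_pow_eq_pow_val, Subring.coe_pow, hudinvC]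
  have huinvC : ((((u⁻¹ : (cycRing N ℓ)ˣ) : cycRing N ℓ)) : ℂ) = (d' : ℂ) ^ 12 := by
    rw [hu, inv_pow, inv_inv, Units.val_pow_eq_pow_val, Subring.coe_pow, hudC]
  refine ⟨HahnSeries.C (u : cycRing N ℓ) * (substQ cO m (deltaSeries (cycRing N ℓ)) *
      qExpand (cycRing N ℓ) N (deltaInvSeries (cycRing N ℓ))),
    HahnSeries.C ((u⁻¹ : (cycRing N ℓ)ˣ) : cycRing N ℓ) *
      (qExpand (cycRing N ℓ) N (deltaSeries (cycRing N ℓ)) *
        substQ cO m (deltaInvSeries (cycRing N ℓ))),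
    u * cO, (m : ℤ) - N, ?_, ?_, ?_, ?_, ?_⟩
  · have h1 : ((N / d' : ℕ) : ℤ) * (d' : ℤ) = N := by exact_mod_cast Nat.div_mul_cancel hd'N
    have h2 : (d : ℤ) = a * d' := by exact_mod_cast had.symm
    have h3 : (m : ℤ) = a * ((N / d' : ℕ) : ℤ) := by rw [hm, Nat.cast_mul]
    rw [← hab, h2, h3]
    linear_combination (a : ℤ) ^ 2 * h1
  · rw [map_mul, map_mul, nice_coeffMap_C, coeffMap_substQ, coeffMap_deltaSeries,
      coeffMap_qExpand, coeffMap_deltaInvSeries]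
    have h := (hΔaff.mul hΔinvN).const_mul (((d' : ℂ)⁻¹) ^ 12)
    rw [Subring.coe_subtype, huC]
    exact h.congr (fun τ => by rw [hU τ, div_eq_mul_inv])
  · rw [map_mul, map_mul, nice_coeffMap_C, coeffMap_substQ, coeffMap_deltaInvSeries,
      coeffMap_qExpand, coeffMap_deltaSeries]
    have h := (hΔN.mul hΔinvaff).const_mul ((d' : ℂ) ^ 12)
    rw [Subring.coe_subtype, huinvC]
    exact h.congr (fun τ => by
      rw [hU τ, mul_inv, inv_div, inv_pow, inv_inv, div_eq_mul_inv])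
  · have h1 := (isLeading_deltaSeries (cycRing N ℓ)).substQ cO m
    have h2 := (isLeading_deltaInvSeries (cycRing N ℓ)).qExpand N
    have h3 := (h1.mul h2).C_mul (u : cycRing N ℓ)
    have he : (m : ℤ) * 1 + (N : ℤ) * (-1) = (m : ℤ) - N := by ring
    have hcoef : (u : cycRing N ℓ) * ((((cO ^ (1 : ℤ) : (cycRing N ℓ)ˣ) : cycRing N ℓ) * 1) * 1) =
        ((u * cO : (cycRing N ℓ)ˣ) : cycRing N ℓ) := by simp
    rw [he, hcoef] at h3
    exact h3
  · have h1 := (isLeading_deltaSeries (cycRing N ℓ)).qExpand N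
    have h2 := (isLeading_deltaInvSeries (cycRing N ℓ)).substQ cO m
    have h3 := (h1.mul h2).C_mul ((u⁻¹ : (cycRing N ℓ)ˣ) : cycRing N ℓ)
    have he : (N : ℤ) * 1 + (m : ℤ) * (-1) = -((m : ℤ) - N) := by ring
    have hcoef : ((u⁻¹ : (cycRing N ℓ)ˣ) : cycRing N ℓ) *
        (1 * (((cO ^ (-1 : ℤ) : (cycRing N ℓ)ˣ) : cycRing N ℓ) * 1)) =
        (((u * cO)⁻¹ : (cycRing N ℓ)ˣ) : cycRing N ℓ) := by
      simp [mul_comm]
    rw [he, hcoef] at h3
    exact h3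

theorem isNice_Ufun (N ℓ : ℕ) [NeZero N] [Fact ℓ.Prime] (hℓN : ¬ ℓ ∣ N) (d : ℕ) [NeZero d]
    (hd : d ∣ N) : IsNice N ℓ (Ufun d) where
  holo := by
    obtain ⟨s, -, -, -, -, hs, -, -, -⟩ := Ufun_leading N ℓ hℓN d hd 1
    exact (hs.congr (fun τ => by rw [one_smul])).mdifferentiable
  inv := fun γ hγ τ => Ufun_smul N d hd γ hγ τ
  exp := fun γ => by
    obtain ⟨s, -, -, -, -, hs, -, -, -⟩ := Ufun_leading N ℓ hℓN d hd γ
    exact ⟨s, hs⟩

theorem isNice_Ufun_inv (N ℓ : ℕ) [NeZero N] [Fact ℓ.Prime] (hℓN : ¬ ℓ ∣ N) (d : ℕ) [NeZero d]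
    (hd : d ∣ N) : IsNice N ℓ (fun τ => (Ufun d τ)⁻¹) where
  holo := by
    obtain ⟨-, s', -, -, -, -, hs', -, -⟩ := Ufun_leading N ℓ hℓN d hd 1
    exact (hs'.congr (fun τ => by rw [one_smul])).mdifferentiable
  inv := fun γ hγ τ => by rw [Ufun_smul N d hd γ hγ τ]
  exp := fun γ => by
    obtain ⟨-, s', -, -, -, -, hs', -, -⟩ := Ufun_leading N ℓ hℓN d hd γ
    exact ⟨s', hs'⟩

end Fermat.Agent.S28
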