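import Fermat.Agent.S28.Cosets
import Fermat.Agent.S28.Arith

/-!
# S28 piece P8: the `q`-expansion principle for nice functions (norm argument)
-/

set_option autoImplicit false

open UpperHalfPlane ModularForm Complex ModularCurve
open scoped Real MatrixGroups CongruenceSubgroup Manifold

noncomputable section

namespace Fermat.Agent.S28

theorem isLeading_one (A : Type*) [CommRing A] : IsLeading (1 : LaurentSeries A) 0 1 := by
  refine ⟨by simp, fun n hn => ?_⟩
  rw [HahnSeries.coeff_one, if_neg hn.ne]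

theorem IsLeading.finset_prod {A ι : Type*} [CommRing A] (S : Finset ι)
    (s : ι → LaurentSeries A) (e : ι → ℤ) (c : ι → A)
    (h : ∀ i ∈ S, IsLeading (s i) (e i) (c i)) :
    IsLeading (∏ i ∈ S, s i) (∑ i ∈ S, e i) (∏ i ∈ S, c i) := by
  classical
  induction S using Finset.induction_on with
  | empty => simpa using isLeading_one A
  | insert a S ha ih =>
    rw [Finset.prod_insert ha, Finset.sum_insert ha, Finset.prod_insert ha]
    exact (h a (Finset.mem_insert_self a S)).mul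
      (ih fun i hi => h i (Finset.mem_insert_of_mem hi))

/-- The key inequality of the norm argument: the total order of a nice function `u` with unit
leading coefficients over the bad cosets is `≤ 0`. -/
theorem sum_order_nonpos {N ℓ : ℕ} [NeZero N] {k : Type} [Field k] (ρ : cycRing N ℓ →+* k)
    {g u : ℍ → ℂ} (hg : IsNice N ℓ g) (hu : IsNice N ℓ u)
    (S w : CosetQ N → LaurentSeries (cycRing N ℓ))
    (hS : ∀ c, HasQExp N (fun τ => g (cosetRep c • τ)) (incO N ℓ (S c)))
    (hw : ∀ c, HasQExp N (fun τ => u (cosetRep c • τ)) (incO N ℓ (w c)))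
    (e : CosetQ N → ℤ) (a : CosetQ N → (cycRing N ℓ)ˣ)
    (hlead : ∀ c, IsLeading (w c) (e c) (a c : cycRing N ℓ))
    (Bad : Finset (CosetQ N)) (hBad : ∀ c, c ∈ Bad ↔ coeffMap ρ (S c) ≠ 0) :
    ∑ c ∈ Bad, e c ≤ 0 := by
  classical
  set m := Bad.card with hm
  set X : LaurentSeries k := ∏ c ∈ Bad, coeffMap ρ (S c) with hXdef
  set Y : LaurentSeries k := ∏ c ∈ Bad, coeffMap ρ (w c) with hYdef
  have hX : X ≠ 0 := Finset.prod_ne_zero_iff.mpr (fun c hc => (hBad c).mp hc)
  have hYlead : IsLeading Y (∑ c ∈ Bad, e c) (∏ c ∈ Bad, ρ (a c : cycRing N ℓ)) :=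
    IsLeading.finset_prod Bad _ _ _ (fun c _ => (hlead c).coeffMap ρ)
  have hunit : (∏ c ∈ Bad, ρ (a c : cycRing N ℓ)) ≠ 0 :=
    Finset.prod_ne_zero_iff.mpr (fun c _ => ((a c).isUnit.map ρ).ne_zero)
  have hY : Y ≠ 0 := hYlead.ne_zero hunit
  have hYord : Y.order = ∑ c ∈ Bad, e c := hYlead.order_eq hunit
  have key : ∀ K : ℕ, (X * Y ^ K).order ≤ 0 := by
    intro K
    have hnice : IsNice N ℓ (fun τ => g τ * u τ ^ K) := hg.mul (hu.pow K)
    obtain ⟨P, hP⟩ := esymm_eq_poly hnice (fun c => S c * w c ^ K) (fun c => by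
      rw [map_mul, map_pow]
      exact (hS c).mul ((hw c).pow K)) m
    have h1 := congrArg (coeffMap ρ) hP
    rw [coeffMap_eval₂_jN, map_sum] at h1
    have h2 : ∑ t ∈ Finset.powersetCard m (Finset.univ : Finset (CosetQ N)),
        coeffMap ρ (∏ c ∈ t, (S c * w c ^ K)) = X * Y ^ K := by
      rw [Finset.sum_eq_single Bad]
      · rw [map_prod]
        simp only [map_mul, map_pow]
        rw [Finset.prod_mul_distrib, Finset.prod_pow]
      · intro t ht hne
        rw [Finset.mem_powersetCard] at ht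
        have hns : ¬ t ⊆ Bad := fun hsub =>
          hne (Finset.eq_of_subset_of_card_le hsub (by rw [ht.2]))
        obtain ⟨c, hct, hcB⟩ := Finset.not_subset.mp hns
        rw [map_prod]
        refine Finset.prod_eq_zero hct ?_
        rw [map_mul]
        have h0 : coeffMap ρ (S c) = 0 := by
          by_contra h
          exact hcB ((hBad c).mpr h)
        rw [h0, zero_mul]
      · intro h
        exact absurd (Finset.mem_powersetCard.mpr ⟨Finset.subset_univ _, rfl⟩) h
    rw [h2] at h1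
    rw [h1]
    refine order_eval₂_jN_nonpos k N _ ?_
    rw [← h1]
    exact mul_ne_zero hX (pow_ne_zero K hY)
  by_contra hpos
  rw [not_le] at hpos
  have hord : ∀ K : ℕ, (X * Y ^ K).order = X.order + K * ∑ c ∈ Bad, e c := by
    intro K
    rw [HahnSeries.order_mul hX (pow_ne_zero K hY), HahnSeries.order_pow, hYord, nsmul_eq_mul]
  have h3 := key (1 - X.order).toNat
  rw [hord] at h3
  have h4 : (((1 - X.order).toNat : ℕ) : ℤ) ≤
      (((1 - X.order).toNat : ℕ) : ℤ) * ∑ c ∈ Bad, e c :=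
    le_mul_of_one_le_right (by positivity) hpos
  omega

/-- **`q`-expansion principle**: if the expansion at `∞` of a nice function is divisible by `ℓ`,
then so is its expansion at every cusp. -/
theorem qep (N ℓ : ℕ) [NeZero N] [Fact ℓ.Prime] (hℓN : ¬ ℓ ∣ N) (g : ℍ → ℂ) (hg : IsNice N ℓ g)
    (s₁ : LaurentSeries (cycRing N ℓ)) (h₁ : HasQExp N g (incO N ℓ s₁))
    (hdiv : ∀ n : ℤ, ∃ w : cycRing N ℓ, s₁.coeff n = (ℓ : cycRing N ℓ) * w)
    (γ : SL(2, ℤ)) (s : LaurentSeries (cycRing N ℓ))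
    (hs : HasQExp N (fun τ => g (γ • τ)) (incO N ℓ s)) (n : ℤ) :
    ∃ w : cycRing N ℓ, s.coeff n = (ℓ : cycRing N ℓ) * w := by
  classical
  by_contra hcon
  obtain ⟨k, _, ρ, hρℓ, hρ⟩ := exists_residue_hom_ne_zero N ℓ hℓN (s.coeff n) hcon
  choose S hS using fun c : CosetQ N => hg.exp (cosetRep c)
  set Bad : Finset (CosetQ N) := Finset.univ.filter (fun c => coeffMap ρ (S c) ≠ 0) with hBad
  have hBad' : ∀ c, c ∈ Bad ↔ coeffMap ρ (S c) ≠ 0 := fun c => by simp [hBad]
  -- the class of `γ` is bad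
  have hc₀ : (QuotientGroup.mk γ : CosetQ N) ∈ Bad := by
    rw [hBad']
    have h1 : HasQExp N (fun τ => g (γ • τ)) (incO N ℓ (S (QuotientGroup.mk γ))) :=
      (hS _).congr (fun τ => hg.apply_eq_of_mk_eq (mk_cosetRep _) τ)
    have h2 : S (QuotientGroup.mk γ) = s := incO_injective N ℓ (h1.unique hs)
    rw [h2]
    intro h0
    apply hρ
    have h3 := congrArg (fun x => x.coeff n) h0
    simpa [coeffMap_coeff] using h3
  -- classes in `Γ₀(N)` are not bad
  have hx : ∀ c ∈ Bad, ¬ (N : ℤ) ∣ (cosetRep c) 1 0 := by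
    intro c hc hdvd
    rw [hBad'] at hc
    apply hc
    have hmem : cosetRep c ∈ CongruenceSubgroup.Gamma0 N := by
      rw [CongruenceSubgroup.Gamma0_mem]
      exact (ZMod.intCast_zmod_eq_zero_iff_dvd _ _).mpr hdvd
    have h1 : HasQExp N g (incO N ℓ (S c)) := (hS c).congr (fun τ => hg.inv _ hmem τ)
    have h2 : S c = s₁ := incO_injective N ℓ (h1.unique h₁)
    rw [h2]
    ext j
    rw [coeffMap_coeff]
    obtain ⟨w, hw⟩ := hdiv j
    rw [hw, map_mul, hρℓ, zero_mul]
    rfl
  -- the sums of the orders of the eta quotients vanish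
  have hsum : ∀ d : ℕ, d ∣ N →
      ∑ c ∈ Bad, ((Int.gcd ((cosetRep c) 1 0) d : ℤ)) ^ 2 = (Bad.card : ℤ) * d := by
    intro d hd
    have hd0 : d ≠ 0 := fun h => NeZero.ne N (by rw [h] at hd; exact zero_dvd_iff.mp hd)
    have : NeZero d := ⟨hd0⟩
    choose w w' a e he hw hw' hl hl' using
      fun c : CosetQ N => Ufun_leading N ℓ hℓN d hd (cosetRep c)
    have h1 : ∑ c ∈ Bad, e c ≤ 0 :=
      sum_order_nonpos ρ hg (isNice_Ufun N ℓ hℓN d hd) S w hS hw e a hl Bad hBad'
    have h2 : ∑ c ∈ Bad, (-e c) ≤ 0 :=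
      sum_order_nonpos ρ hg (isNice_Ufun_inv N ℓ hℓN d hd) S w' hS hw' (fun c => -e c)
        (fun c => (a c)⁻¹) hl' Bad hBad'
    have h3 : ∑ c ∈ Bad, e c = 0 := by
      rw [Finset.sum_neg_distrib] at h2
      omega
    have h4 : ∑ c ∈ Bad, (e c * d) = 0 := by rw [← Finset.sum_mul, h3, zero_mul]
    simp only [he] at h4
    rw [← Finset.mul_sum] at h4
    have hN : (N : ℤ) ≠ 0 := by exact_mod_cast NeZero.ne N
    have h5 := (mul_eq_zero.mp h4).resolve_left hN
    rw [Finset.sum_sub_distrib, Finset.sum_const, nsmul_eq_mul] at h5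
    linarith
  have hempty := bad_empty_of_gcd_sums N (Nat.pos_of_ne_zero (NeZero.ne N)) Bad
    (fun c => (cosetRep c) 1 0) hx hsum
  rw [hempty] at hc₀
  exact absurd hc₀ (Finset.notMem_empty _)

end Fermat.Agent.S28
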