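import Fermat.Agent.S28.Defs

/-!
# S28 piece A1: the ring `ℤ_(ℓ) = GaloisRep.ratLocalizedAt ℓ` and its residue map to `ZMod ℓ`
-/

set_option autoImplicit false

noncomputable section

namespace Fermat.Agent.S28

variable (ℓ : ℕ) [Fact ℓ.Prime]

omit [Fact ℓ.Prime] in
theorem mem_ratLocalizedAt_iff (q : ℚ) :
    q ∈ GaloisRep.ratLocalizedAt ℓ ↔ q.den.Coprime ℓ := Iff.rfl

/-- The submonoid of integers prime to `ℓ`. -/
def primeToSubmonoid : Submonoid ℤ where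
  carrier := {m | ¬ (ℓ : ℤ) ∣ m}
  one_mem' := by
    have hℓ : ℓ.Prime := Fact.out
    show ¬ (ℓ : ℤ) ∣ 1
    intro h
    have h1 : (ℓ : ℤ) ≤ 1 := Int.le_of_dvd one_pos h
    have h2 : 2 ≤ ℓ := hℓ.two_le
    omega
  mul_mem' {a b} ha hb := by
    have hℓ : ℓ.Prime := Fact.out
    intro h
    rcases (Nat.prime_iff_prime_int.mp hℓ).dvd_or_dvd h with h | h
    · exact ha h
    · exact hb h

theorem mem_primeToSubmonoid_iff (m : ℤ) : m ∈ primeToSubmonoid ℓ ↔ ¬ (ℓ : ℤ) ∣ m := Iff.rfl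

theorem intCast_isUnit_ratLocalizedAt (m : ℤ) (hm : ¬ (ℓ : ℤ) ∣ m) :
    IsUnit (m : GaloisRep.ratLocalizedAt ℓ) := by
  have hℓ : ℓ.Prime := Fact.out
  have hm0 : m ≠ 0 := by rintro rfl; exact hm (dvd_zero _)
  have hcop : Nat.Coprime m.natAbs ℓ := by
    rw [Nat.coprime_comm, hℓ.coprime_iff_not_dvd]
    intro h
    exact hm (Int.natCast_dvd.mpr h)
  have hmem : ((m : ℚ))⁻¹ ∈ GaloisRep.ratLocalizedAt ℓ := by
    rw [mem_ratLocalizedAt_iff]
    have hden : ((m : ℚ)⁻¹).den ∣ m.natAbs := by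
      rw [Rat.inv_intCast_den, if_neg hm0]
    exact Nat.Coprime.coprime_dvd_left hden hcop
  refine IsUnit.of_mul_eq_one ⟨(m : ℚ)⁻¹, hmem⟩ (Subtype.ext ?_)
  have hm0' : (m : ℚ) ≠ 0 := by exact_mod_cast hm0
  simp [hm0']

instance isLocalization_ratLocalizedAt :
    IsLocalization (primeToSubmonoid ℓ) (GaloisRep.ratLocalizedAt ℓ) where
  map_units y := by
    have := intCast_isUnit_ratLocalizedAt ℓ (y : ℤ) y.2
    simpa using this
  surj z := by
    have hℓ : ℓ.Prime := Fact.out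
    have hz : (z : ℚ).den.Coprime ℓ := z.2
    have hden : ((z : ℚ).den : ℤ) ∈ primeToSubmonoid ℓ := by
      rw [mem_primeToSubmonoid_iff]
      intro h
      have h2 : ℓ ∣ (z : ℚ).den := Int.natCast_dvd_natCast.mp h
      have := (Nat.coprime_comm.mp hz)
      rw [hℓ.coprime_iff_not_dvd] at this
      exact this h2
    refine ⟨((z : ℚ).num, ⟨((z : ℚ).den : ℤ), hden⟩), Subtype.ext ?_⟩
    simp only [Subring.coe_mul, eq_intCast, Subring.coe_intCast, Int.cast_natCast]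
    exact Rat.mul_den_eq_num (z : ℚ)
  exists_of_eq {x y} h := by
    refine ⟨1, ?_⟩
    have h' : ((x : GaloisRep.ratLocalizedAt ℓ) : ℚ) = ((y : GaloisRep.ratLocalizedAt ℓ) : ℚ) := by
      simpa using congrArg Subtype.val h
    have : x = y := by exact_mod_cast h'
    rw [this]

/-- The residue map `ℤ_(ℓ) → 𝔽_ℓ`. -/
def redR : GaloisRep.ratLocalizedAt ℓ →+* ZMod ℓ :=
  IsLocalization.lift (M := primeToSubmonoid ℓ) (g := Int.castRingHom (ZMod ℓ)) (by
    intro y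
    have hy : ¬ (ℓ : ℤ) ∣ (y : ℤ) := y.2
    rw [isUnit_iff_ne_zero]
    intro h
    exact hy ((ZMod.intCast_zmod_eq_zero_iff_dvd _ _).mp h))

theorem redR_surjective : Function.Surjective (redR ℓ) := by
  intro x
  obtain ⟨n, rfl⟩ := ZMod.intCast_surjective x
  exact ⟨(n : GaloisRep.ratLocalizedAt ℓ), map_intCast _ n⟩

theorem redR_eq_zero_iff (r : GaloisRep.ratLocalizedAt ℓ) :
    redR ℓ r = 0 ↔ ∃ r' : GaloisRep.ratLocalizedAt ℓ, r = (ℓ : GaloisRep.ratLocalizedAt ℓ) * r' := by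
  constructor
  · intro h
    obtain ⟨⟨a, s⟩, has⟩ := IsLocalization.surj (primeToSubmonoid ℓ) r
    simp only [eq_intCast] at has
    have h1 : redR ℓ r * ((s : ℤ) : ZMod ℓ) = ((a : ℤ) : ZMod ℓ) := by
      have := congrArg (redR ℓ) has
      simpa using this
    rw [h, zero_mul] at h1
    obtain ⟨a', rfl⟩ := (ZMod.intCast_zmod_eq_zero_iff_dvd _ _).mp h1.symm
    obtain ⟨u, hu⟩ := intCast_isUnit_ratLocalizedAt ℓ (s : ℤ) s.2
    refine ⟨(a' : GaloisRep.ratLocalizedAt ℓ) * (u⁻¹ : (GaloisRep.ratLocalizedAt ℓ)ˣ), ?_⟩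
    rw [← hu] at has
    have h2 : r = r * (u : GaloisRep.ratLocalizedAt ℓ) * (u⁻¹ : (GaloisRep.ratLocalizedAt ℓ)ˣ) := by
      rw [mul_assoc, Units.mul_inv, mul_one]
    rw [h2, has]
    push_cast
    ring
  · rintro ⟨r', rfl⟩
    rw [map_mul, map_natCast, ZMod.natCast_self, zero_mul]

/-- Ring homomorphisms out of `ℤ_(ℓ)` are unique. -/
theorem ringHom_ext_ratLocalizedAt {S : Type*} [Semiring S]
    (f g : GaloisRep.ratLocalizedAt ℓ →+* S) : f = g :=
  IsLocalization.ringHom_ext (primeToSubmonoid ℓ) (RingHom.ext_int _ _)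

theorem natCast_isUnit_ratLocalizedAt (m : ℕ) (hm : ¬ ℓ ∣ m) :
    IsUnit (m : GaloisRep.ratLocalizedAt ℓ) := by
  have := intCast_isUnit_ratLocalizedAt ℓ (m : ℤ) (fun h => hm (Int.natCast_dvd_natCast.mp h))
  simpa using this

theorem natCast_ell_ne_zero_ratLocalizedAt : (ℓ : GaloisRep.ratLocalizedAt ℓ) ≠ 0 := by
  have hℓ : ℓ.Prime := Fact.out
  intro h
  have := congrArg Subtype.val h
  simp only [Subring.coe_natCast, ZeroMemClass.coe_zero, Nat.cast_eq_zero] at this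
  exact hℓ.ne_zero this

theorem ker_redR : RingHom.ker (redR ℓ) = Ideal.span {(ℓ : GaloisRep.ratLocalizedAt ℓ)} := by
  ext r
  rw [RingHom.mem_ker, redR_eq_zero_iff, Ideal.mem_span_singleton']
  constructor
  · rintro ⟨r', rfl⟩; exact ⟨r', mul_comm _ _⟩
  · rintro ⟨r', rfl⟩; exact ⟨r', mul_comm _ _⟩

theorem prime_ell_ratLocalizedAt : Prime (ℓ : GaloisRep.ratLocalizedAt ℓ) := by
  rw [← Ideal.span_singleton_prime (natCast_ell_ne_zero_ratLocalizedAt ℓ), ← ker_redR]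
  exact RingHom.ker_isPrime _

instance isFractionRing_ratLocalizedAt : IsFractionRing (GaloisRep.ratLocalizedAt ℓ) ℚ := by
  refine IsFractionRing.of_field (GaloisRep.ratLocalizedAt ℓ) ℚ (fun z => ?_)
  refine ⟨(z.num : GaloisRep.ratLocalizedAt ℓ), (z.den : GaloisRep.ratLocalizedAt ℓ), ?_⟩
  simp [Rat.num_div_den]

instance isPrincipalIdealRing_ratLocalizedAt :
    IsPrincipalIdealRing (GaloisRep.ratLocalizedAt ℓ) := by
  refine ⟨fun I => ?_⟩
  have h := IsLocalization.map_under (primeToSubmonoid ℓ) (GaloisRep.ratLocalizedAt ℓ) I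
  obtain ⟨n, hn⟩ := (IsPrincipalIdealRing.principal (Ideal.under ℤ I)).principal
  refine ⟨⟨algebraMap ℤ (GaloisRep.ratLocalizedAt ℓ) n, ?_⟩⟩
  rw [← h, hn]
  rw [← Ideal.span, Ideal.map_span, Set.image_singleton]

end Fermat.Agent.S28
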