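import Fermat.Agent.S28.RedR
import Fermat.Agent.S28.Formal
import Fermat.Prelude.Thm_ModularCurve_coeffMap_qExpand

/-!
# S28 piece A2: the ring `W` of rational Laurent series with `ℓ`-primitive denominators and its
reduction map to `𝔽_ℓ((q))`
-/

set_option autoImplicit false
set_option linter.unusedSectionVars false

open ModularCurve

noncomputable section

namespace Fermat.Agent.S28

variable (ℓ : ℕ) [Fact ℓ.Prime]

/-- The inclusion `ℤ_(ℓ)((q)) → ℚ((q))`. -/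
def incL : LaurentSeries (GaloisRep.ratLocalizedAt ℓ) →+* LaurentSeries ℚ :=
  coeffMap (GaloisRep.ratLocalizedAt ℓ).subtype

/-- Reduction `ℤ_(ℓ)((q)) → 𝔽_ℓ((q))`. -/
def redL : LaurentSeries (GaloisRep.ratLocalizedAt ℓ) →+* LaurentSeries (ZMod ℓ) :=
  coeffMap (redR ℓ)

omit [Fact ℓ.Prime] in
theorem incL_coeff (s : LaurentSeries (GaloisRep.ratLocalizedAt ℓ)) (n : ℤ) :
    (incL ℓ s).coeff n = ((s.coeff n : GaloisRep.ratLocalizedAt ℓ) : ℚ) := rfl

theorem redL_coeff (s : LaurentSeries (GaloisRep.ratLocalizedAt ℓ)) (n : ℤ) :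
    (redL ℓ s).coeff n = redR ℓ (s.coeff n) := rfl

theorem incL_injective : Function.Injective (incL ℓ) := by
  intro x y hxy
  ext k
  have h2 := congrArg (fun z : LaurentSeries ℚ => z.coeff k) hxy
  simp only [incL_coeff] at h2
  exact h2

theorem incL_C (r : GaloisRep.ratLocalizedAt ℓ) : incL ℓ (HahnSeries.C r) = constR ℓ r :=
  coeffMap_single _ 0 r

theorem redL_C (r : GaloisRep.ratLocalizedAt ℓ) :
    redL ℓ (HahnSeries.C r) = HahnSeries.C (redR ℓ r) :=
  coeffMap_single _ 0 r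

theorem redL_eq_zero_iff (s : LaurentSeries (GaloisRep.ratLocalizedAt ℓ)) :
    redL ℓ s = 0 ↔ ∃ s' : LaurentSeries (GaloisRep.ratLocalizedAt ℓ),
      s = HahnSeries.C (ℓ : GaloisRep.ratLocalizedAt ℓ) * s' := by
  constructor
  · intro h
    apply exists_eq_C_mul_of_coeff _ (natCast_ell_ne_zero_ratLocalizedAt ℓ)
    intro n
    have h2 : redR ℓ (s.coeff n) = 0 := by
      have h3 := congrArg (fun z : LaurentSeries (ZMod ℓ) => z.coeff n) h
      simpa [redL_coeff] using h3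
    exact (redR_eq_zero_iff ℓ _).mp h2
  · rintro ⟨s', rfl⟩
    rw [map_mul, redL_C, map_natCast, ZMod.natCast_self, map_zero, zero_mul]

theorem exists_incL_of_coeff_mem (x : LaurentSeries ℚ)
    (hx : ∀ n : ℤ, x.coeff n ∈ GaloisRep.ratLocalizedAt ℓ) :
    ∃ s : LaurentSeries (GaloisRep.ratLocalizedAt ℓ), incL ℓ s = x := by
  refine ⟨⟨fun n => ⟨x.coeff n, hx n⟩, x.isPWO_support.mono fun n hn => ?_⟩, ?_⟩
  · simp only [Function.mem_support, ne_eq, HahnSeries.mem_support] at hn ⊢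
    intro h0
    exact hn (Subtype.ext h0)
  · ext n
    rfl

/-- `W = {x ∈ ℚ((q)) | ∃ s y ∈ ℤ_(ℓ)((q)), s̄ ≠ 0, s x = y}`. -/
def Wring (ℓ : ℕ) [Fact ℓ.Prime] : Subring (LaurentSeries ℚ) where
  carrier := {x | ∃ s y : LaurentSeries (GaloisRep.ratLocalizedAt ℓ),
      redL ℓ s ≠ 0 ∧ incL ℓ s * x = incL ℓ y}
  mul_mem' := by
    rintro a b ⟨s, y, hs, h⟩ ⟨s', y', hs', h'⟩
    refine ⟨s * s', y * y', ?_, ?_⟩
    · rw [map_mul]
      exact mul_ne_zero hs hs'
    · rw [map_mul, map_mul, ← h, ← h']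
      ring
  one_mem' := ⟨1, 1, by rw [map_one]; exact one_ne_zero, by rw [map_one, one_mul]⟩
  add_mem' := by
    rintro a b ⟨s, y, hs, h⟩ ⟨s', y', hs', h'⟩
    refine ⟨s * s', s' * y + s * y', ?_, ?_⟩
    · rw [map_mul]
      exact mul_ne_zero hs hs'
    · rw [map_mul, map_add, map_mul, map_mul, ← h, ← h']
      ring
  zero_mem' := ⟨1, 0, by rw [map_one]; exact one_ne_zero, by rw [map_zero, mul_zero]⟩
  neg_mem' := by
    rintro a ⟨s, y, hs, h⟩
    exact ⟨s, -y, hs, by rw [map_neg, ← h]; ring⟩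

theorem mem_Wring_iff (x : LaurentSeries ℚ) :
    x ∈ Wring ℓ ↔ ∃ s y : LaurentSeries (GaloisRep.ratLocalizedAt ℓ),
      redL ℓ s ≠ 0 ∧ incL ℓ s * x = incL ℓ y := Iff.rfl

theorem wring_exists_rep (x : Wring ℓ) : ∃ s y : LaurentSeries (GaloisRep.ratLocalizedAt ℓ),
    redL ℓ s ≠ 0 ∧ incL ℓ s * (x : LaurentSeries ℚ) = incL ℓ y :=
  (mem_Wring_iff ℓ _).mp x.2

/-- Two fraction representations of the same series are cross-equal after reduction. -/
theorem wring_red_cross {x : LaurentSeries ℚ}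
    {s y s' y' : LaurentSeries (GaloisRep.ratLocalizedAt ℓ)}
    (h : incL ℓ s * x = incL ℓ y) (h' : incL ℓ s' * x = incL ℓ y') :
    redL ℓ s' * redL ℓ y = redL ℓ s * redL ℓ y' := by
  have h1 : s' * y = s * y' := by
    apply incL_injective ℓ
    rw [map_mul, map_mul, ← h, ← h']
    ring
  rw [← map_mul, ← map_mul, h1]

/-- The underlying function of `redW`. -/
def redWFun (x : Wring ℓ) : LaurentSeries (ZMod ℓ) :=
  redL ℓ (wring_exists_rep ℓ x).choose_spec.choose / redL ℓ (wring_exists_rep ℓ x).choose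

theorem redWFun_eq (x : Wring ℓ) (s y : LaurentSeries (GaloisRep.ratLocalizedAt ℓ))
    (hs : redL ℓ s ≠ 0) (h : incL ℓ s * (x : LaurentSeries ℚ) = incL ℓ y) :
    redWFun ℓ x = redL ℓ y / redL ℓ s := by
  obtain ⟨hs0, h0⟩ := (wring_exists_rep ℓ x).choose_spec.choose_spec
  rw [redWFun, div_eq_div_iff hs0 hs]
  have h2 := wring_red_cross ℓ h0 h
  rw [mul_comm (redL ℓ (wring_exists_rep ℓ x).choose_spec.choose), mul_comm (redL ℓ y)]
  exact h2

/-- The reduction map `W → 𝔽_ℓ((q))`, `y / s ↦ ȳ / s̄`. -/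
def redW : Wring ℓ →+* LaurentSeries (ZMod ℓ) where
  toFun := redWFun ℓ
  map_one' := by
    rw [redWFun_eq ℓ 1 1 1 (by rw [map_one]; exact one_ne_zero)
      (by rw [map_one, one_mul]; rfl), map_one, div_one]
  map_mul' := by
    intro a b
    obtain ⟨s, y, hs, h⟩ := wring_exists_rep ℓ a
    obtain ⟨s', y', hs', h'⟩ := wring_exists_rep ℓ b
    rw [redWFun_eq ℓ a s y hs h, redWFun_eq ℓ b s' y' hs' h',
      redWFun_eq ℓ (a * b) (s * s') (y * y') (by rw [map_mul]; exact mul_ne_zero hs hs')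
        (by rw [map_mul, map_mul, ← h, ← h', Subring.coe_mul]; ring),
      map_mul, map_mul, mul_div_mul_comm]
  map_zero' := by
    rw [redWFun_eq ℓ 0 1 0 (by rw [map_one]; exact one_ne_zero)
      (by rw [map_zero, Subring.coe_zero, mul_zero]), map_zero, zero_div]
  map_add' := by
    intro a b
    obtain ⟨s, y, hs, h⟩ := wring_exists_rep ℓ a
    obtain ⟨s', y', hs', h'⟩ := wring_exists_rep ℓ b
    rw [redWFun_eq ℓ a s y hs h, redWFun_eq ℓ b s' y' hs' h',
      redWFun_eq ℓ (a + b) (s * s') (s' * y + s * y') (by rw [map_mul]; exact mul_ne_zero hs hs')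
        (by rw [map_mul, map_add, map_mul, map_mul, ← h, ← h', Subring.coe_add]; ring),
      map_mul, map_add, map_mul, map_mul, div_add_div _ _ hs hs']
    congr 1
    ring

theorem redW_eq (x : Wring ℓ) (s y : LaurentSeries (GaloisRep.ratLocalizedAt ℓ))
    (hs : redL ℓ s ≠ 0) (h : incL ℓ s * (x : LaurentSeries ℚ) = incL ℓ y) :
    redW ℓ x = redL ℓ y / redL ℓ s :=
  redWFun_eq ℓ x s y hs h

theorem redW_spec (x : Wring ℓ) (s y : LaurentSeries (GaloisRep.ratLocalizedAt ℓ))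
    (h : incL ℓ s * (x : LaurentSeries ℚ) = incL ℓ y) : redL ℓ s * redW ℓ x = redL ℓ y := by
  obtain ⟨s₀, y₀, hs₀, h₀⟩ := wring_exists_rep ℓ x
  have h1 : redW ℓ x = redL ℓ y₀ / redL ℓ s₀ := redW_eq ℓ x s₀ y₀ hs₀ h₀
  have h2 := wring_red_cross ℓ h₀ h
  rw [h1, ← mul_div_assoc, h2]
  exact mul_div_cancel_left₀ _ hs₀

end Fermat.Agent.S28
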